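/-
S53 (universal deformation ring) -- shared definitions.
Owner: helper53.  Everything lives in `namespace Fermat.Agent.S53`.
-/
import Mathlib
import Fermat.Prelude.Def_GaloisRep_DeformationRingData
import Fermat.Prelude.Def_GaloisRep_DeformationCondition

set_option autoImplicit false

noncomputable section

namespace Fermat.Agent.S53

open IsLocalRing

/-- The absolute Galois group of `ℚ`. -/
abbrev Gal : Type := AlgebraicClosure ℚ ≃ₐ[ℚ] AlgebraicClosure ℚ

/-- `2 × 2` matrices. -/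
abbrev M2 (A : Type) : Type := Matrix (Fin 2) (Fin 2) A

/-- Adic continuity of a matrix valued representation (entrywise version of
`GaloisActionIsAdicContinuous`). -/
def IsContMat {A : Type} [CommRing A] [IsLocalRing A] (r : Gal →* M2 A) : Prop :=
  ∀ n : ℕ, ∃ L : IntermediateField ℚ (AlgebraicClosure ℚ), FiniteDimensional ℚ L ∧
    ∀ σ : Gal, (∀ x ∈ L, σ x = x) → ∀ i j, (r σ - 1) i j ∈ maximalIdeal A ^ n

/-- Push a matrix representation forward along a ring homomorphism. -/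
def mapMat {A B : Type} [CommRing A] [CommRing B] (φ : A →+* B) (r : Gal →* M2 A) :
    Gal →* M2 B :=
  (φ.mapMatrix : M2 A →+* M2 B).toMonoidHom.comp r

@[simp] lemma mapMat_apply {A B : Type} [CommRing A] [CommRing B] (φ : A →+* B)
    (r : Gal →* M2 A) (σ : Gal) (i j : Fin 2) : mapMat φ r σ i j = φ (r σ i j) := rfl

lemma mapMat_id {A : Type} [CommRing A] (r : Gal →* M2 A) : mapMat (RingHom.id A) r = r := by
  ext σ i j; rfl

lemma mapMat_comp {A B C : Type} [CommRing A] [CommRing B] [CommRing C] (φ : A →+* B)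
    (ψ : B →+* C) (r : Gal →* M2 A) : mapMat (ψ.comp φ) r = mapMat ψ (mapMat φ r) := by
  ext σ i j; rfl

lemma IsContMat.map {A B : Type} [CommRing A] [IsLocalRing A] [CommRing B] [IsLocalRing B]
    {r : Gal →* M2 A} (hr : IsContMat r) (φ : A →+* B) (hφ : IsLocalHom φ) :
    IsContMat (mapMat φ r) := by
  intro n
  obtain ⟨L, hL, h⟩ := hr n
  refine ⟨L, hL, fun σ hσ i j => ?_⟩
  have hmap : (maximalIdeal A ^ n).map φ ≤ maximalIdeal B ^ n := by
    rw [Ideal.map_pow]
    exact Ideal.pow_right_mono (Ideal.map_le_iff_le_comap.mpr fun a ha =>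
      Ideal.mem_comap.mpr (haveI := hφ; map_nonunit φ a ha)) n
  have h1 : (mapMat φ r σ - 1) i j = φ ((r σ - 1) i j) := by
    simp only [Matrix.sub_apply, mapMat_apply, map_sub]
    congr 1
    by_cases hij : i = j
    · subst hij; simp
    · simp [Matrix.one_apply_ne hij]
  rw [h1]
  exact hmap (Ideal.mem_map_of_mem φ (h σ hσ i j))

/-- Membership in `I • ⊤ ⊆ (Fin 2 → A)` can be checked coordinatewise. -/
lemma mem_smul_top_pi {A : Type} [CommRing A] (I : Ideal A) (w : Fin 2 → A)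
    (hw : ∀ i, w i ∈ I) : w ∈ I • (⊤ : Submodule A (Fin 2 → A)) := by
  have : w = ∑ i, w i • (Pi.single i (1 : A) : Fin 2 → A) := by
    ext j
    simp [Finset.sum_apply, Pi.single_apply]
  rw [this]
  exact Submodule.sum_mem _ fun i _ => Submodule.smul_mem_smul (hw i) Submodule.mem_top

/-- The `GaloisRepAdic` attached to a continuous matrix representation, on `V = Fin 2 → A`. -/
def ofMat {A : Type} [CommRing A] [IsLocalRing A] (r : Gal →* M2 A)
    (hr : IsContMat r) : GaloisRepAdic A where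
  V := Fin 2 → A
  finrank_eq := by simp
  ρ := (Matrix.toLinAlgEquiv' (R := A) (n := Fin 2)).toAlgHom.toRingHom.toMonoidHom.comp r
  isAdicContinuous := by
    intro n
    obtain ⟨L, hL, h⟩ := hr n
    refine ⟨L, hL, fun σ hσ v => ?_⟩
    apply mem_smul_top_pi
    intro i
    have : ((Matrix.toLinAlgEquiv' (R := A) (n := Fin 2)).toAlgHom.toRingHom.toMonoidHom.comp r) σ v
        - v = (r σ - 1).mulVec v := by
      simp [Matrix.sub_mulVec]
    rw [this, Matrix.mulVec, dotProduct]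
    exact Ideal.sum_mem _ fun j _ => Ideal.mul_mem_right _ _ (h σ hσ i j)

@[simp] lemma ofMat_ρ_apply {A : Type} [CommRing A] [IsLocalRing A] (r : Gal →* M2 A)
    (hr : IsContMat r) (σ : Gal) (v : Fin 2 → A) :
    (ofMat r hr).ρ σ v = (r σ).mulVec v := rfl

/-- Rigidification data attached to the residual representation: a basis, an entrywise lift
`c` of the matrices of `ρbar` in that basis, and two finitely supported families of coefficients
`a`, `b` such that `∑ a σ • c σ ≡ E₀₀` and `∑ b σ • c σ ≡ E₁₀` modulo the maximal ideal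
(these exist by Burnside's theorem when `ρbar` is absolutely irreducible). -/
structure RigidData (𝒪 : Type) [CommRing 𝒪] [IsLocalRing 𝒪]
    (ρbar : ResidualGaloisRep (ResidueField 𝒪)) : Type where
  basis : Module.Basis (Fin 2) (ResidueField 𝒪) ρbar.V
  c : Gal → M2 𝒪
  a : Gal →₀ 𝒪
  b : Gal →₀ 𝒪
  hc : ∀ σ i j, residue 𝒪 (c σ i j) = LinearMap.toMatrix basis basis (ρbar.ρ σ) i j
  ha : ∀ i j, (∑ σ ∈ a.support, a σ • c σ) i j - (if i = 0 ∧ j = 0 then 1 else 0)
    ∈ maximalIdeal 𝒪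
  hb : ∀ i j, (∑ σ ∈ b.support, b σ • c σ) i j - (if i = 1 ∧ j = 0 then 1 else 0)
    ∈ maximalIdeal 𝒪

section Lifts

variable {𝒪 : Type} [CommRing 𝒪] [IsLocalRing 𝒪] {ρbar : ResidualGaloisRep (ResidueField 𝒪)}
  (D : RigidData 𝒪 ρbar) {A : Type} [CommRing A] [IsLocalRing A] [Algebra 𝒪 A]

/-- `r` lifts (the chosen matrix form of) `ρbar`: entrywise congruent to `c` mod `𝔪_A`. -/
def LiftsC (r : Gal →* M2 A) : Prop :=
  ∀ σ i j, r σ i j - algebraMap 𝒪 A (D.c σ i j) ∈ maximalIdeal A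

/-- The matrix `e(r) = ∑ a σ • r σ` (reduces to `E₀₀`). -/
def eMat (r : Gal →* M2 A) : M2 A := ∑ σ ∈ D.a.support, algebraMap 𝒪 A (D.a σ) • r σ

/-- The matrix `f(r) = ∑ b σ • r σ` (reduces to `E₁₀`). -/
def fMat (r : Gal →* M2 A) : M2 A := ∑ σ ∈ D.b.support, algebraMap 𝒪 A (D.b σ) • r σ

/-- Normalised lifts: `e(r)₁₀ = 0`, `f(r)₀₀ = 0`, `f(r)₁₀ = 1`. -/
def Normalized (r : Gal →* M2 A) : Prop :=
  eMat D r 1 0 = 0 ∧ fMat D r 0 0 = 0 ∧ fMat D r 1 0 = 1

end Lifts

/-- The polynomial ring on the matrix entries `X^σ_{ij}`. -/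
abbrev Pol (𝒪 : Type) [CommRing 𝒪] : Type := MvPolynomial (Gal × Fin 2 × Fin 2) 𝒪

/-- Evaluation of polynomials in the matrix entries at a matrix representation. -/
def ev {𝒪 : Type} [CommRing 𝒪] {A : Type} [CommRing A] [Algebra 𝒪 A] (r : Gal →* M2 A) :
    Pol 𝒪 →ₐ[𝒪] A :=
  MvPolynomial.aeval (fun x : Gal × Fin 2 × Fin 2 => r x.1 x.2.1 x.2.2)

@[simp] lemma ev_X {𝒪 : Type} [CommRing 𝒪] {A : Type} [CommRing A] [Algebra 𝒪 A]
    (r : Gal →* M2 A) (σ : Gal) (i j : Fin 2) :
    ev (𝒪 := 𝒪) r (MvPolynomial.X (σ, i, j)) = r σ i j := by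
  simp [ev]

lemma ev_map {𝒪 : Type} [CommRing 𝒪] {A B : Type} [CommRing A] [Algebra 𝒪 A] [CommRing B]
    [Algebra 𝒪 B] (φ : A →ₐ[𝒪] B) (r : Gal →* M2 A) :
    φ.comp (ev (𝒪 := 𝒪) r) = ev (mapMat (φ : A →+* B) r) := by
  apply MvPolynomial.algHom_ext
  intro x
  simp [ev]

section NLift

variable {𝒪 : Type} [CommRing 𝒪] [IsLocalRing 𝒪] {ρbar : ResidualGaloisRep (ResidueField 𝒪)}
  (D : RigidData 𝒪 ρbar)
  (𝒟 : ∀ ⦃A : Type⦄ [CommRing A] [IsLocalRing A] [Algebra 𝒪 A], GaloisRepAdic A → Prop)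

/-- Normalised lifts of type `𝒟`. -/
structure IsNLift {A : Type} [CommRing A] [IsLocalRing A] [Algebra 𝒪 A] (r : Gal →* M2 A) :
    Prop where
  cont : IsContMat r
  lifts : LiftsC D r
  norm : Normalized D r
  isD : 𝒟 (ofMat r cont)

/-- A point: an Artinian test algebra together with a normalised `𝒟`-lift whose matrix entries
generate it as an `𝒪`-algebra. -/
structure Pt : Type 1 where
  A : Type
  [commRing : CommRing A]
  [isLocalRing : IsLocalRing A]
  [algebra : Algebra 𝒪 A]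
  test : GaloisRep.IsArtinianTestAlgebra 𝒪 A
  r : Gal →* M2 A
  nlift : IsNLift D 𝒟 r
  gen : Function.Surjective (ev (𝒪 := 𝒪) r)

attribute [instance] Pt.commRing Pt.isLocalRing Pt.algebra

end NLift

end Fermat.Agent.S53

end
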