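import Mathlib
import Fermat.Prelude.Def_GaloisRep_Residual
import Fermat.Agent.S53.Defs

set_option autoImplicit false

namespace Fermat.Agent.S53.Burnside

open scoped TensorProduct

section Abstract

variable {K W : Type*} [Field K] [IsAlgClosed K] [AddCommGroup W] [Module K W]

/-- Burnside's theorem in dimension two: a submonoid of `End K W` (`K` algebraically closed,
`dim W = 2`) without proper nonzero invariant subspaces spans `End K W`. -/
theorem span_submonoid_eq_top_of_irreducible (hW : Module.finrank K W = 2)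
    (S : Submonoid (Module.End K W))
    (hirr : ∀ U : Submodule K W, (∀ s ∈ S, ∀ x ∈ U, s x ∈ U) → U = ⊥ ∨ U = ⊤) :
    Submodule.span K (S : Set (Module.End K W)) = ⊤ := by
  classical
  have : FiniteDimensional K W := Module.finite_of_finrank_eq_succ hW
  have : Nontrivial W := Module.nontrivial_of_finrank_eq_succ hW
  set B : Subalgebra K (Module.End K W) := Algebra.adjoin K (S : Set (Module.End K W)) with hB
  have hBspan : Subalgebra.toSubmodule B = Submodule.span K (S : Set (Module.End K W)) := by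
    rw [hB, Algebra.adjoin_eq_span, Submonoid.closure_eq]
  have hline : ∀ w : W, w ≠ 0 → (K ∙ w) ≠ ⊤ := by
    intro w hw htop
    have h1 : Module.finrank K (K ∙ w) = 1 := finrank_span_singleton hw
    rw [htop, finrank_top, hW] at h1
    omega
  -- cyclicity
  have hcyc : ∀ w : W, w ≠ 0 → ∀ y : W, ∃ T ∈ B, T w = y := by
    intro w hw y
    let U : Submodule K W := (Subalgebra.toSubmodule B).map (LinearMap.applyₗ w)
    have hU : U = ⊤ := by
      rcases hirr U (by
        rintro s hs x ⟨T, hT, rfl⟩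
        exact ⟨s * T, B.mul_mem (Algebra.subset_adjoin hs) hT, rfl⟩) with h | h
      · exfalso
        have hwU : w ∈ U := ⟨1, B.one_mem, rfl⟩
        rw [h] at hwU
        exact hw ((Submodule.mem_bot K).mp hwU)
      · exact h
    have hy : y ∈ U := by rw [hU]; trivial
    obtain ⟨T, hT, rfl⟩ := hy
    exact ⟨T, hT, rfl⟩
  obtain ⟨w0, hw0⟩ := exists_ne (0 : W)
  have hex : ∃ s ∈ S, s w0 ∉ (K ∙ w0) := by
    by_contra hcon
    push Not at hcon
    rcases hirr (K ∙ w0) (fun s hs x hx => by
      obtain ⟨c, rfl⟩ := Submodule.mem_span_singleton.mp hx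
      rw [map_smul]
      exact Submodule.smul_mem _ _ (hcon s hs)) with h | h
    · exact hw0 ((Submodule.span_singleton_eq_bot).mp h)
    · exact hline w0 hw0 h
  obtain ⟨s, hs, hsw⟩ := hex
  obtain ⟨μ, hμ⟩ := Module.End.exists_eigenvalue s
  obtain ⟨v, hv⟩ := hμ.exists_hasEigenvector
  have hvne : v ≠ 0 := hv.2
  set X : Module.End K W := s - algebraMap K (Module.End K W) μ with hX
  have hXB : X ∈ B := B.sub_mem (Algebra.subset_adjoin hs) (B.algebraMap_mem μ)
  have hXv : X v = 0 := by
    rw [hX, LinearMap.sub_apply, hv.apply_eq_smul, Module.algebraMap_end_apply, sub_self]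
  have hXw0 : X w0 ≠ 0 := by
    intro h
    apply hsw
    rw [hX, LinearMap.sub_apply, Module.algebraMap_end_apply, sub_eq_zero] at h
    rw [h]
    exact Submodule.smul_mem _ _ (Submodule.mem_span_singleton_self w0)
  have hli : LinearIndependent K ![v, w0] := by
    rw [LinearIndependent.pair_iff' hvne]
    intro a ha
    apply hXw0
    rw [← ha, map_smul, hXv, smul_zero]
  have hspan : Submodule.span K ({v, w0} : Set W) = ⊤ := by
    have h := hli.span_eq_top_of_card_eq_finrank' (by simp [hW])
    rwa [Matrix.range_cons_cons_empty] at h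
  have hE : ∀ y : W, ∃ E ∈ B, E v = 0 ∧ E w0 = y := by
    intro y
    obtain ⟨Z, hZ, hZu⟩ := hcyc (X w0) hXw0 y
    refine ⟨Z * X, B.mul_mem hZ hXB, ?_, ?_⟩
    · rw [Module.End.mul_apply, hXv, map_zero]
    · rw [Module.End.mul_apply, hZu]
  obtain ⟨Y, hY, hYv⟩ := hcyc v hvne w0
  obtain ⟨α, β, hαβ⟩ : ∃ α β : K, α • v + β • w0 = Y w0 := by
    have : Y w0 ∈ Submodule.span K ({v, w0} : Set W) := by rw [hspan]; trivial
    exact Submodule.mem_span_pair.mp this
  have hE' : ∀ y : W, ∃ E ∈ B, E v = y ∧ E w0 = 0 := by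
    intro y
    obtain ⟨E, hE1, hE2, hE3⟩ := hE y
    refine ⟨E * Y - β • E, B.sub_mem (B.mul_mem hE1 hY) (B.smul_mem hE1 β), ?_, ?_⟩
    · rw [LinearMap.sub_apply, Module.End.mul_apply, hYv, hE3, LinearMap.smul_apply, hE2,
        smul_zero, sub_zero]
    · rw [LinearMap.sub_apply, Module.End.mul_apply, ← hαβ, map_add, map_smul, map_smul, hE2,
        hE3, LinearMap.smul_apply, hE3, smul_zero, zero_add, sub_self]
  rw [← hBspan, eq_top_iff]
  intro T _
  obtain ⟨E1, hE1, h11, h12⟩ := hE' (T v)
  obtain ⟨E2, hE2, h21, h22⟩ := hE (T w0)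
  have hT : T = E1 + E2 := by
    apply LinearMap.ext_on hspan
    intro x hx
    rcases hx with rfl | rfl
    · rw [LinearMap.add_apply, h11, h21, add_zero]
    · rw [LinearMap.add_apply, h12, h22, zero_add]
  rw [hT]
  exact B.add_mem hE1 hE2

end Abstract

section Descent

variable {k K : Type*} [Field k] [Field K] [Algebra k K]

/-- If the `K`-span of the images of a set of `k`-rational matrices is everything, so is the
`k`-span of the set. -/
theorem span_eq_top_of_span_map_eq_top {ι : Type*} (m : ι → Matrix (Fin 2) (Fin 2) k)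
    (h : Submodule.span K (Set.range fun i => (m i).map (algebraMap k K)) = ⊤) :
    Submodule.span k (Set.range m) = ⊤ := by
  classical
  by_contra hne
  obtain ⟨φ, hφ0, hφ⟩ := Submodule.exists_le_ker_of_lt_top _ (lt_top_iff_ne_top.mpr hne)
  -- the base-changed functional
  let Φ : Matrix (Fin 2) (Fin 2) K →ₗ[K] K :=
    { toFun := fun X => ∑ i : Fin 2, ∑ j : Fin 2,
        algebraMap k K (φ (Matrix.single i j 1)) * X i j
      map_add' := fun X Y => by
        simp only [Matrix.add_apply, mul_add, Finset.sum_add_distrib]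
      map_smul' := fun c X => by
        simp only [Matrix.smul_apply, smul_eq_mul, RingHom.id_apply, Finset.mul_sum]
        refine Finset.sum_congr rfl fun i _ => Finset.sum_congr rfl fun j _ => by ring }
  have hΦ : ∀ X : Matrix (Fin 2) (Fin 2) K,
      Φ X = ∑ i : Fin 2, ∑ j : Fin 2, algebraMap k K (φ (Matrix.single i j 1)) * X i j :=
    fun X => rfl
  have hφM : ∀ M : Matrix (Fin 2) (Fin 2) k,
      algebraMap k K (φ M) = Φ (M.map (algebraMap k K)) := by
    intro M
    rw [hΦ]
    conv_lhs => rw [Matrix.matrix_eq_sum_single M]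
    simp only [map_sum, Matrix.map_apply]
    refine Finset.sum_congr rfl fun i _ => Finset.sum_congr rfl fun j _ => ?_
    have : (Matrix.single i j (M i j) : Matrix (Fin 2) (Fin 2) k) =
        (M i j) • Matrix.single i j 1 := by
      rw [Matrix.smul_single, smul_eq_mul, mul_one]
    rw [this, map_smul, smul_eq_mul, map_mul, mul_comm]
  have hΦ0 : Φ = 0 := by
    have hle : Submodule.span K (Set.range fun i => (m i).map (algebraMap k K)) ≤
        LinearMap.ker Φ := by
      rw [Submodule.span_le]
      rintro _ ⟨i, rfl⟩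
      have h0 : φ (m i) = 0 := hφ (Submodule.subset_span ⟨i, rfl⟩)
      change Φ ((m i).map (algebraMap k K)) = 0
      rw [← hφM, h0, map_zero]
    rw [h, top_le_iff] at hle
    exact LinearMap.ker_eq_top.mp hle
  apply hφ0
  apply LinearMap.ext
  intro M
  have := hφM M
  rw [hΦ0, LinearMap.zero_apply] at this
  rw [LinearMap.zero_apply]
  exact (map_eq_zero (algebraMap k K)).mp this

end Descent

section Residual

local notation "Γℚ" => (AlgebraicClosure ℚ ≃ₐ[ℚ] AlgebraicClosure ℚ)

variable {k : Type} [Field k]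

/-- Burnside for an absolutely irreducible residual representation: the matrices of the
`ρbar σ` in any basis span the full matrix algebra over `k`. -/
theorem span_range_toMatrix_eq_top (ρbar : ResidualGaloisRep k)
    (habs : ρbar.IsAbsolutelyIrreducible) (b0 : Module.Basis (Fin 2) k ρbar.V) :
    Submodule.span k (Set.range fun σ : Γℚ => LinearMap.toMatrix b0 b0 (ρbar.ρ σ)) = ⊤ := by
  classical
  apply span_eq_top_of_span_map_eq_top (K := AlgebraicClosure k)
  set K := AlgebraicClosure k with hK
  let bK := Algebra.TensorProduct.basis K b0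
  have h1 : Submodule.span K
      ((MonoidHom.mrange (ρbar.baseChange K).ρ : Submonoid (Module.End K (ρbar.baseChange K).V)) :
        Set (Module.End K (ρbar.baseChange K).V)) = ⊤ :=
    span_submonoid_eq_top_of_irreducible (ρbar.baseChange K).finrank_eq _ (by
      intro U hU
      exact habs U (fun σ x hx => hU _ ⟨σ, rfl⟩ x hx))
  have h2 : (Submodule.span K
      ((MonoidHom.mrange (ρbar.baseChange K).ρ : Submonoid (Module.End K (ρbar.baseChange K).V)) :
        Set (Module.End K (ρbar.baseChange K).V))).map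
        (LinearMap.toMatrix bK bK).toLinearMap = ⊤ := by
    rw [h1, Submodule.map_top, LinearMap.range_eq_top]
    exact (LinearMap.toMatrix bK bK).surjective
  rw [Submodule.map_span] at h2
  rw [← h2]
  congr 1
  ext X
  constructor
  · rintro ⟨σ, rfl⟩
    refine ⟨(ρbar.ρ σ).baseChange K, ⟨σ, rfl⟩, ?_⟩
    exact LinearMap.toMatrix_baseChange K (ρbar.ρ σ) b0 b0
  · rintro ⟨_, ⟨σ, rfl⟩, rfl⟩
    exact ⟨σ, (LinearMap.toMatrix_baseChange K (ρbar.ρ σ) b0 b0).symm⟩

/-- Every matrix is a finite `k`-linear combination of the matrices of the `ρbar σ`. -/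
theorem exists_finsupp_sum_toMatrix_eq (ρbar : ResidualGaloisRep k)
    (habs : ρbar.IsAbsolutelyIrreducible) (b0 : Module.Basis (Fin 2) k ρbar.V)
    (M : Matrix (Fin 2) (Fin 2) k) :
    ∃ a : Γℚ →₀ k, (a.sum fun σ c => c • LinearMap.toMatrix b0 b0 (ρbar.ρ σ)) = M := by
  have hM : M ∈ Submodule.span k
      (Set.range fun σ : Γℚ => LinearMap.toMatrix b0 b0 (ρbar.ρ σ)) := by
    rw [span_range_toMatrix_eq_top ρbar habs b0]; trivial
  exact Finsupp.mem_span_range_iff_exists_finsupp.mp hM

end Residual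

end Fermat.Agent.S53.Burnside

namespace Fermat.Agent.S53

open IsLocalRing

/-- Auxiliary: lifting a Burnside combination from the residue field to `𝒪`. -/
theorem Burnside.lift_combination {𝒪 : Type} [CommRing 𝒪] [IsLocalRing 𝒪]
    (m : Gal → Matrix (Fin 2) (Fin 2) (ResidueField 𝒪)) (c : Gal → M2 𝒪)
    (hc : ∀ σ i j, residue 𝒪 (c σ i j) = m σ i j)
    (abar : Gal →₀ ResidueField 𝒪) (s : ResidueField 𝒪 → 𝒪) (hs : ∀ x, residue 𝒪 (s x) = x)
    (hs0 : s 0 = 0) (E : Matrix (Fin 2) (Fin 2) (ResidueField 𝒪))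
    (hE : (abar.sum fun σ x => x • m σ) = E) (E' : Fin 2 → Fin 2 → 𝒪)
    (hE' : ∀ i j, residue 𝒪 (E' i j) = E i j) (i j : Fin 2) :
    (∑ σ ∈ (abar.mapRange s hs0).support, (abar.mapRange s hs0) σ • c σ) i j - E' i j
      ∈ maximalIdeal 𝒪 := by
  classical
  rw [← residue_eq_zero_iff, map_sub, hE', ← hE, sub_eq_zero, Matrix.sum_apply, map_sum,
    Finsupp.sum, Matrix.sum_apply]
  have hterm : ∀ σ, residue 𝒪 (((abar.mapRange s hs0) σ • c σ) i j) = (abar σ • m σ) i j := by
    intro σ
    rw [Matrix.smul_apply, Matrix.smul_apply, smul_eq_mul, smul_eq_mul, map_mul, hc,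
      Finsupp.mapRange_apply, hs]
  simp only [hterm]
  apply Finset.sum_subset Finsupp.support_mapRange
  intro σ _ hσ
  have h0 : (abar.mapRange s hs0) σ = 0 := Finsupp.notMem_support_iff.mp hσ
  have h1 : abar σ = 0 := by
    rw [Finsupp.mapRange_apply] at h0
    rw [← hs (abar σ), h0, map_zero]
  rw [h1, zero_smul, Matrix.zero_apply]

/-- Burnside: an absolutely irreducible residual representation admits rigidification data. -/
theorem exists_rigidData {𝒪 : Type} [CommRing 𝒪] [IsLocalRing 𝒪]
    (ρbar : ResidualGaloisRep (ResidueField 𝒪)) (habs : ρbar.IsAbsolutelyIrreducible) :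
    Nonempty (RigidData 𝒪 ρbar) := by
  classical
  let b0 : Module.Basis (Fin 2) (ResidueField 𝒪) ρbar.V :=
    Module.finBasisOfFinrankEq _ _ ρbar.finrank_eq
  have hsurj : Function.Surjective (residue 𝒪) := IsLocalRing.residue_surjective
  let s : ResidueField 𝒪 → 𝒪 := fun x => if x = 0 then 0 else Classical.choose (hsurj x)
  have hs : ∀ x, residue 𝒪 (s x) = x := by
    intro x
    by_cases hx : x = 0
    · subst hx
      show residue 𝒪 (if (0 : ResidueField 𝒪) = 0 then 0 else _) = 0
      rw [if_pos rfl, map_zero]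
    · show residue 𝒪 (if x = 0 then 0 else Classical.choose (hsurj x)) = x
      rw [if_neg hx]
      exact Classical.choose_spec (hsurj x)
  have hs0 : s 0 = 0 := if_pos rfl
  let m : Gal → Matrix (Fin 2) (Fin 2) (ResidueField 𝒪) :=
    fun σ => LinearMap.toMatrix b0 b0 (ρbar.ρ σ)
  let c : Gal → M2 𝒪 := fun σ => Matrix.of fun i j => s (m σ i j)
  have hc : ∀ σ i j, residue 𝒪 (c σ i j) = m σ i j := fun σ i j => hs _
  obtain ⟨abar, habar⟩ :=
    Burnside.exists_finsupp_sum_toMatrix_eq ρbar habs b0 (Matrix.single 0 0 1)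
  obtain ⟨bbar, hbbar⟩ :=
    Burnside.exists_finsupp_sum_toMatrix_eq ρbar habs b0 (Matrix.single 1 0 1)
  refine ⟨{ basis := b0, c := c, a := abar.mapRange s hs0, b := bbar.mapRange s hs0,
            hc := hc, ha := ?_, hb := ?_ }⟩
  · intro i j
    refine Burnside.lift_combination m c hc abar s hs hs0 _ habar
      (fun i j => if i = 0 ∧ j = 0 then 1 else 0) ?_ i j
    intro i j
    rw [Matrix.single_apply]
    by_cases h : i = 0 ∧ j = 0
    · rw [if_pos h, if_pos ⟨h.1.symm, h.2.symm⟩, map_one]
    · rw [if_neg h, if_neg (fun h' => h ⟨h'.1.symm, h'.2.symm⟩), map_zero]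
  · intro i j
    refine Burnside.lift_combination m c hc bbar s hs hs0 _ hbbar
      (fun i j => if i = 1 ∧ j = 0 then 1 else 0) ?_ i j
    intro i j
    rw [Matrix.single_apply]
    by_cases h : i = 1 ∧ j = 0
    · rw [if_pos h, if_pos ⟨h.1.symm, h.2.symm⟩, map_one]
    · rw [if_neg h, if_neg (fun h' => h ⟨h'.1.symm, h'.2.symm⟩), map_zero]

end Fermat.Agent.S53
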