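/-
S53 (universal deformation ring) -- passage from the Artinian universal property to the
full `DeformationRingData` (complete noetherian local test rings).
Owner: helper59.  Everything lives in `namespace Fermat.Agent.S53.CompleteLift`.
-/
import Fermat.Agent.S53.Defs

set_option autoImplicit false
set_option linter.unusedSectionVars false
set_option linter.style.haveILetI false

noncomputable section

namespace Fermat.Agent.S53

open IsLocalRing

namespace CompleteLift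

/-! ### Generic local-algebra facts -/

/-- An `𝒪`-algebra map into a local `𝒪`-algebra `A` whose residue field is hit by `𝒪` (and with
`𝒪 → A` local) is automatically a local homomorphism. -/
theorem isLocalHom_of_residue_surjective {𝒪 R A : Type} [CommRing 𝒪]
    [CommRing R] [IsLocalRing R] [Algebra 𝒪 R] [CommRing A] [IsLocalRing A] [Algebra 𝒪 A]
    [IsLocalHom (algebraMap 𝒪 A)]
    (hA : Function.Surjective (residue A ∘ algebraMap 𝒪 A)) (φ : R →ₐ[𝒪] A) :
    IsLocalHom (φ : R →+* A) := by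
  refine ⟨fun a ha => ?_⟩
  by_contra hna
  have ham : a ∈ maximalIdeal R := hna
  obtain ⟨c, hc⟩ := hA (residue A (φ a))
  have hx : φ (a - algebraMap 𝒪 R c) ∈ maximalIdeal A := by
    rw [map_sub, AlgHom.commutes, ← Ideal.Quotient.eq_zero_iff_mem, map_sub, sub_eq_zero]
    exact hc.symm
  by_cases hcu : IsUnit c
  · -- then `a - c` is a unit of `R`, so its image is a unit of `A`
    have hu : IsUnit (a - algebraMap 𝒪 R c) := by
      by_contra hnu
      have h1 : a - algebraMap 𝒪 R c ∈ maximalIdeal R := hnu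
      have h2 : algebraMap 𝒪 R c ∈ maximalIdeal R := by
        have := (maximalIdeal R).sub_mem ham h1
        simpa using this
      exact h2 (hcu.map (algebraMap 𝒪 R))
    exact hx (hu.map (φ : R →+* A))
  · have hcA : algebraMap 𝒪 A c ∈ maximalIdeal A := fun h => hcu (isUnit_of_map_unit _ c h)
    have : φ a ∈ maximalIdeal A := by
      have := (maximalIdeal A).add_mem hx hcA
      rw [map_sub, AlgHom.commutes] at this
      simpa using this
    exact this ha

section Quot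

variable {𝒪 A : Type} [CommRing 𝒪] [CommRing A] [IsLocalRing A] [Algebra 𝒪 A]

/-- The quotients `A ⧸ 𝔪 ^ (n + 1)` of a local ring are local. -/
theorem isLocalRing_quot (n : ℕ) : IsLocalRing (A ⧸ maximalIdeal A ^ (n + 1)) := by
  have : Nontrivial (A ⧸ maximalIdeal A ^ (n + 1)) :=
    Ideal.Quotient.nontrivial_iff.mpr fun h =>
      (maximalIdeal.isMaximal A).ne_top
        (top_le_iff.mp (h ▸ Ideal.pow_le_self (Nat.succ_ne_zero n)))
  exact IsLocalRing.of_surjective' (Ideal.Quotient.mk _) Ideal.Quotient.mk_surjective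

attribute [local instance] isLocalRing_quot

theorem isLocalHom_mk (n : ℕ) :
    IsLocalHom (Ideal.Quotient.mk (maximalIdeal A ^ (n + 1))) :=
  IsLocalHom.of_surjective _ Ideal.Quotient.mk_surjective

theorem isLocalHom_mkₐ (n : ℕ) :
    IsLocalHom ((Ideal.Quotient.mkₐ 𝒪 (maximalIdeal A ^ (n + 1)) :
      A →ₐ[𝒪] A ⧸ maximalIdeal A ^ (n + 1)) : A →+* A ⧸ maximalIdeal A ^ (n + 1)) :=
  isLocalHom_mk n

theorem maximalIdeal_quot_pow (n : ℕ) :
    maximalIdeal (A ⧸ maximalIdeal A ^ (n + 1)) ^ (n + 1) = ⊥ := by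
  have hle : maximalIdeal (A ⧸ maximalIdeal A ^ (n + 1)) ≤
      (maximalIdeal A).map (Ideal.Quotient.mk (maximalIdeal A ^ (n + 1))) := by
    intro x hx
    obtain ⟨a, rfl⟩ := Ideal.Quotient.mk_surjective x
    refine Ideal.mem_map_of_mem _ ?_
    intro ha
    exact hx (ha.map _)
  refine le_bot_iff.mp ((Ideal.pow_right_mono hle (n + 1)).trans ?_)
  rw [← Ideal.map_pow, Ideal.map_quotient_self]

/-- The quotients `A ⧸ 𝔪 ^ (n + 1)` of a noetherian local test ring are Artinian test algebras. -/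
theorem isArtinianTestAlgebra_quot [IsNoetherianRing A] [IsLocalHom (algebraMap 𝒪 A)]
    (hA : Function.Surjective (residue A ∘ algebraMap 𝒪 A)) (n : ℕ) :
    GaloisRep.IsArtinianTestAlgebra 𝒪 (A ⧸ maximalIdeal A ^ (n + 1)) where
  isLocalHom := by
    haveI := isLocalHom_mk (A := A) n
    exact RingHom.isLocalHom_comp (Ideal.Quotient.mk (maximalIdeal A ^ (n + 1))) (algebraMap 𝒪 A)
  residue_surjective := by
    intro y
    obtain ⟨x, rfl⟩ := residue_surjective y
    obtain ⟨a, rfl⟩ := Ideal.Quotient.mk_surjective x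
    obtain ⟨c, hc⟩ := hA (residue A a)
    refine ⟨c, ?_⟩
    have h1 : algebraMap 𝒪 A c - a ∈ maximalIdeal A := by
      rw [← Ideal.Quotient.eq_zero_iff_mem, map_sub, sub_eq_zero]
      exact hc
    have h2 : Ideal.Quotient.mk (maximalIdeal A ^ (n + 1)) (algebraMap 𝒪 A c - a) ∈
        maximalIdeal (A ⧸ maximalIdeal A ^ (n + 1)) := by
      intro hu
      haveI := isLocalHom_mk (A := A) n
      exact h1 (isUnit_of_map_unit _ _ hu)
    show residue _ (algebraMap 𝒪 (A ⧸ maximalIdeal A ^ (n + 1)) c) = residue _ _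
    rw [← sub_eq_zero, ← map_sub]
    exact (Ideal.Quotient.eq_zero_iff_mem).mpr (by simpa using h2)
  isArtinian := by
    rw [isArtinianRing_iff_isNilpotent_maximalIdeal]
    exact ⟨n + 1, maximalIdeal_quot_pow n⟩

theorem eq_of_forall_mk_eq [IsHausdorff (maximalIdeal A) A] {x y : A}
    (h : ∀ n, Ideal.Quotient.mk (maximalIdeal A ^ n) x = Ideal.Quotient.mk (maximalIdeal A ^ n) y) :
    x = y :=
  congrFun (IsHausdorff.funext' (maximalIdeal A) (f := fun _ : Unit => x) (g := fun _ => y)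
    (fun n _ => h n)) ()

end Quot

attribute [local instance] isLocalRing_quot

/-! ### Functoriality of the lifting / normalisation conditions -/

section MapLemmas

variable {𝒪 : Type} [CommRing 𝒪] [IsLocalRing 𝒪]
  {ρbar : ResidualGaloisRep (ResidueField 𝒪)} (D : RigidData 𝒪 ρbar)
  {A B : Type} [CommRing A] [IsLocalRing A] [Algebra 𝒪 A]
  [CommRing B] [IsLocalRing B] [Algebra 𝒪 B]

theorem liftsC_map {r : Gal →* M2 A} (h : LiftsC D r) (φ : A →ₐ[𝒪] B)
    (hφ : IsLocalHom (φ : A →+* B)) : LiftsC D (mapMat (φ : A →+* B) r) := by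
  intro σ i j
  have h1 : mapMat (φ : A →+* B) r σ i j - algebraMap 𝒪 B (D.c σ i j) =
      φ (r σ i j - algebraMap 𝒪 A (D.c σ i j)) := by
    rw [map_sub, AlgHom.commutes]; rfl
  rw [h1]
  intro hu
  exact h σ i j (isUnit_of_map_unit (φ : A →+* B) _ hu)

theorem eMat_map (r : Gal →* M2 A) (φ : A →ₐ[𝒪] B) (i j : Fin 2) :
    eMat D (mapMat (φ : A →+* B) r) i j = φ (eMat D r i j) := by
  simp only [eMat, Matrix.sum_apply, Matrix.smul_apply, mapMat_apply, smul_eq_mul, map_sum,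
    map_mul, AlgHom.commutes, RingHom.coe_coe]

theorem fMat_map (r : Gal →* M2 A) (φ : A →ₐ[𝒪] B) (i j : Fin 2) :
    fMat D (mapMat (φ : A →+* B) r) i j = φ (fMat D r i j) := by
  simp only [fMat, Matrix.sum_apply, Matrix.smul_apply, mapMat_apply, smul_eq_mul, map_sum,
    map_mul, AlgHom.commutes, RingHom.coe_coe]

theorem normalized_map {r : Gal →* M2 A} (h : Normalized D r) (φ : A →ₐ[𝒪] B) :
    Normalized D (mapMat (φ : A →+* B) r) := by
  obtain ⟨h1, h2, h3⟩ := h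
  refine ⟨?_, ?_, ?_⟩
  · rw [eMat_map, h1, map_zero]
  · rw [fMat_map, h2, map_zero]
  · rw [fMat_map, h3, map_one]

end MapLemmas

/-! ### From Artinian test algebras to complete noetherian local test rings (matrix level) -/

section Main

variable {𝒪 : Type} [CommRing 𝒪] [IsLocalRing 𝒪]
  {ρbar : ResidualGaloisRep (ResidueField 𝒪)} (D : RigidData 𝒪 ρbar)
  (𝒟 : ∀ ⦃A : Type⦄ [CommRing A] [IsLocalRing A] [Algebra 𝒪 A], GaloisRepAdic A → Prop)
  {R : Type} [CommRing R] [IsLocalRing R] [Algebra 𝒪 R]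
  (ρu : Gal →* M2 R)

/-- The matrix-level universal property over Artinian test algebras. -/
def ArtinianUniversal : Prop :=
  ∀ (B : Type) [CommRing B] [IsLocalRing B] [Algebra 𝒪 B],
    GaloisRep.IsArtinianTestAlgebra 𝒪 B →
    ∀ (r : Gal →* M2 B) (hr : IsContMat r), LiftsC D r → Normalized D r → 𝒟 (ofMat r hr) →
      ∃! φ : R →ₐ[𝒪] B, mapMat (φ : R →+* B) ρu = r

variable {D 𝒟 ρu}

/-- Matrix-level universal property over a complete noetherian local test ring `A`, deduced from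
the Artinian one applied to all `A ⧸ 𝔪 ^ (n + 1)`. -/
theorem existsUnique_of_complete (huniv : ArtinianUniversal D 𝒟 ρu)
    {A : Type} [CommRing A] [IsLocalRing A] [IsNoetherianRing A]
    [IsAdicComplete (maximalIdeal A) A] [Algebra 𝒪 A] [IsLocalHom (algebraMap 𝒪 A)]
    (hA : Function.Surjective (residue A ∘ algebraMap 𝒪 A))
    (r : Gal →* M2 A) (hr : IsContMat r) (hl : LiftsC D r) (hn : Normalized D r)
    (h𝒟r : ∀ n : ℕ, 𝒟 (ofMat (mapMat
        ((Ideal.Quotient.mkₐ 𝒪 (maximalIdeal A ^ (n + 1)) :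
          A →ₐ[𝒪] A ⧸ maximalIdeal A ^ (n + 1)) : A →+* A ⧸ maximalIdeal A ^ (n + 1)) r)
        (hr.map _ (isLocalHom_mkₐ n)))) :
    ∃! φ : R →ₐ[𝒪] A, mapMat (φ : R →+* A) ρu = r := by
  classical
  set I := maximalIdeal A with hI
  -- the Artinian quotients
  let q : ∀ n : ℕ, A →ₐ[𝒪] A ⧸ I ^ (n + 1) := fun n => Ideal.Quotient.mkₐ 𝒪 (I ^ (n + 1))
  have spec : ∀ n : ℕ, ∃! φ : R →ₐ[𝒪] A ⧸ I ^ (n + 1),
      mapMat (φ : R →+* A ⧸ I ^ (n + 1)) ρu = mapMat (q n : A →+* A ⧸ I ^ (n + 1)) r :=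
    fun n => huniv (A ⧸ I ^ (n + 1)) (isArtinianTestAlgebra_quot hA n) _
      (hr.map _ (isLocalHom_mkₐ n)) (liftsC_map D hl (q n) (isLocalHom_mkₐ n))
      (normalized_map D hn (q n)) (h𝒟r n)
  let ψ : ∀ n : ℕ, R →ₐ[𝒪] A ⧸ I ^ (n + 1) := fun n => (spec n).exists.choose
  have hψ : ∀ n, mapMat (ψ n : R →+* A ⧸ I ^ (n + 1)) ρu =
      mapMat (q n : A →+* A ⧸ I ^ (n + 1)) r := fun n => (spec n).exists.choose_spec
  have hψ' : ∀ n σ i j, ψ n (ρu σ i j) = Ideal.Quotient.mk (I ^ (n + 1)) (r σ i j) := by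
    intro n σ i j
    exact congrArg (fun g : Gal →* M2 (A ⧸ I ^ (n + 1)) => g σ i j) (hψ n)
  -- compatibility of the `ψ n`
  have hcompat : ∀ {m n : ℕ} (hle : m ≤ n),
      (Ideal.Quotient.factorₐ 𝒪 (Ideal.pow_le_pow_right (I := I) (Nat.succ_le_succ hle))).comp
        (ψ n) = ψ m := by
    intro m n hle
    refine (spec m).unique ?_ (hψ m)
    ext σ i j
    have h1 : I ^ (n + 1) ≤ I ^ (m + 1) := Ideal.pow_le_pow_right (Nat.succ_le_succ hle)
    change Ideal.Quotient.factorₐ 𝒪 h1 (ψ n (ρu σ i j)) =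
      Ideal.Quotient.mk (I ^ (m + 1)) (r σ i j)
    rw [hψ']
    rfl
  let f : ∀ n : ℕ, R →ₐ[𝒪] A ⧸ I ^ n := fun n =>
    (Ideal.Quotient.factorₐ 𝒪 (Ideal.pow_le_pow_right (I := I) (Nat.le_succ n))).comp (ψ n)
  have hf : ∀ {m n : ℕ} (hle : m ≤ n),
      (Ideal.Quotient.factorₐ 𝒪 (Ideal.pow_le_pow_right (I := I) hle)).comp (f n) = f m := by
    intro m n hle
    show (Ideal.Quotient.factorₐ 𝒪 (Ideal.pow_le_pow_right (I := I) hle)).comp
      ((Ideal.Quotient.factorₐ 𝒪 (Ideal.pow_le_pow_right (I := I) (Nat.le_succ n))).comp (ψ n)) =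
      (Ideal.Quotient.factorₐ 𝒪 (Ideal.pow_le_pow_right (I := I) (Nat.le_succ m))).comp (ψ m)
    rw [← hcompat hle, ← AlgHom.comp_assoc, ← AlgHom.comp_assoc, Ideal.Quotient.factorₐ_comp,
      Ideal.Quotient.factorₐ_comp]
  let φ : R →ₐ[𝒪] A := IsAdicComplete.liftAlgHom I f hf
  have hφmk : ∀ n x, Ideal.Quotient.mk (I ^ n) (φ x) = f n x := fun n x =>
    IsAdicComplete.mk_liftAlgHom I f hf n x
  have huniq : ∀ φ' : R →ₐ[𝒪] A, mapMat (φ' : R →+* A) ρu = r →
      ∀ n, (q n).comp φ' = ψ n := by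
    intro φ' hφ' n
    refine (spec n).unique ?_ (hψ n)
    rw [← hφ']
    rfl
  refine ⟨φ, ?_, ?_⟩
  · ext σ i j
    refine eq_of_forall_mk_eq fun n => ?_
    have h1 : I ^ (n + 1) ≤ I ^ n := Ideal.pow_le_pow_right (Nat.le_succ n)
    change Ideal.Quotient.mk (I ^ n) (φ (ρu σ i j)) = _
    rw [hφmk]
    change Ideal.Quotient.factorₐ 𝒪 h1 (ψ n (ρu σ i j)) = _
    rw [hψ']
    rfl
  · intro φ' hφ'
    refine IsAdicComplete.algHom_ext I fun n => ?_
    have h1 : (Ideal.Quotient.mkₐ 𝒪 (I ^ n)).comp φ' =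
        (Ideal.Quotient.factorₐ 𝒪 (Ideal.pow_le_pow_right (I := I) (Nat.le_succ n))).comp
          ((q n).comp φ') := by
      ext x; rfl
    have h2 : (Ideal.Quotient.mkₐ 𝒪 (I ^ n)).comp φ = f n := by
      ext x; exact hφmk n x
    rw [h1, h2, huniq φ' hφ' n]

end Main

/-! ### Assembly of `DeformationRingData` -/

section Assembly

variable {𝒪 : Type} [CommRing 𝒪] [IsLocalRing 𝒪]
  {𝒟 : ∀ ⦃A : Type⦄ [CommRing A] [IsLocalRing A] [Algebra 𝒪 A], GaloisRepAdic A → Prop}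

theorem isEquiv_symm {A : Type} [CommRing A] [IsLocalRing A] {ρ₁ ρ₂ : GaloisRepAdic A}
    (h : ρ₁.IsEquiv ρ₂) : ρ₂.IsEquiv ρ₁ :=
  h.elim fun e => ⟨e.symm⟩

theorem isEquiv_trans {A : Type} [CommRing A] [IsLocalRing A] {ρ₁ ρ₂ ρ₃ : GaloisRepAdic A}
    (h : ρ₁.IsEquiv ρ₂) (h' : ρ₂.IsEquiv ρ₃) : ρ₁.IsEquiv ρ₃ :=
  h.elim fun e => h'.elim fun e' => ⟨e.trans e'⟩

/-- A deformation condition is invariant under equivalence also over complete noetherian local
test rings (it is checked on Artinian quotients). -/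
theorem of_isEquiv_complete (h𝒟 : GaloisRep.IsDeformationCondition 𝒪 𝒟)
    {A : Type} [CommRing A] [IsLocalRing A] [IsNoetherianRing A]
    [IsAdicComplete (maximalIdeal A) A] [Algebra 𝒪 A] (hloc : IsLocalHom (algebraMap 𝒪 A))
    (hA : Function.Surjective (residue A ∘ algebraMap 𝒪 A))
    {ρ ρ' : GaloisRepAdic A} (he : ρ.IsEquiv ρ') (h : 𝒟 ρ) : 𝒟 ρ' := by
  rw [h𝒟.iff_forall_surjective hloc hA ρ'] 
  intro B _ _ _ hB q hq hqs
  obtain ⟨e⟩ := he
  exact h𝒟.of_isEquiv hB ⟨e.baseChangeAlong (q : A →+* B) hq⟩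
    ((h𝒟.iff_forall_surjective hloc hA ρ).mp h hB q hq hqs)

/-- **From the Artinian universal property to `DeformationRingData`.**

`R` is a complete noetherian local `𝒪`-algebra with residue field hit by `𝒪`, `ρu` a continuous
normalised lift of type `𝒟` over `R` with the matrix-level universal property over Artinian test
algebras.  The four hypotheses `hC2`, `hC4`, `hG1`, `hG2` are the general statements of the
blocks `Mat` (C2), `MatRes` (C4) and `Glue` (1), (2). -/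
theorem nonempty_deformationRingData
    {𝒪 : Type} [CommRing 𝒪] [IsDomain 𝒪] [IsDiscreteValuationRing 𝒪]
    [IsAdicComplete (maximalIdeal 𝒪) 𝒪]
    {ρbar : ResidualGaloisRep (ResidueField 𝒪)}
    {𝒟 : ∀ ⦃A : Type⦄ [CommRing A] [IsLocalRing A] [Algebra 𝒪 A], GaloisRepAdic A → Prop}
    (habs : ρbar.IsAbsolutelyIrreducible)
    (h𝒟 : GaloisRep.IsDeformationCondition 𝒪 𝒟)
    (D : RigidData 𝒪 ρbar)
    (hC2 : ∀ {A B : Type} [CommRing A] [IsLocalRing A] [CommRing B] [IsLocalRing B]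
      (φ : A →+* B) (hφ : IsLocalHom φ) (r : Gal →* M2 A) (hr : IsContMat r),
      ((ofMat r hr).baseChangeAlong φ hφ).IsEquiv (ofMat (mapMat φ r) (hr.map φ hφ)))
    (hC4 : ∀ {A : Type} [CommRing A] [IsLocalRing A] [Algebra 𝒪 A]
      [IsLocalHom (algebraMap 𝒪 A)] (r : Gal →* M2 A) (hr : IsContMat r), LiftsC D r →
      (ofMat r hr).residual.IsEquiv
        (ρbar.baseChangeAlong (ResidueField.map (algebraMap 𝒪 A))))
    (hG1 : ∀ {A : Type} [CommRing A] [IsLocalRing A] [IsNoetherianRing A]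
      [IsAdicComplete (maximalIdeal A) A] [Algebra 𝒪 A] [IsLocalHom (algebraMap 𝒪 A)]
      (_ : Function.Surjective (residue A ∘ algebraMap 𝒪 A)) (ρA : GaloisRepAdic A),
      ρA.residual.IsEquiv (ρbar.baseChangeAlong (ResidueField.map (algebraMap 𝒪 A))) →
      ∃ (r : Gal →* M2 A) (hr : IsContMat r), LiftsC D r ∧ Normalized D r ∧
        ρA.IsEquiv (ofMat r hr))
    (hG2 : ∀ {A : Type} [CommRing A] [IsLocalRing A] [Algebra 𝒪 A]
      [IsLocalHom (algebraMap 𝒪 A)] (r r' : Gal →* M2 A) (hr : IsContMat r)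
      (hr' : IsContMat r'), LiftsC D r → Normalized D r → LiftsC D r' → Normalized D r' →
      (ofMat r hr).IsEquiv (ofMat r' hr') → r = r')
    (R : Type) [CommRing R] [IsLocalRing R] [IsNoetherianRing R]
    [IsAdicComplete (maximalIdeal R) R] [Algebra 𝒪 R] [IsLocalHom (algebraMap 𝒪 R)]
    (hRres : Function.Surjective (residue R ∘ algebraMap 𝒪 R))
    (ρu : Gal →* M2 R) (hcont : IsContMat ρu) (hlift : LiftsC D ρu) (hnorm : Normalized D ρu)
    (h𝒟u : 𝒟 (ofMat ρu hcont))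
    (huniv : ArtinianUniversal D 𝒟 ρu) :
    Nonempty (GaloisRep.DeformationRingData 𝒪 ρbar 𝒟) := by
  refine ⟨{ R := R
            residue_surjective := hRres
            absIrr := habs
            ρ := ofMat ρu hcont
            isOfType := h𝒟u
            residual_isEquiv := hC4 ρu hcont hlift
            universal := ?_ }⟩
  intro A _ _ _ _ _ hlocA hA ρA h𝒟A hresA
  obtain ⟨r, hr, hl, hn, heq⟩ := hG1 hA ρA hresA
  have h𝒟r : 𝒟 (ofMat r hr) := of_isEquiv_complete h𝒟 hlocA hA heq h𝒟A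
  have h𝒟n : ∀ n : ℕ, 𝒟 (ofMat (mapMat
      ((Ideal.Quotient.mkₐ 𝒪 (maximalIdeal A ^ (n + 1)) :
        A →ₐ[𝒪] A ⧸ maximalIdeal A ^ (n + 1)) : A →+* A ⧸ maximalIdeal A ^ (n + 1)) r)
      (hr.map _ (isLocalHom_mkₐ n))) := fun n =>
    h𝒟.of_isEquiv (isArtinianTestAlgebra_quot hA n) (hC2 _ (isLocalHom_mkₐ n) r hr)
      ((h𝒟.iff_forall_surjective hlocA hA (ofMat r hr)).mp h𝒟r (isArtinianTestAlgebra_quot hA n)
        (Ideal.Quotient.mkₐ 𝒪 (maximalIdeal A ^ (n + 1))) (isLocalHom_mkₐ n)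
        (Ideal.Quotient.mkₐ_surjective 𝒪 _))
  obtain ⟨φ, hφ, hφuniq⟩ := existsUnique_of_complete huniv hA r hr hl hn h𝒟n
  have hloc : IsLocalHom (φ : R →+* A) := isLocalHom_of_residue_surjective hA φ
  refine ⟨φ, ⟨hloc, ?_⟩, ?_⟩
  · have e1 := hC2 (φ : R →+* A) hloc ρu hcont
    have e2 : (ofMat (mapMat (φ : R →+* A) ρu) (hcont.map _ hloc)).IsEquiv (ofMat r hr) := by
      subst hφ
      exact ⟨GaloisRepAdic.Equiv.refl _⟩
    exact isEquiv_trans (isEquiv_trans e1 e2) (isEquiv_symm heq)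
  · rintro φ' ⟨hloc', heq'⟩
    apply hφuniq
    have e1 := hC2 (φ' : R →+* A) hloc' ρu hcont
    exact hG2 (mapMat (φ' : R →+* A) ρu) r (hcont.map _ hloc') hr
      (liftsC_map D hlift φ' hloc') (normalized_map D hnorm φ') hl hn
      (isEquiv_trans (isEquiv_symm e1) (isEquiv_trans heq' heq))

end Assembly

end CompleteLift

end Fermat.Agent.S53

end
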