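import Mathlib
import Fermat.Agent.S53.Defs

set_option autoImplicit false

namespace Fermat.Agent.S53.Rigid

open IsLocalRing Polynomial

section Root

variable {A : Type*} [CommRing A] [IsLocalRing A]

theorem one_notMem_maximalIdeal : (1 : A) ∉ maximalIdeal A :=
  (Ideal.ne_top_iff_one _).mp (maximalIdeal.isMaximal A).ne_top

/-- An element congruent to `1` modulo the maximal ideal is a unit. -/
theorem isUnit_of_sub_one_mem {x : A} (hx : x - 1 ∈ maximalIdeal A) : IsUnit x := by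
  by_contra hnu
  have hmem : x ∈ maximalIdeal A := (mem_maximalIdeal _).mpr hnu
  have h1 : (1 : A) ∈ maximalIdeal A := by
    have := Ideal.sub_mem _ hmem hx
    rwa [sub_sub_cancel] at this
  exact one_notMem_maximalIdeal h1

/-- In a local ring which is Henselian at its maximal ideal, a quadratic `X² - tX + d` with
`t ≡ 1`, `d ≡ 0` has a root `≡ 1`. -/
theorem exists_root_quadratic [HenselianRing A (maximalIdeal A)] (t d : A)
    (ht : t - 1 ∈ maximalIdeal A) (hd : d ∈ maximalIdeal A) :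
    ∃ lam : A, lam - 1 ∈ maximalIdeal A ∧ lam ^ 2 - t * lam + d = 0 := by
  have hmonic : (X ^ 2 - C t * X + C d : A[X]).Monic := by
    have h1 : (X ^ 2 - C t * X + C d : A[X]) = X ^ 2 + (C (-t) * X + C d) := by
      rw [C_neg]; ring
    rw [h1]
    apply Polynomial.monic_X_pow_add
    refine lt_of_le_of_lt (Polynomial.degree_linear_le) ?_
    norm_num
  have heval : (X ^ 2 - C t * X + C d : A[X]).eval 1 ∈ maximalIdeal A := by
    have : (X ^ 2 - C t * X + C d : A[X]).eval 1 = d - (t - 1) := by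
      simp only [eval_add, eval_sub, eval_pow, eval_X, eval_mul, eval_C]; ring
    rw [this]
    exact Ideal.sub_mem _ hd ht
  have hder : IsUnit (Ideal.Quotient.mk (maximalIdeal A)
      ((X ^ 2 - C t * X + C d : A[X]).derivative.eval 1)) := by
    have : (X ^ 2 - C t * X + C d : A[X]).derivative.eval 1 = 1 - (t - 1) := by
      simp only [derivative_add, derivative_sub, derivative_X_pow, derivative_mul, derivative_C,
        derivative_X, eval_add, eval_sub, eval_pow, eval_X, eval_mul, eval_C,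
        eval_zero, eval_one]
      norm_num
      ring
    rw [this]
    apply IsUnit.map
    apply isUnit_of_sub_one_mem
    have : 1 - (t - 1) - 1 = -(t - 1) := by ring
    rw [this]
    exact Ideal.neg_mem_iff _ |>.mpr ht
  obtain ⟨a, ha, ha'⟩ := HenselianRing.is_henselian _ hmonic 1 heval hder
  refine ⟨a, ha', ?_⟩
  have := ha
  simp only [IsRoot.def, eval_add, eval_sub, eval_pow, eval_X, eval_mul, eval_C] at this
  exact this

end Root

section TwoByTwo

variable {A : Type*} [CommRing A] [IsLocalRing A]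

omit [IsLocalRing A] in
theorem mul_mul_apply_fin_two (M e N : Matrix (Fin 2) (Fin 2) A) (i j : Fin 2) :
    (M * e * N) i j = (M i 0 * e 0 0 + M i 1 * e 1 0) * N 0 j +
      (M i 0 * e 0 1 + M i 1 * e 1 1) * N 1 j := by
  simp only [Matrix.mul_apply, Fin.sum_univ_two]

theorem of_sub_one_mem (a b c d : A) (ha : a - 1 ∈ maximalIdeal A) (hb : b ∈ maximalIdeal A)
    (hc : c ∈ maximalIdeal A) (hd : d - 1 ∈ maximalIdeal A) :
    ∀ i j, ((!![a, b; c, d] : Matrix (Fin 2) (Fin 2) A) - 1) i j ∈ maximalIdeal A := by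
  intro i j
  fin_cases i <;> fin_cases j
  · simpa using ha
  · simpa using hb
  · simpa using hc
  · simpa using hd

/-- Existence of a normalising change of basis, given a root of the characteristic polynomial
of `e` congruent to `1`. -/
theorem exists_normalizing_of_root (e f : Matrix (Fin 2) (Fin 2) A)
    (he10 : e 1 0 ∈ maximalIdeal A) (he11 : e 1 1 ∈ maximalIdeal A)
    (hf00 : f 0 0 ∈ maximalIdeal A) (hf10 : f 1 0 - 1 ∈ maximalIdeal A)
    (lam : A) (hlam : lam - 1 ∈ maximalIdeal A)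
    (hroot : lam ^ 2 - (e 0 0 + e 1 1) * lam + (e 0 0 * e 1 1 - e 0 1 * e 1 0) = 0) :
    ∃ M N : Matrix (Fin 2) (Fin 2) A, M * N = 1 ∧ N * M = 1 ∧
      (∀ i j, (M - 1) i j ∈ maximalIdeal A) ∧ (∀ i j, (N - 1) i j ∈ maximalIdeal A) ∧
      (M * e * N) 1 0 = 0 ∧ (M * f * N) 0 0 = 0 ∧ (M * f * N) 1 0 = 1 := by
  -- `lam - e 1 1` is a unit
  have hu : IsUnit (lam - e 1 1) := by
    apply isUnit_of_sub_one_mem
    have : lam - e 1 1 - 1 = (lam - 1) - e 1 1 := by ring
    rw [this]
    exact Ideal.sub_mem _ hlam he11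
  obtain ⟨u, hu'⟩ := hu
  obtain ⟨ui, hui⟩ : ∃ ui : A, ui = (↑u⁻¹ : A) := ⟨_, rfl⟩
  have hui1 : (lam - e 1 1) * ui = 1 := by rw [hui, ← hu', Units.mul_inv]
  -- eigenvector `(1, y)`
  obtain ⟨y, hy⟩ : ∃ y : A, y = e 1 0 * ui := ⟨_, rfl⟩
  have hyu : y * (lam - e 1 1) = e 1 0 := by
    rw [hy]; linear_combination (e 1 0) * hui1
  have hym : y ∈ maximalIdeal A := by rw [hy]; exact Ideal.mul_mem_right _ _ he10
  have heq1 : e 0 0 + e 0 1 * y = lam := by
    have h1 : (e 0 0 + e 0 1 * y - lam) * (lam - e 1 1) = 0 := by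
      linear_combination (e 0 1) * hyu - hroot
    have h2 : e 0 0 + e 0 1 * y - lam = 0 := by
      linear_combination ui * h1 - (e 0 0 + e 0 1 * y - lam) * hui1
    exact sub_eq_zero.mp h2
  have heq2 : e 1 0 + e 1 1 * y = lam * y := by
    linear_combination -hyu
  -- second basis vector `f (1, y)`
  obtain ⟨p, hp⟩ : ∃ p : A, p = f 0 0 + f 0 1 * y := ⟨_, rfl⟩
  obtain ⟨q, hq⟩ : ∃ q : A, q = f 1 0 + f 1 1 * y := ⟨_, rfl⟩
  have hpm : p ∈ maximalIdeal A := by
    rw [hp]; exact Ideal.add_mem _ hf00 (Ideal.mul_mem_left _ _ hym)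
  have hqm : q - 1 ∈ maximalIdeal A := by
    have : q - 1 = (f 1 0 - 1) + f 1 1 * y := by rw [hq]; ring
    rw [this]
    exact Ideal.add_mem _ hf10 (Ideal.mul_mem_left _ _ hym)
  -- determinant `q - p * y` is a unit
  have hdet : IsUnit (q - p * y) := by
    apply isUnit_of_sub_one_mem
    have : q - p * y - 1 = (q - 1) - p * y := by ring
    rw [this]
    exact Ideal.sub_mem _ hqm (Ideal.mul_mem_right y _ hpm)
  obtain ⟨w, hw⟩ := hdet
  obtain ⟨wi, hwi⟩ : ∃ wi : A, wi = (↑w⁻¹ : A) := ⟨_, rfl⟩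
  have hwinv : wi * (q - p * y) = 1 := by rw [hwi, ← hw, Units.inv_mul]
  have hwinv1 : wi - 1 ∈ maximalIdeal A := by
    have h2 : wi - 1 = wi * (p * y - (q - 1)) := by linear_combination hwinv
    rw [h2]
    apply Ideal.mul_mem_left
    exact Ideal.sub_mem _ (Ideal.mul_mem_right y _ hpm) hqm
  -- N has columns (1, y) and (p, q); M is its inverse
  refine ⟨!![wi * q, -(wi * p); -(wi * y), wi], !![1, p; y, q], ?_, ?_, ?_, ?_, ?_, ?_, ?_⟩
  · rw [Matrix.mul_fin_two, Matrix.one_fin_two]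
    congr 1
    ext i j
    fin_cases i <;> fin_cases j
    · show wi * q * 1 + -(wi * p) * y = 1
      linear_combination hwinv
    · show wi * q * p + -(wi * p) * q = 0
      ring
    · show -(wi * y) * 1 + wi * y = 0
      ring
    · show -(wi * y) * p + wi * q = 1
      linear_combination hwinv
  · rw [Matrix.mul_fin_two, Matrix.one_fin_two]
    congr 1
    ext i j
    fin_cases i <;> fin_cases j
    · show 1 * (wi * q) + p * -(wi * y) = 1
      linear_combination hwinv
    · show 1 * -(wi * p) + p * wi = 0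
      ring
    · show y * (wi * q) + q * -(wi * y) = 0
      ring
    · show y * -(wi * p) + q * wi = 1
      linear_combination hwinv
  · apply of_sub_one_mem
    · have : wi * q - 1 = (wi - 1) * q + (q - 1) := by ring
      rw [this]
      exact Ideal.add_mem _ (Ideal.mul_mem_right _ _ hwinv1) hqm
    · exact Ideal.neg_mem_iff _ |>.mpr (Ideal.mul_mem_left _ _ hpm)
    · exact Ideal.neg_mem_iff _ |>.mpr (Ideal.mul_mem_left _ _ hym)
    · exact hwinv1
  · apply of_sub_one_mem
    · rw [sub_self]; exact Ideal.zero_mem _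
    · exact hpm
    · exact hym
    · exact hqm
  · rw [mul_mul_apply_fin_two]
    show (-(wi * y) * e 0 0 + wi * e 1 0) * 1 + (-(wi * y) * e 0 1 + wi * e 1 1) * y = 0
    linear_combination wi * heq2 - wi * y * heq1
  · rw [mul_mul_apply_fin_two]
    show (wi * q * f 0 0 + -(wi * p) * f 1 0) * 1 + (wi * q * f 0 1 + -(wi * p) * f 1 1) * y = 0
    linear_combination (-(wi * q)) * hp + (wi * p) * hq
  · rw [mul_mul_apply_fin_two]
    show (-(wi * y) * f 0 0 + wi * f 1 0) * 1 + (-(wi * y) * f 0 1 + wi * f 1 1) * y = 1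
    linear_combination hwinv + (wi * y) * hp - wi * hq

/-- Existence of a normalising change of basis over a local ring Henselian at its maximal
ideal (e.g. a complete local ring). -/
theorem exists_normalizing [HenselianRing A (maximalIdeal A)] (e f : Matrix (Fin 2) (Fin 2) A)
    (he00 : e 0 0 - 1 ∈ maximalIdeal A) (he10 : e 1 0 ∈ maximalIdeal A)
    (he11 : e 1 1 ∈ maximalIdeal A)
    (hf00 : f 0 0 ∈ maximalIdeal A) (hf10 : f 1 0 - 1 ∈ maximalIdeal A) :
    ∃ M N : Matrix (Fin 2) (Fin 2) A, M * N = 1 ∧ N * M = 1 ∧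
      (∀ i j, (M - 1) i j ∈ maximalIdeal A) ∧ (∀ i j, (N - 1) i j ∈ maximalIdeal A) ∧
      (M * e * N) 1 0 = 0 ∧ (M * f * N) 0 0 = 0 ∧ (M * f * N) 1 0 = 1 := by
  obtain ⟨lam, hlam, hroot⟩ := exists_root_quadratic (e 0 0 + e 1 1)
    (e 0 0 * e 1 1 - e 0 1 * e 1 0)
    (by
      have : e 0 0 + e 1 1 - 1 = (e 0 0 - 1) + e 1 1 := by ring
      rw [this]; exact Ideal.add_mem _ he00 he11)
    (Ideal.sub_mem _ (Ideal.mul_mem_left _ _ he11) (Ideal.mul_mem_left _ _ he10))
  exact exists_normalizing_of_root e f he10 he11 hf00 hf10 lam hlam hroot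

/-- Uniqueness: an intertwiner between two normalised pairs is a scalar matrix. -/
theorem intertwiner_eq_scalar (e e' f f' M : Matrix (Fin 2) (Fin 2) A)
    (he : e 1 0 = 0) (he' : e' 1 0 = 0)
    (he00 : e 0 0 - 1 ∈ maximalIdeal A) (he'11 : e' 1 1 ∈ maximalIdeal A)
    (hf00 : f 0 0 = 0) (hf10 : f 1 0 = 1) (hf'00 : f' 0 0 = 0) (hf'10 : f' 1 0 = 1)
    (hMe : M * e = e' * M) (hMf : M * f = f' * M) :
    M 1 0 = 0 ∧ M 0 1 = 0 ∧ M 1 1 = M 0 0 := by
  have hu : IsUnit (e 0 0 - e' 1 1) := by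
    apply isUnit_of_sub_one_mem
    have : e 0 0 - e' 1 1 - 1 = (e 0 0 - 1) - e' 1 1 := by ring
    rw [this]
    exact Ideal.sub_mem _ he00 he'11
  have h10 : M 1 0 = 0 := by
    have h := congrFun (congrFun hMe 1) 0
    simp only [Matrix.mul_apply, Fin.sum_univ_two, he, he'] at h
    have h2 : M 1 0 * (e 0 0 - e' 1 1) = 0 := by linear_combination h
    exact (hu.mul_left_eq_zero).mp h2
  have h01 : M 0 1 = 0 := by
    have h := congrFun (congrFun hMf 0) 0
    simp only [Matrix.mul_apply, Fin.sum_univ_two, hf00, hf10, hf'00, h10] at h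
    linear_combination h
  have h11 : M 1 1 = M 0 0 := by
    have h := congrFun (congrFun hMf 1) 0
    simp only [Matrix.mul_apply, Fin.sum_univ_two, hf00, hf10, hf'10, h10] at h
    linear_combination h
  exact ⟨h10, h01, h11⟩

omit [IsLocalRing A] in
/-- A scalar-matrix intertwiner with a one-sided inverse forces equality. -/
theorem eq_of_intertwiner_scalar (r r' M N : Matrix (Fin 2) (Fin 2) A)
    (hMN : M * N = 1) (h10 : M 1 0 = 0) (h01 : M 0 1 = 0) (h11 : M 1 1 = M 0 0)
    (hM : M * r = r' * M) : r = r' := by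
  have hunit : M 0 0 * N 0 0 = 1 := by
    have h := congrFun (congrFun hMN 0) 0
    simp only [Matrix.mul_apply, Fin.sum_univ_two, h01] at h
    simpa using h
  have hMr : ∀ (X : Matrix (Fin 2) (Fin 2) A) (i j : Fin 2), (M * X) i j = M 0 0 * X i j := by
    intro X i j
    fin_cases i <;> simp [Matrix.mul_apply, Fin.sum_univ_two, h10, h01, h11]
  have hrM : ∀ (X : Matrix (Fin 2) (Fin 2) A) (i j : Fin 2), (X * M) i j = M 0 0 * X i j := by
    intro X i j
    fin_cases j <;> simp [Matrix.mul_apply, Fin.sum_univ_two, h10, h01, h11] <;> ring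
  ext i j
  have h := congrFun (congrFun hM i) j
  rw [hMr, hrM] at h
  linear_combination N 0 0 * h - (r i j - r' i j) * hunit

end TwoByTwo

end Fermat.Agent.S53.Rigid

/-! ### Corollaries in the language of `Defs.lean` -/

namespace Fermat.Agent.S53.Rigid

open IsLocalRing

section Lifts

variable {𝒪 : Type} [CommRing 𝒪] [IsLocalRing 𝒪] {ρbar : ResidualGaloisRep (ResidueField 𝒪)}
  (D : RigidData 𝒪 ρbar) {A : Type} [CommRing A] [IsLocalRing A] [Algebra 𝒪 A]

theorem algebraMap_mem_maximalIdeal [IsLocalHom (algebraMap 𝒪 A)] {x : 𝒪}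
    (hx : x ∈ maximalIdeal 𝒪) : algebraMap 𝒪 A x ∈ maximalIdeal A :=
  (mem_maximalIdeal _).mpr (map_nonunit (algebraMap 𝒪 A) x ((mem_maximalIdeal _).mp hx))

/-- A combination `∑ a σ • r σ` of a lift `r` is congruent to the corresponding combination
of the `c σ`. -/
theorem comb_sub_mem [IsLocalHom (algebraMap 𝒪 A)] (r : Gal →* M2 A) (hr : LiftsC D r)
    (a : Gal →₀ 𝒪) (d : 𝒪) (i j : Fin 2)
    (h : (∑ σ ∈ a.support, a σ • D.c σ) i j - d ∈ maximalIdeal 𝒪) :
    (∑ σ ∈ a.support, algebraMap 𝒪 A (a σ) • r σ) i j - algebraMap 𝒪 A d ∈ maximalIdeal A := by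
  have h1 : (∑ σ ∈ a.support, algebraMap 𝒪 A (a σ) • r σ) i j - algebraMap 𝒪 A d =
      (∑ σ ∈ a.support, algebraMap 𝒪 A (a σ) * (r σ i j - algebraMap 𝒪 A (D.c σ i j))) +
        algebraMap 𝒪 A ((∑ σ ∈ a.support, a σ • D.c σ) i j - d) := by
    simp only [Matrix.sum_apply, Matrix.smul_apply, smul_eq_mul, map_sub, map_sum, map_mul,
      mul_sub, Finset.sum_sub_distrib]
    ring
  rw [h1]
  refine Ideal.add_mem _ (Ideal.sum_mem _ fun σ _ => Ideal.mul_mem_left _ _ (hr σ i j)) ?_
  exact algebraMap_mem_maximalIdeal h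

theorem eMat_sub_mem [IsLocalHom (algebraMap 𝒪 A)] (r : Gal →* M2 A) (hr : LiftsC D r)
    (i j : Fin 2) :
    eMat D r i j - (if i = 0 ∧ j = 0 then 1 else 0) ∈ maximalIdeal A := by
  have h := comb_sub_mem D r hr D.a _ i j (D.ha i j)
  have h2 : algebraMap 𝒪 A (if i = 0 ∧ j = 0 then 1 else 0) =
      (if i = 0 ∧ j = 0 then 1 else 0) := by
    split_ifs <;> simp
  rw [h2] at h
  exact h

theorem fMat_sub_mem [IsLocalHom (algebraMap 𝒪 A)] (r : Gal →* M2 A) (hr : LiftsC D r)
    (i j : Fin 2) :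
    fMat D r i j - (if i = 1 ∧ j = 0 then 1 else 0) ∈ maximalIdeal A := by
  have h := comb_sub_mem D r hr D.b _ i j (D.hb i j)
  have h2 : algebraMap 𝒪 A (if i = 1 ∧ j = 0 then 1 else 0) =
      (if i = 1 ∧ j = 0 then 1 else 0) := by
    split_ifs <;> simp
  rw [h2] at h
  exact h

omit [IsLocalRing A] [Algebra 𝒪 A] in
/-- Conjugate of a matrix representation by an invertible matrix. -/
noncomputable def conjMat (M N : M2 A) (hMN : M * N = 1) (hNM : N * M = 1) (r : Gal →* M2 A) :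
    Gal →* M2 A where
  toFun σ := M * r σ * N
  map_one' := by rw [map_one, mul_one, hMN]
  map_mul' σ τ := by
    rw [map_mul]
    calc M * (r σ * r τ) * N = M * r σ * 1 * r τ * N := by
          simp only [mul_one, mul_assoc]
      _ = M * r σ * (N * M) * r τ * N := by rw [hNM]
      _ = M * r σ * N * (M * r τ * N) := by simp only [mul_assoc]

omit [IsLocalRing A] [Algebra 𝒪 A] in
@[simp] theorem conjMat_apply (M N : M2 A) (hMN : M * N = 1) (hNM : N * M = 1)
    (r : Gal →* M2 A) (σ : Gal) : conjMat M N hMN hNM r σ = M * r σ * N := rfl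

omit [IsLocalRing A] in
theorem eMat_conjMat (M N : M2 A) (hMN : M * N = 1) (hNM : N * M = 1) (r : Gal →* M2 A) :
    eMat D (conjMat M N hMN hNM r) = M * eMat D r * N := by
  simp only [eMat, conjMat_apply, Finset.mul_sum, Finset.sum_mul, Matrix.mul_smul,
    Matrix.smul_mul]

omit [IsLocalRing A] in
theorem fMat_conjMat (M N : M2 A) (hMN : M * N = 1) (hNM : N * M = 1) (r : Gal →* M2 A) :
    fMat D (conjMat M N hMN hNM r) = M * fMat D r * N := by
  simp only [fMat, conjMat_apply, Finset.mul_sum, Finset.sum_mul, Matrix.mul_smul,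
    Matrix.smul_mul]

omit [Algebra 𝒪 A] in
theorem isContMat_conjMat (M N : M2 A) (hMN : M * N = 1) (hNM : N * M = 1) (r : Gal →* M2 A)
    (hr : IsContMat r) : IsContMat (conjMat M N hMN hNM r) := by
  intro n
  obtain ⟨L, hL, h⟩ := hr n
  refine ⟨L, hL, fun σ hσ i j => ?_⟩
  have h1 : conjMat M N hMN hNM r σ - 1 = M * (r σ - 1) * N := by
    rw [conjMat_apply, mul_sub, sub_mul, mul_one, hMN]
  rw [h1, Matrix.mul_apply]
  refine Ideal.sum_mem _ fun l _ => Ideal.mul_mem_right _ _ ?_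
  rw [Matrix.mul_apply]
  exact Ideal.sum_mem _ fun k _ => Ideal.mul_mem_left _ _ (h σ hσ k l)

theorem liftsC_conjMat (M N : M2 A) (hMN : M * N = 1) (hNM : N * M = 1)
    (hM : ∀ i j, (M - 1) i j ∈ maximalIdeal A) (hN : ∀ i j, (N - 1) i j ∈ maximalIdeal A)
    (r : Gal →* M2 A) (hr : LiftsC D r) : LiftsC D (conjMat M N hMN hNM r) := by
  intro σ i j
  have h1 : conjMat M N hMN hNM r σ = (M - 1) * r σ * N + r σ * (N - 1) + r σ := by
    rw [conjMat_apply, sub_mul, one_mul, sub_mul, mul_sub, mul_one]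
    abel
  have h2 : conjMat M N hMN hNM r σ i j - algebraMap 𝒪 A (D.c σ i j) =
      ((M - 1) * r σ * N) i j + (r σ * (N - 1)) i j + (r σ i j - algebraMap 𝒪 A (D.c σ i j)) := by
    rw [h1, Matrix.add_apply, Matrix.add_apply]
    ring
  rw [h2]
  refine Ideal.add_mem _ (Ideal.add_mem _ ?_ ?_) (hr σ i j)
  · rw [Matrix.mul_apply]
    refine Ideal.sum_mem _ fun l _ => Ideal.mul_mem_right _ _ ?_
    rw [Matrix.mul_apply]
    exact Ideal.sum_mem _ fun k _ => Ideal.mul_mem_right _ _ (hM i k)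
  · rw [Matrix.mul_apply]
    exact Ideal.sum_mem _ fun k _ => Ideal.mul_mem_left _ _ (hN k j)

/-- **Existence of the normalised representative**: over a local `𝒪`-algebra which is
Henselian at its maximal ideal (e.g. complete), every lift is conjugate (by a matrix
congruent to `1`) to a normalised lift. -/
theorem exists_normalized_conj [IsLocalHom (algebraMap 𝒪 A)] [HenselianRing A (maximalIdeal A)]
    (r : Gal →* M2 A) (hr : LiftsC D r) :
    ∃ (M N : M2 A) (hMN : M * N = 1) (hNM : N * M = 1),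
      (∀ i j, (M - 1) i j ∈ maximalIdeal A) ∧ (∀ i j, (N - 1) i j ∈ maximalIdeal A) ∧
      LiftsC D (conjMat M N hMN hNM r) ∧ Normalized D (conjMat M N hMN hNM r) := by
  have he := eMat_sub_mem D r hr
  have hf := fMat_sub_mem D r hr
  obtain ⟨M, N, hMN, hNM, hM, hN, h1, h2, h3⟩ := exists_normalizing (eMat D r) (fMat D r)
    (by simpa using he 0 0) (by simpa using he 1 0) (by simpa using he 1 1)
    (by simpa using hf 0 0) (by simpa using hf 1 0)
  refine ⟨M, N, hMN, hNM, hM, hN, liftsC_conjMat D M N hMN hNM hM hN r hr, ?_, ?_, ?_⟩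
  · rw [eMat_conjMat]; exact h1
  · rw [fMat_conjMat]; exact h2
  · rw [fMat_conjMat]; exact h3

omit [IsLocalRing A] in
theorem mul_eMat_of_intertwiner (r r' : Gal →* M2 A) (M : M2 A)
    (hM : ∀ σ, M * r σ = r' σ * M) : M * eMat D r = eMat D r' * M := by
  simp only [eMat, Finset.mul_sum, Finset.sum_mul, Matrix.mul_smul, Matrix.smul_mul, hM]

omit [IsLocalRing A] in
theorem mul_fMat_of_intertwiner (r r' : Gal →* M2 A) (M : M2 A)
    (hM : ∀ σ, M * r σ = r' σ * M) : M * fMat D r = fMat D r' * M := by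
  simp only [fMat, Finset.mul_sum, Finset.sum_mul, Matrix.mul_smul, Matrix.smul_mul, hM]

/-- **Uniqueness of the normalised representative**: two normalised lifts intertwined by a
matrix with a right inverse are equal. -/
theorem eq_of_normalized_of_intertwiner [IsLocalHom (algebraMap 𝒪 A)]
    (r r' : Gal →* M2 A) (hr : LiftsC D r) (hr' : LiftsC D r')
    (hn : Normalized D r) (hn' : Normalized D r') (M N : M2 A) (hMN : M * N = 1)
    (hM : ∀ σ, M * r σ = r' σ * M) : r = r' := by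
  obtain ⟨h10, h01, h11⟩ := intertwiner_eq_scalar (eMat D r) (eMat D r') (fMat D r) (fMat D r') M
    hn.1 hn'.1 (by simpa using eMat_sub_mem D r hr 0 0) (by simpa using eMat_sub_mem D r' hr' 1 1)
    hn.2.1 hn.2.2 hn'.2.1 hn'.2.2 (mul_eMat_of_intertwiner D r r' M hM)
    (mul_fMat_of_intertwiner D r r' M hM)
  ext σ : 1
  exact eq_of_intertwiner_scalar (r σ) (r' σ) M N hMN h10 h01 h11 (hM σ)

end Lifts

section Functoriality

variable {𝒪 : Type} [CommRing 𝒪] [IsLocalRing 𝒪] {ρbar : ResidualGaloisRep (ResidueField 𝒪)}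
  (D : RigidData 𝒪 ρbar) {A B : Type} [CommRing A] [IsLocalRing A] [Algebra 𝒪 A]
  [CommRing B] [IsLocalRing B] [Algebra 𝒪 B]

omit [IsLocalRing A] [IsLocalRing B] in
theorem eMat_mapMat (φ : A →ₐ[𝒪] B) (r : Gal →* M2 A) :
    eMat D (mapMat (φ : A →+* B) r) = (φ : A →+* B).mapMatrix (eMat D r) := by
  ext i j
  simp only [eMat, Matrix.sum_apply, Matrix.smul_apply, smul_eq_mul, mapMat_apply,
    RingHom.mapMatrix_apply, Matrix.map_apply, map_sum, map_mul, RingHom.coe_coe,
    AlgHom.commutes]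

omit [IsLocalRing A] [IsLocalRing B] in
theorem fMat_mapMat (φ : A →ₐ[𝒪] B) (r : Gal →* M2 A) :
    fMat D (mapMat (φ : A →+* B) r) = (φ : A →+* B).mapMatrix (fMat D r) := by
  ext i j
  simp only [fMat, Matrix.sum_apply, Matrix.smul_apply, smul_eq_mul, mapMat_apply,
    RingHom.mapMatrix_apply, Matrix.map_apply, map_sum, map_mul, RingHom.coe_coe,
    AlgHom.commutes]

omit [IsLocalRing A] [IsLocalRing B] in
theorem normalized_mapMat (φ : A →ₐ[𝒪] B) (r : Gal →* M2 A) (hn : Normalized D r) :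
    Normalized D (mapMat (φ : A →+* B) r) := by
  obtain ⟨h1, h2, h3⟩ := hn
  refine ⟨?_, ?_, ?_⟩
  · rw [eMat_mapMat, RingHom.mapMatrix_apply, Matrix.map_apply, h1, map_zero]
  · rw [fMat_mapMat, RingHom.mapMatrix_apply, Matrix.map_apply, h2, map_zero]
  · rw [fMat_mapMat, RingHom.mapMatrix_apply, Matrix.map_apply, h3, map_one]

theorem liftsC_mapMat (φ : A →ₐ[𝒪] B) (hφ : IsLocalHom (φ : A →+* B)) (r : Gal →* M2 A)
    (hr : LiftsC D r) : LiftsC D (mapMat (φ : A →+* B) r) := by
  intro σ i j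
  have h1 : mapMat (φ : A →+* B) r σ i j - algebraMap 𝒪 B (D.c σ i j) =
      φ (r σ i j - algebraMap 𝒪 A (D.c σ i j)) := by
    rw [mapMat_apply, map_sub, AlgHom.commutes]
    rfl
  rw [h1]
  exact (mem_maximalIdeal _).mpr
    (haveI := hφ; map_nonunit (φ : A →+* B) _ ((mem_maximalIdeal _).mp (hr σ i j)))

end Functoriality

end Fermat.Agent.S53.Rigid
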