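/-
S53 (universal deformation ring) -- block `Glue`.
Owner: helper37.  Everything lives in `namespace Fermat.Agent.S53.Glue`.

(1) every `GaloisRepAdic` over a complete (Henselian) local `𝒪`-algebra which is equivalent to a
    matrix lift of `ρbar` is equivalent to a *normalised* matrix lift;
(2) two normalised matrix lifts with equivalent `ofMat`'s are equal.
-/
import Mathlib
import Fermat.Agent.S53.Defs
import Fermat.Agent.S53.Rigid

set_option autoImplicit false

noncomputable section

namespace Fermat.Agent.S53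

open IsLocalRing

namespace Glue

section MatEquiv

variable {A : Type} [CommRing A] [IsLocalRing A]

/-- Matrix intertwiners give equivalences of the attached `GaloisRepAdic`s. -/
theorem isEquiv_ofMat_of_intertwiner (r r' : Gal →* M2 A) (hr : IsContMat r)
    (hr' : IsContMat r') (M N : M2 A) (hMN : M * N = 1) (hNM : N * M = 1)
    (hM : ∀ σ, M * r σ = r' σ * M) : (ofMat r hr).IsEquiv (ofMat r' hr') := by
  refine ⟨{ toLinearEquiv :=
              { toFun := fun v => M.mulVec v
                map_add' := fun v w => Matrix.mulVec_add M v w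
                map_smul' := fun c v => Matrix.mulVec_smul M c v
                invFun := fun v => N.mulVec v
                left_inv := fun v => by
                  show N.mulVec (M.mulVec v) = v
                  rw [Matrix.mulVec_mulVec, hNM, Matrix.one_mulVec]
                right_inv := fun v => by
                  show M.mulVec (N.mulVec v) = v
                  rw [Matrix.mulVec_mulVec, hMN, Matrix.one_mulVec] }
            map_apply := fun σ x => ?_ }⟩
  show M.mulVec ((r σ).mulVec x) = (r' σ).mulVec (M.mulVec x)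
  rw [Matrix.mulVec_mulVec, Matrix.mulVec_mulVec, hM]

/-- Equivalences of `ofMat`'s come from matrix intertwiners. -/
theorem exists_intertwiner_of_isEquiv (r r' : Gal →* M2 A) (hr : IsContMat r)
    (hr' : IsContMat r') (h : (ofMat r hr).IsEquiv (ofMat r' hr')) :
    ∃ M N : M2 A, M * N = 1 ∧ N * M = 1 ∧ ∀ σ, M * r σ = r' σ * M := by
  obtain ⟨e⟩ := h
  let f : (Fin 2 → A) →ₗ[A] (Fin 2 → A) := e.toLinearEquiv.toLinearMap
  let g : (Fin 2 → A) →ₗ[A] (Fin 2 → A) := e.toLinearEquiv.symm.toLinearMap
  have hfg : f ∘ₗ g = LinearMap.id :=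
    LinearMap.ext fun v => e.toLinearEquiv.apply_symm_apply v
  have hgf : g ∘ₗ f = LinearMap.id :=
    LinearMap.ext fun v => e.toLinearEquiv.symm_apply_apply v
  refine ⟨LinearMap.toMatrix' f, LinearMap.toMatrix' g, ?_, ?_, fun σ => ?_⟩
  · rw [← LinearMap.toMatrix'_comp, hfg, LinearMap.toMatrix'_id]
  · rw [← LinearMap.toMatrix'_comp, hgf, LinearMap.toMatrix'_id]
  · have h1 : f ∘ₗ Matrix.toLin' (r σ) = Matrix.toLin' (r' σ) ∘ₗ f := by
      refine LinearMap.ext fun v => ?_
      show e.toLinearEquiv ((r σ).mulVec v) = (r' σ).mulVec (e.toLinearEquiv v)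
      exact e.map_apply σ v
    have h2 := congrArg LinearMap.toMatrix' h1
    rwa [LinearMap.toMatrix'_comp, LinearMap.toMatrix'_comp, LinearMap.toMatrix'_toLin',
      LinearMap.toMatrix'_toLin'] at h2

end MatEquiv

section Main

variable {𝒪 : Type} [CommRing 𝒪] [IsLocalRing 𝒪] {ρbar : ResidualGaloisRep (ResidueField 𝒪)}
  (D : RigidData 𝒪 ρbar) {A : Type} [CommRing A] [IsLocalRing A] [Algebra 𝒪 A]
  [IsLocalHom (algebraMap 𝒪 A)]

/-- **Glue (1), matrix form.** Over a local `𝒪`-algebra which is Henselian at its maximal ideal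
(e.g. complete), a `GaloisRepAdic` equivalent to a matrix lift of `ρbar` is equivalent to a
normalised matrix lift. -/
theorem exists_normalized_of_lift [HenselianRing A (maximalIdeal A)] (ρA : GaloisRepAdic A)
    (h : ∃ (r : Gal →* M2 A) (hr : IsContMat r), LiftsC D r ∧ ρA.IsEquiv (ofMat r hr)) :
    ∃ (r : Gal →* M2 A) (hr : IsContMat r), LiftsC D r ∧ Normalized D r ∧
      ρA.IsEquiv (ofMat r hr) := by
  obtain ⟨r₀, hr₀, hl₀, ⟨e₀⟩⟩ := h
  obtain ⟨M, N, hMN, hNM, -, -, hl, hn⟩ := Rigid.exists_normalized_conj D r₀ hl₀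
  refine ⟨Rigid.conjMat M N hMN hNM r₀, Rigid.isContMat_conjMat M N hMN hNM r₀ hr₀, hl, hn, ?_⟩
  obtain ⟨e₁⟩ := isEquiv_ofMat_of_intertwiner r₀ (Rigid.conjMat M N hMN hNM r₀) hr₀
    (Rigid.isContMat_conjMat M N hMN hNM r₀ hr₀) M N hMN hNM (fun σ => by
      rw [Rigid.conjMat_apply, mul_assoc, hNM, mul_one])
  exact ⟨e₀.trans e₁⟩

/-- **Glue (2).** Two normalised matrix lifts whose attached `GaloisRepAdic`s are equivalent
are equal. -/
theorem eq_of_normalized_of_isEquiv (r r' : Gal →* M2 A) (hr : IsContMat r)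
    (hr' : IsContMat r') (hl : LiftsC D r) (hn : Normalized D r) (hl' : LiftsC D r')
    (hn' : Normalized D r') (h : (ofMat r hr).IsEquiv (ofMat r' hr')) : r = r' := by
  obtain ⟨M, N, hMN, -, hM⟩ := exists_intertwiner_of_isEquiv r r' hr hr' h
  exact Rigid.eq_of_normalized_of_intertwiner D r r' hl hl' hn hn' M N hMN hM

end Main

end Glue

end Fermat.Agent.S53

end
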