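/-
S53 -- block MatRes (owner: helper62).
(C4) a matrix lift `r` of the chosen matrix form of `ρbar` has residual representation
     equivalent to the base change of `ρbar`;
(C5) conversely a `GaloisRepAdic A` whose residual representation is equivalent to the base
     change of `ρbar` is equivalent to `ofMat r` for a matrix lift `r` (Nakayama basis lift).
-/
import Fermat.Agent.S53.Defs

set_option autoImplicit false

noncomputable section

namespace Fermat.Agent.S53

open IsLocalRing TensorProduct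

section MatResAux

/-- `1 ⊗ x` in `S ⊗[R] M` in terms of coordinates w.r.t. a basis of `M`. -/
lemma one_tmul_eq_sum {R S M : Type} [CommRing R] [CommRing S] [Algebra R S] [AddCommGroup M]
    [Module R M] (b : Module.Basis (Fin 2) R M) (x : M) :
    (1 : S) ⊗ₜ[R] x = ∑ i, algebraMap R S (b.repr x i) • ((1 : S) ⊗ₜ[R] b i) := by
  conv_lhs => rw [← b.sum_repr x]
  rw [tmul_sum]
  refine Finset.sum_congr rfl fun i _ => ?_
  rw [tmul_smul, ← algebraMap_smul S (b.repr x i)]

/-- Generic comparison: if the matrix of `ρA` in a basis `bV` reduces entrywise to the matrix of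
`ρbar` in a basis `b`, then the residual representation of `ρA` is the base change of `ρbar`. -/
theorem residual_isEquiv_of_basis {A : Type} [CommRing A] [IsLocalRing A] (ρA : GaloisRepAdic A)
    (bV : Module.Basis (Fin 2) A ρA.V) {k : Type} [Field k] [Algebra k (ResidueField A)]
    (ρbar : ResidualGaloisRep k) (b : Module.Basis (Fin 2) k ρbar.V)
    (h : ∀ σ i j, residue A (bV.repr (ρA.ρ σ (bV j)) i) =
      algebraMap k (ResidueField A) (LinearMap.toMatrix b b (ρbar.ρ σ) i j)) :
    ρA.residual.IsEquiv (ρbar.baseChange (ResidueField A)) := by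
  let b₁ : Module.Basis (Fin 2) (ResidueField A) (ResidueField A ⊗[A] ρA.V) :=
    bV.baseChange (ResidueField A)
  let b₂ : Module.Basis (Fin 2) (ResidueField A) (ResidueField A ⊗[k] ρbar.V) :=
    b.baseChange (ResidueField A)
  let e : (ResidueField A ⊗[A] ρA.V) ≃ₗ[ResidueField A] (ResidueField A ⊗[k] ρbar.V) :=
    b₁.equiv b₂ (Equiv.refl _)
  have he : ∀ i, e (b₁ i) = b₂ i := fun i => by simp [e]
  have key : ∀ σ : Gal,
      e.toLinearMap ∘ₗ ((ρA.ρ σ).baseChange (ResidueField A)) =
        ((ρbar.ρ σ).baseChange (ResidueField A)) ∘ₗ e.toLinearMap := by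
    intro σ
    refine b₁.ext fun j => ?_
    have h1 : ((ρA.ρ σ).baseChange (ResidueField A)) (b₁ j) =
        ∑ i, residue A (bV.repr (ρA.ρ σ (bV j)) i) • b₁ i := by
      simp only [b₁, Module.Basis.baseChange_apply, LinearMap.baseChange_tmul]
      rw [one_tmul_eq_sum (S := ResidueField A) bV]
      rfl
    have h2 : ((ρbar.ρ σ).baseChange (ResidueField A)) (b₂ j) =
        ∑ i, algebraMap k (ResidueField A) (LinearMap.toMatrix b b (ρbar.ρ σ) i j) • b₂ i := by
      simp only [b₂, Module.Basis.baseChange_apply, LinearMap.baseChange_tmul]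
      rw [one_tmul_eq_sum (S := ResidueField A) b]
      refine Finset.sum_congr rfl fun i _ => ?_
      rw [LinearMap.toMatrix_apply]
    show e (((ρA.ρ σ).baseChange (ResidueField A)) (b₁ j)) =
      ((ρbar.ρ σ).baseChange (ResidueField A)) (e (b₁ j))
    rw [h1, map_sum, he, h2]
    refine Finset.sum_congr rfl fun i _ => ?_
    rw [map_smul, he, h σ i j]
  refine ⟨⟨e, fun σ x => ?_⟩⟩
  exact LinearMap.congr_fun (key σ) x

variable {𝒪 : Type} [CommRing 𝒪] [IsLocalRing 𝒪] {ρbar : ResidualGaloisRep (ResidueField 𝒪)}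
  (D : RigidData 𝒪 ρbar) {A : Type} [CommRing A] [IsLocalRing A] [Algebra 𝒪 A]
  [Algebra (ResidueField 𝒪) (ResidueField A)]

/-- For a lift `r`, the residue of an entry is the image of the corresponding entry of `ρbar`
(version for an abstract algebra structure between the residue fields). -/
lemma residue_eq_of_liftsC_aux
    (halg : ∀ x : 𝒪, algebraMap (ResidueField 𝒪) (ResidueField A) (residue 𝒪 x) =
      residue A (algebraMap 𝒪 A x))
    {r : Gal →* M2 A} (h : LiftsC D r) (σ : Gal) (i j : Fin 2) :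
    residue A (r σ i j) = algebraMap (ResidueField 𝒪) (ResidueField A)
      (LinearMap.toMatrix D.basis D.basis (ρbar.ρ σ) i j) := by
  rw [← D.hc σ i j, halg, ← sub_eq_zero, ← map_sub]
  exact (IsLocalRing.residue_eq_zero_iff _).2 (h σ i j)

/-- Conversely, entrywise residue identities give `LiftsC`. -/
lemma liftsC_of_residue_eq_aux
    (halg : ∀ x : 𝒪, algebraMap (ResidueField 𝒪) (ResidueField A) (residue 𝒪 x) =
      residue A (algebraMap 𝒪 A x))
    {r : Gal →* M2 A}
    (h : ∀ σ i j, residue A (r σ i j) = algebraMap (ResidueField 𝒪) (ResidueField A)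
      (LinearMap.toMatrix D.basis D.basis (ρbar.ρ σ) i j)) : LiftsC D r := by
  intro σ i j
  rw [← IsLocalRing.residue_eq_zero_iff, map_sub, sub_eq_zero, h σ i j, ← D.hc σ i j, halg]

/-- (C4), abstract-algebra version. -/
theorem residual_isEquiv_of_liftsC_aux
    (halg : ∀ x : 𝒪, algebraMap (ResidueField 𝒪) (ResidueField A) (residue 𝒪 x) =
      residue A (algebraMap 𝒪 A x))
    (r : Gal →* M2 A) (hr : IsContMat r) (h : LiftsC D r) :
    (ofMat r hr).residual.IsEquiv (ρbar.baseChange (ResidueField A)) := by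
  let bV : Module.Basis (Fin 2) A (ofMat r hr).V := Pi.basisFun A (Fin 2)
  refine residual_isEquiv_of_basis (ofMat r hr) bV ρbar D.basis fun σ i j => ?_
  rw [← residue_eq_of_liftsC_aux D halg h]
  congr 1
  show (Pi.basisFun A (Fin 2)).repr ((r σ).mulVec ((Pi.basisFun A (Fin 2)) j)) i = r σ i j
  rw [Pi.basisFun_repr, Pi.basisFun_apply, Matrix.mulVec_single_one]
  rfl

omit [IsLocalRing A] in
/-- Coordinates of an element of `I • ⊤` lie in `I`. -/
lemma repr_mem_of_mem_smul_top {M : Type} [AddCommGroup M] [Module A M]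
    (b : Module.Basis (Fin 2) A M) (I : Ideal A) {x : M}
    (hx : x ∈ I • (⊤ : Submodule A M)) (i : Fin 2) : b.repr x i ∈ I := by
  refine Submodule.smul_induction_on (p := fun x => b.repr x i ∈ I) hx ?_ ?_
  · intro a ha w _
    rw [map_smul, Finsupp.smul_apply, smul_eq_mul]
    exact Ideal.mul_mem_right _ _ ha
  · intro x y hx hy
    rw [map_add, Finsupp.add_apply]
    exact Ideal.add_mem _ hx hy

/-- The matrix representation of a `GaloisRepAdic` in a basis. -/
def matOfBasis (ρA : GaloisRepAdic A) (bV : Module.Basis (Fin 2) A ρA.V) : Gal →* M2 A :=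
  ((LinearMap.toMatrixAlgEquiv bV : Module.End A ρA.V ≃ₐ[A] M2 A).toMulEquiv.toMonoidHom).comp
    ρA.ρ

lemma matOfBasis_apply (ρA : GaloisRepAdic A) (bV : Module.Basis (Fin 2) A ρA.V) (σ : Gal)
    (i j : Fin 2) : matOfBasis ρA bV σ i j = bV.repr (ρA.ρ σ (bV j)) i := by
  show LinearMap.toMatrixAlgEquiv bV (ρA.ρ σ) i j = _
  rw [LinearMap.toMatrixAlgEquiv_apply]

lemma isContMat_matOfBasis (ρA : GaloisRepAdic A) (bV : Module.Basis (Fin 2) A ρA.V) :
    IsContMat (matOfBasis ρA bV) := by
  intro n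
  obtain ⟨L, hL, h⟩ := ρA.isAdicContinuous n
  refine ⟨L, hL, fun σ hσ i j => ?_⟩
  have h1 : (matOfBasis ρA bV σ - 1) i j = bV.repr (ρA.ρ σ (bV j) - bV j) i := by
    rw [Matrix.sub_apply, matOfBasis_apply, map_sub, Finsupp.sub_apply, Module.Basis.repr_self,
      Matrix.one_apply, Finsupp.single_apply]
    congr 1
    by_cases hij : i = j
    · subst hij; simp
    · rw [if_neg hij, if_neg (Ne.symm hij)]
  rw [h1]
  exact repr_mem_of_mem_smul_top bV _ (h σ hσ (bV j)) i

/-- A `GaloisRepAdic` is equivalent to the matrix representation attached to any basis. -/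
lemma isEquiv_ofMat_matOfBasis (ρA : GaloisRepAdic A) (bV : Module.Basis (Fin 2) A ρA.V) :
    ρA.IsEquiv (ofMat (matOfBasis ρA bV) (isContMat_matOfBasis ρA bV)) := by
  refine ⟨⟨bV.equivFun, fun σ x => ?_⟩⟩
  show bV.equivFun (ρA.ρ σ x) = (matOfBasis ρA bV σ).mulVec (bV.equivFun x)
  have h := LinearMap.toMatrix_mulVec_repr bV bV (ρA.ρ σ) x
  funext i
  have h' := congrFun h i
  rw [Module.Basis.equivFun_apply]
  rw [← h']
  rfl

/-- (C5), abstract-algebra version. -/
theorem exists_liftsC_of_residual_isEquiv_aux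
    (halg : ∀ x : 𝒪, algebraMap (ResidueField 𝒪) (ResidueField A) (residue 𝒪 x) =
      residue A (algebraMap 𝒪 A x))
    (ρA : GaloisRepAdic A)
    (h : ρA.residual.IsEquiv (ρbar.baseChange (ResidueField A))) :
    ∃ (r : Gal →* M2 A) (hr : IsContMat r), LiftsC D r ∧ ρA.IsEquiv (ofMat r hr) := by
  obtain ⟨e⟩ := h
  let E : (ResidueField A ⊗[A] ρA.V) ≃ₗ[ResidueField A]
      (ResidueField A ⊗[ResidueField 𝒪] ρbar.V) := e.toLinearEquiv
  have hE : ∀ (σ : Gal) (x : ResidueField A ⊗[A] ρA.V),
      E (((ρA.ρ σ).baseChange (ResidueField A)) x) =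
        ((ρbar.ρ σ).baseChange (ResidueField A)) (E x) := e.map_apply
  let b₂ : Module.Basis (Fin 2) (ResidueField A) (ResidueField A ⊗[ResidueField 𝒪] ρbar.V) :=
    D.basis.baseChange (ResidueField A)
  let b₁ : Module.Basis (Fin 2) (ResidueField A) (ResidueField A ⊗[A] ρA.V) := b₂.map E.symm
  have hEb : ∀ i, E (b₁ i) = b₂ i := fun i => by simp [b₁]
  have hsurj : Function.Surjective (TensorProduct.mk A (ResidueField A) ρA.V 1) :=
    TensorProduct.mk_surjective A ρA.V (ResidueField A) Ideal.Quotient.mk_surjective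
  choose v hv using fun i => hsurj (b₁ i)
  have hv' : ∀ i, (1 : ResidueField A) ⊗ₜ[A] v i = b₁ i := hv
  have hli : LinearIndependent A v := by
    refine Module.IsLocalRing.linearIndependent_of_flat v ?_
    have : (TensorProduct.mk A (ResidueField A) ρA.V 1 ∘ v) = b₁ := funext hv
    rw [this]
    exact b₁.linearIndependent
  have hspan : Submodule.span A (Set.range v) = ⊤ :=
    IsLocalRing.span_eq_top_of_tmul_eq_basis v b₁ hv'
  let bV : Module.Basis (Fin 2) A ρA.V := Module.Basis.mk hli hspan.ge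
  have hbV : ∀ i, bV i = v i := fun i => Module.Basis.mk_apply hli hspan.ge i
  refine ⟨matOfBasis ρA bV, isContMat_matOfBasis ρA bV, ?_, isEquiv_ofMat_matOfBasis ρA bV⟩
  refine liftsC_of_residue_eq_aux D halg fun σ i j => ?_
  have h1 : ((ρA.ρ σ).baseChange (ResidueField A)) (b₁ j) =
      ∑ i, residue A (matOfBasis ρA bV σ i j) • b₁ i := by
    rw [← hv' j, LinearMap.baseChange_tmul, one_tmul_eq_sum (S := ResidueField A) bV]
    refine Finset.sum_congr rfl fun i _ => ?_
    rw [ResidueField.algebraMap_eq, matOfBasis_apply, hbV, hbV, hv']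
  have h2 : ((ρbar.ρ σ).baseChange (ResidueField A)) (b₂ j) =
      ∑ i, algebraMap (ResidueField 𝒪) (ResidueField A)
        (LinearMap.toMatrix D.basis D.basis (ρbar.ρ σ) i j) • b₂ i := by
    simp only [b₂, Module.Basis.baseChange_apply, LinearMap.baseChange_tmul]
    rw [one_tmul_eq_sum (S := ResidueField A) D.basis]
    refine Finset.sum_congr rfl fun i _ => ?_
    rw [LinearMap.toMatrix_apply]
  have h3 := hE σ (b₁ j)
  rw [h1, map_sum, hEb, h2] at h3
  simp only [map_smul, hEb] at h3
  rw [← Module.Basis.equivFun_symm_apply b₂, ← Module.Basis.equivFun_symm_apply b₂] at h3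
  exact congrFun (b₂.equivFun.symm.injective h3) i

end MatResAux

section MatRes

variable {𝒪 : Type} [CommRing 𝒪] [IsLocalRing 𝒪] {ρbar : ResidualGaloisRep (ResidueField 𝒪)}
  (D : RigidData 𝒪 ρbar) {A : Type} [CommRing A] [IsLocalRing A] [Algebra 𝒪 A]
  [IsLocalHom (algebraMap 𝒪 A)]

/-- (C4) A continuous matrix lift of the chosen matrix form of `ρbar` has residual
representation equivalent to the base change of `ρbar`. -/
theorem residual_isEquiv_of_liftsC (r : Gal →* M2 A) (hr : IsContMat r) (h : LiftsC D r) :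
    (ofMat r hr).residual.IsEquiv
      (ρbar.baseChangeAlong (IsLocalRing.ResidueField.map (algebraMap 𝒪 A))) :=
  @residual_isEquiv_of_liftsC_aux 𝒪 _ _ ρbar D A _ _ _
    (IsLocalRing.ResidueField.map (algebraMap 𝒪 A)).toAlgebra (fun _ => rfl) r hr h

/-- (C5) A `GaloisRepAdic A` whose residual representation is the base change of `ρbar` is
equivalent to `ofMat r` for a continuous matrix lift `r` of the chosen matrix form of `ρbar`. -/
theorem exists_liftsC_of_residual_isEquiv (ρA : GaloisRepAdic A)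
    (h : ρA.residual.IsEquiv
      (ρbar.baseChangeAlong (IsLocalRing.ResidueField.map (algebraMap 𝒪 A)))) :
    ∃ (r : Gal →* M2 A) (hr : IsContMat r), LiftsC D r ∧ ρA.IsEquiv (ofMat r hr) :=
  @exists_liftsC_of_residual_isEquiv_aux 𝒪 _ _ ρbar D A _ _ _
    (IsLocalRing.ResidueField.map (algebraMap 𝒪 A)).toAlgebra (fun _ => rfl) ρA h

end MatRes

end Fermat.Agent.S53

end
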