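/-
S53 (universal deformation ring) -- the base point: the residual representation itself,
written in the rigidifying basis, is a normalised `𝒟`-lift over the residue field.
Owner: helper92.  Everything lives in `namespace Fermat.Agent.S53`.
-/
import Mathlib
import Fermat.Agent.S53.Defs

set_option autoImplicit false

noncomputable section

namespace Fermat.Agent.S53

open IsLocalRing

section BasePoint

variable {𝒪 : Type} [CommRing 𝒪] [IsLocalRing 𝒪] {ρbar : ResidualGaloisRep (ResidueField 𝒪)}

/-- The matrix form of `ρbar` in the basis of the rigidification datum. -/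
def baseMat (D : RigidData 𝒪 ρbar) : Gal →* M2 (ResidueField 𝒪) :=
  ((LinearMap.toMatrixAlgEquiv D.basis).toAlgHom.toRingHom.toMonoidHom).comp ρbar.ρ

lemma baseMat_apply (D : RigidData 𝒪 ρbar) (σ : Gal) :
    baseMat D σ = LinearMap.toMatrix D.basis D.basis (ρbar.ρ σ) := rfl

lemma baseMat_apply_apply (D : RigidData 𝒪 ρbar) (σ : Gal) (i j : Fin 2) :
    baseMat D σ i j = residue 𝒪 (D.c σ i j) := by
  rw [baseMat_apply, D.hc]

lemma isContMat_baseMat (D : RigidData 𝒪 ρbar) : IsContMat (baseMat D) := by
  intro n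
  obtain ⟨L, hL, h1⟩ := ρbar.factorsThroughFiniteLevel
  refine ⟨L, hL, fun σ hσ i j => ?_⟩
  have : baseMat D σ = 1 := by
    rw [baseMat_apply, h1 σ hσ]
    exact LinearMap.toMatrix_one D.basis
  rw [this, sub_self]
  exact Ideal.zero_mem _

lemma liftsC_baseMat (D : RigidData 𝒪 ρbar) : LiftsC D (baseMat D) := by
  intro σ i j
  rw [baseMat_apply_apply, ResidueField.algebraMap_eq, sub_self]
  exact Ideal.zero_mem _

lemma eMat_baseMat (D : RigidData 𝒪 ρbar) (i j : Fin 2) :
    eMat D (baseMat D) i j = if i = 0 ∧ j = 0 then 1 else 0 := by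
  have h := D.ha i j
  rw [← residue_eq_zero_iff, map_sub] at h
  have h2 : eMat D (baseMat D) i j = residue 𝒪 ((∑ σ ∈ D.a.support, D.a σ • D.c σ) i j) := by
    simp only [eMat, Matrix.sum_apply, Matrix.smul_apply, map_sum, smul_eq_mul, map_mul,
      baseMat_apply_apply, ResidueField.algebraMap_eq]
  rw [h2, sub_eq_zero.mp h]
  split_ifs <;> simp

lemma fMat_baseMat (D : RigidData 𝒪 ρbar) (i j : Fin 2) :
    fMat D (baseMat D) i j = if i = 1 ∧ j = 0 then 1 else 0 := by
  have h := D.hb i j
  rw [← residue_eq_zero_iff, map_sub] at h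
  have h2 : fMat D (baseMat D) i j = residue 𝒪 ((∑ σ ∈ D.b.support, D.b σ • D.c σ) i j) := by
    simp only [fMat, Matrix.sum_apply, Matrix.smul_apply, map_sum, smul_eq_mul, map_mul,
      baseMat_apply_apply, ResidueField.algebraMap_eq]
  rw [h2, sub_eq_zero.mp h]
  split_ifs <;> simp

lemma normalized_baseMat (D : RigidData 𝒪 ρbar) : Normalized D (baseMat D) := by
  refine ⟨?_, ?_, ?_⟩
  · rw [eMat_baseMat]; simp
  · rw [fMat_baseMat]; simp
  · rw [fMat_baseMat]; simp

/-- `ρbar` (as a `GaloisRepAdic` over the residue field) is equivalent to its matrix form. -/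
def baseEquiv (D : RigidData 𝒪 ρbar) :
    GaloisRepAdic.Equiv (GaloisRepAdic.ofResidualGaloisRep ρbar)
      (ofMat (baseMat D) (isContMat_baseMat D)) where
  toLinearEquiv := D.basis.equivFun
  map_apply := fun σ x => by
    show D.basis.equivFun (ρbar.ρ σ x) = (baseMat D σ).mulVec (D.basis.equivFun x)
    rw [baseMat_apply]
    exact (LinearMap.toMatrix_mulVec_repr D.basis D.basis (ρbar.ρ σ) x).symm

/-- The residue field is an Artinian test algebra. -/
lemma isArtinianTestAlgebra_residueField :
    GaloisRep.IsArtinianTestAlgebra 𝒪 (ResidueField 𝒪) where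
  isLocalHom := by
    rw [ResidueField.algebraMap_eq]
    infer_instance
  residue_surjective := by
    rw [ResidueField.algebraMap_eq]
    exact (residue_surjective (R := ResidueField 𝒪)).comp (residue_surjective (R := 𝒪))
  isArtinian := inferInstance

/-- **Base point.**  If `ρbar` itself satisfies the deformation condition, then its matrix form
in the rigidifying basis is a continuous, normalised `𝒟`-lift of `ρbar` over the residue field. -/
theorem exists_basePoint
    {𝒟 : ∀ ⦃A : Type⦄ [CommRing A] [IsLocalRing A] [Algebra 𝒪 A], GaloisRepAdic A → Prop}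
    (h𝒟 : GaloisRep.IsDeformationCondition 𝒪 𝒟)
    (hbar : 𝒟 (GaloisRepAdic.ofResidualGaloisRep ρbar)) (D : RigidData 𝒪 ρbar) :
    ∃ (r : Gal →* M2 (ResidueField 𝒪)) (hr : IsContMat r),
      LiftsC D r ∧ Normalized D r ∧ 𝒟 (ofMat r hr) :=
  ⟨baseMat D, isContMat_baseMat D, liftsC_baseMat D, normalized_baseMat D,
    h𝒟.of_isEquiv isArtinianTestAlgebra_residueField ⟨baseEquiv D⟩ hbar⟩

end BasePoint

end Fermat.Agent.S53

end
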