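/-
S53 (universal deformation ring) -- the covering power series ring `Λ = 𝒪⟦X₁,…,X_d⟧`.
Owner: helper56.  Everything lives in `namespace Fermat.Agent.S53`.

Contents:
* `cover_isLocalHom`            : `algebraMap 𝒪 Λ` is a local homomorphism;
* `cover_residue_surjective`    : `𝒪 → Λ → Λ/𝔪_Λ` is surjective;
* `cover_X_mem_maximalIdeal`    : `X i ∈ 𝔪_Λ`;
* `cover_existsUnique_algHom`   : for a local `𝒪`-algebra `A` with nilpotent maximal ideal and
    `y : Fin d → 𝔪_A` there is a unique `𝒪`-algebra map `Λ → A` with `X i ↦ y i`.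
-/
import Mathlib

set_option autoImplicit false

noncomputable section

namespace Fermat.Agent.S53

open IsLocalRing

section Basic

variable {σ : Type*} {𝒪 : Type*} [CommRing 𝒪]

/-- `algebraMap 𝒪 𝒪⟦X⟧ = C` is a local homomorphism. -/
theorem cover_isLocalHom : IsLocalHom (algebraMap 𝒪 (MvPowerSeries σ 𝒪)) := by
  refine ⟨fun a ha => ?_⟩
  have h := MvPowerSeries.isUnit_constantCoeff _ ha
  rwa [MvPowerSeries.algebraMap_apply, Algebra.algebraMap_self, RingHom.id_apply,
    MvPowerSeries.constantCoeff_C] at h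

/-- A power series lies in the maximal ideal iff its constant coefficient does. -/
theorem cover_mem_maximalIdeal_iff [IsLocalRing 𝒪] (f : MvPowerSeries σ 𝒪) :
    f ∈ maximalIdeal (MvPowerSeries σ 𝒪) ↔ MvPowerSeries.constantCoeff f ∈ maximalIdeal 𝒪 := by
  rw [mem_maximalIdeal, mem_maximalIdeal, mem_nonunits_iff, mem_nonunits_iff,
    MvPowerSeries.isUnit_iff_constantCoeff]

/-- The variables lie in the maximal ideal. -/
theorem cover_X_mem_maximalIdeal [IsLocalRing 𝒪] (i : σ) :
    (MvPowerSeries.X i : MvPowerSeries σ 𝒪) ∈ maximalIdeal (MvPowerSeries σ 𝒪) := by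
  rw [cover_mem_maximalIdeal_iff, MvPowerSeries.constantCoeff_X]
  exact zero_mem _

/-- `𝒪 → Λ → Λ/𝔪_Λ` is surjective. -/
theorem cover_residue_surjective [IsLocalRing 𝒪] :
    Function.Surjective
      (residue (MvPowerSeries σ 𝒪) ∘ algebraMap 𝒪 (MvPowerSeries σ 𝒪)) := by
  intro x
  obtain ⟨f, rfl⟩ := residue_surjective x
  refine ⟨MvPowerSeries.constantCoeff f, ?_⟩
  rw [Function.comp_apply, ← sub_eq_zero, ← map_sub, residue_eq_zero_iff,
    cover_mem_maximalIdeal_iff, map_sub, MvPowerSeries.algebraMap_apply,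
    Algebra.algebraMap_self, RingHom.id_apply, MvPowerSeries.constantCoeff_C, sub_self]
  exact zero_mem _

end Basic

section Span

variable {σ : Type*} {R : Type*} [CommRing R]

/-- If all coefficients of `g` at monomials not involving the variables in `s` vanish, then `g`
lies in the ideal generated by the variables in `s`. -/
theorem cover_mem_span_X_image [DecidableEq σ] (s : Finset σ) :
    ∀ g : MvPowerSeries σ R, (∀ m : σ →₀ ℕ, (∀ i ∈ s, m i = 0) → MvPowerSeries.coeff m g = 0) →
      g ∈ Ideal.span ((MvPowerSeries.X : σ → MvPowerSeries σ R) '' (s : Set σ)) := by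
  classical
  induction s using Finset.induction_on with
  | empty =>
    intro g hg
    have : g = 0 := by
      ext m
      rw [hg m (fun i hi => absurd hi (Finset.notMem_empty i)), map_zero]
    rw [this]
    exact zero_mem _
  | insert a t hat ih =>
    intro g hg
    -- the part of `g` not involving the variable `a`
    let g₀ : MvPowerSeries σ R := fun m => if m a = 0 then MvPowerSeries.coeff m g else 0
    have hg₀ : ∀ m, MvPowerSeries.coeff m g₀ = if m a = 0 then MvPowerSeries.coeff m g else 0 :=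
      fun m => rfl
    have h1 : g₀ ∈ Ideal.span ((MvPowerSeries.X : σ → MvPowerSeries σ R) '' (t : Set σ)) := by
      apply ih
      intro m hm
      rw [hg₀]
      split_ifs with hma
      · apply hg
        intro i hi
        rcases Finset.mem_insert.mp hi with rfl | hi
        · exact hma
        · exact hm i hi
      · rfl
    have h2 : (MvPowerSeries.X a : MvPowerSeries σ R) ∣ g - g₀ := by
      rw [MvPowerSeries.X_dvd_iff]
      intro m hm
      rw [map_sub, hg₀, if_pos hm, sub_self]
    obtain ⟨h, hh⟩ := h2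
    have : g = g₀ + MvPowerSeries.X a * h := by rw [← hh]; ring
    rw [this]
    refine Ideal.add_mem _ ?_ ?_
    · exact Ideal.span_mono (Set.image_mono (by simp)) h1
    · exact Ideal.mul_mem_right _ _ (Ideal.subset_span ⟨a, by simp, rfl⟩)

/-- A power series in finitely many variables with vanishing constant coefficient lies in the
ideal generated by the variables. -/
theorem cover_mem_span_range_X [Finite σ] (g : MvPowerSeries σ R)
    (hg : MvPowerSeries.constantCoeff g = 0) :
    g ∈ Ideal.span (Set.range (MvPowerSeries.X : σ → MvPowerSeries σ R)) := by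
  classical
  cases nonempty_fintype σ
  have := cover_mem_span_X_image (R := R) (Finset.univ : Finset σ) g (by
    intro m hm
    have hm0 : m = 0 := by
      ext i
      exact hm i (Finset.mem_univ i)
    rw [hm0]
    exact hg)
  simpa using this

end Span

section Lift

variable {𝒪 : Type*} [CommRing 𝒪] {d : ℕ}
  {A : Type*} [CommRing A] [IsLocalRing A] [Algebra 𝒪 A]

/-- Two `𝒪`-algebra maps out of `𝒪⟦X₁,…,X_d⟧` into a local ring `A` that agree on the variables,
sending them into `𝔪_A`, agree modulo every power of `𝔪_A`. -/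
theorem cover_algHom_sub_mem_pow {σ : Type*} [Finite σ]
    (θ₁ θ₂ : MvPowerSeries σ 𝒪 →ₐ[𝒪] A)
    (h₁ : ∀ i, θ₁ (MvPowerSeries.X i) ∈ maximalIdeal A)
    (h : ∀ i, θ₁ (MvPowerSeries.X i) = θ₂ (MvPowerSeries.X i)) (n : ℕ) :
    ∀ g : MvPowerSeries σ 𝒪, θ₁ g - θ₂ g ∈ maximalIdeal A ^ n := by
  classical
  cases nonempty_fintype σ
  induction n with
  | zero => intro g; simp
  | succ n ih =>
    intro g
    have hg : g - MvPowerSeries.C (MvPowerSeries.constantCoeff g) ∈
        Ideal.span (Set.range (MvPowerSeries.X : σ → MvPowerSeries σ 𝒪)) := by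
      apply cover_mem_span_range_X
      simp
    obtain ⟨c, hc⟩ := (Ideal.mem_span_range_iff_exists_fun (R := MvPowerSeries σ 𝒪)).mp hg
    have hgeq : g = MvPowerSeries.C (MvPowerSeries.constantCoeff g) +
        ∑ i, c i * MvPowerSeries.X i := by
      rw [hc]; ring
    have hC : ∀ (θ : MvPowerSeries σ 𝒪 →ₐ[𝒪] A) (a : 𝒪),
        θ (MvPowerSeries.C a) = algebraMap 𝒪 A a := by
      intro θ a
      have : (MvPowerSeries.C a : MvPowerSeries σ 𝒪) = algebraMap 𝒪 (MvPowerSeries σ 𝒪) a := by
        rw [MvPowerSeries.algebraMap_apply, Algebra.algebraMap_self, RingHom.id_apply]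
      rw [this, AlgHom.commutes]
    have key : θ₁ g - θ₂ g = ∑ i, (θ₁ (c i) - θ₂ (c i)) * θ₁ (MvPowerSeries.X i) := by
      conv_lhs => rw [hgeq]
      simp only [map_add, map_sum, map_mul, hC, ← h]
      rw [add_sub_add_left_eq_sub, ← Finset.sum_sub_distrib]
      exact Finset.sum_congr rfl fun i _ => by ring
    rw [key, pow_succ]
    exact Ideal.sum_mem _ fun i _ => Ideal.mul_mem_mul (ih (c i)) (h₁ i)

/-- **Universal property of the covering power series ring for Artinian targets.**
For a local `𝒪`-algebra `A` with nilpotent maximal ideal and `y : Fin d → 𝔪_A`, there is a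
unique `𝒪`-algebra homomorphism `𝒪⟦X₁,…,X_d⟧ → A` with `X i ↦ y i`. -/
theorem cover_existsUnique_algHom (hnil : IsNilpotent (maximalIdeal A)) (y : Fin d → A)
    (hy : ∀ i, y i ∈ maximalIdeal A) :
    ∃! θ : MvPowerSeries (Fin d) 𝒪 →ₐ[𝒪] A, ∀ i, θ (MvPowerSeries.X i) = y i := by
  obtain ⟨N, hN⟩ := hnil
  -- existence, via truncation
  have hker : ∀ p ∈ MvPolynomial.idealOfVars (Fin d) 𝒪 ^ (N + 2),
      MvPolynomial.aeval (R := 𝒪) y p = 0 := by
    intro p hp
    have hle : (MvPolynomial.idealOfVars (Fin d) 𝒪 ^ (N + 2)).map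
        (MvPolynomial.aeval (R := 𝒪) y : MvPolynomial (Fin d) 𝒪 →+* A) ≤ maximalIdeal A ^ (N + 2) := by
      rw [Ideal.map_pow]
      refine Ideal.pow_right_mono ?_ _
      rw [MvPolynomial.idealOfVars, Ideal.map_span, Ideal.span_le]
      rintro _ ⟨_, ⟨i, rfl⟩, rfl⟩
      simpa using hy i
    have h0 : maximalIdeal A ^ (N + 2) = ⊥ := by
      rw [pow_add, hN, Ideal.zero_eq_bot, Ideal.bot_mul]
    have := hle (Ideal.mem_map_of_mem _ hp)
    rw [h0] at this
    simpa using this
  let θ₀ : MvPowerSeries (Fin d) 𝒪 →ₐ[𝒪] A :=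
    (Ideal.Quotient.liftₐ (MvPolynomial.idealOfVars (Fin d) 𝒪 ^ (N + 2))
      (MvPolynomial.aeval (R := 𝒪) y) hker).comp
      ((MvPowerSeries.truncTotalAlgHom (Fin d) 𝒪 (N + 2)).restrictScalars 𝒪)
  have hθ₀ : ∀ i, θ₀ (MvPowerSeries.X i) = y i := by
    intro i
    have hX : (MvPowerSeries.X i : MvPowerSeries (Fin d) 𝒪) =
        algebraMap (MvPolynomial (Fin d) 𝒪) (MvPowerSeries (Fin d) 𝒪) (MvPolynomial.X i) := by
      rw [MvPowerSeries.algebraMap_apply', Algebra.algebraMap_self, MvPowerSeries.map_id,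
        RingHom.id_apply, MvPolynomial.coe_X]
    show (Ideal.Quotient.liftₐ _ (MvPolynomial.aeval (R := 𝒪) y) hker)
      ((MvPowerSeries.truncTotalAlgHom (Fin d) 𝒪 (N + 2)) (MvPowerSeries.X i)) = y i
    rw [hX, AlgHom.commutes, Ideal.Quotient.algebraMap_eq, Ideal.Quotient.liftₐ_apply,
      Ideal.Quotient.lift_mk]
    simp
  refine ⟨θ₀, hθ₀, fun θ hθ => ?_⟩
  -- uniqueness
  ext g
  have h := cover_algHom_sub_mem_pow θ θ₀ (fun i => by rw [hθ i]; exact hy i)
    (fun i => by rw [hθ i, hθ₀ i]) N g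
  rw [hN] at h
  exact sub_eq_zero.mp (by simpa using h)

end Lift

end Fermat.Agent.S53

end
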