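/-
S53 library: a power series ring in finitely many variables over a complete Noetherian local
ring is complete with respect to its maximal ideal.
Owner: helper94.  Everything lives in `namespace Fermat.Agent.S53`.
-/
import Mathlib

set_option autoImplicit false

noncomputable section

namespace Fermat.Agent.S53

open IsLocalRing PowerSeries

section OneVariable

variable {A : Type*} [CommRing A] [IsLocalRing A]

/-- Membership in the maximal ideal of `A⟦X⟧`. -/
lemma ps_mem_maximalIdeal_iff (f : A⟦X⟧) :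
    f ∈ maximalIdeal A⟦X⟧ ↔ constantCoeff f ∈ maximalIdeal A := by
  rw [mem_maximalIdeal, mem_maximalIdeal, mem_nonunits_iff, mem_nonunits_iff,
    PowerSeries.isUnit_iff_constantCoeff]

/-- The ideal of power series whose `k`-th coefficient lies in `𝔪 ^ (n - k)`. -/
def psFilt (A : Type*) [CommRing A] [IsLocalRing A] (n : ℕ) : Ideal A⟦X⟧ where
  carrier := {f | ∀ k, coeff k f ∈ maximalIdeal A ^ (n - k)}
  add_mem' := fun hf hg k => by
    rw [map_add]; exact Ideal.add_mem _ (hf k) (hg k)
  zero_mem' := fun k => by rw [map_zero]; exact Ideal.zero_mem _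
  smul_mem' := fun c f hf k => by
    rw [smul_eq_mul, PowerSeries.coeff_mul]
    refine Ideal.sum_mem _ fun p hp => ?_
    have hp' : p.1 + p.2 = k := Finset.HasAntidiagonal.mem_antidiagonal.mp hp
    exact Ideal.mul_mem_left _ _ (Ideal.pow_le_pow_right (by omega) (hf p.2))

lemma mem_psFilt {n : ℕ} {f : A⟦X⟧} :
    f ∈ psFilt A n ↔ ∀ k, coeff k f ∈ maximalIdeal A ^ (n - k) := Iff.rfl

lemma psFilt_mul_le (m n : ℕ) : psFilt A m * psFilt A n ≤ psFilt A (m + n) := by
  rw [Ideal.mul_le]
  intro f hf g hg k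
  rw [PowerSeries.coeff_mul]
  refine Ideal.sum_mem _ fun p hp => ?_
  have hp' : p.1 + p.2 = k := Finset.HasAntidiagonal.mem_antidiagonal.mp hp
  have h1 : coeff p.1 f * coeff p.2 g ∈ maximalIdeal A ^ ((m - p.1) + (n - p.2)) := by
    rw [pow_add]; exact Ideal.mul_mem_mul (hf p.1) (hg p.2)
  exact Ideal.pow_le_pow_right (by omega) h1

lemma maximalIdeal_le_psFilt_one : maximalIdeal A⟦X⟧ ≤ psFilt A 1 := by
  intro f hf k
  rcases Nat.eq_zero_or_pos k with rfl | hk
  · simpa using (ps_mem_maximalIdeal_iff f).mp hf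
  · have : 1 - k = 0 := by omega
    rw [this, pow_zero, Ideal.one_eq_top]; trivial

lemma maximalIdeal_pow_le_psFilt (n : ℕ) : maximalIdeal A⟦X⟧ ^ n ≤ psFilt A n := by
  induction n with
  | zero =>
    intro f _ k
    simp
  | succ n ih =>
    rw [pow_succ]
    exact (Ideal.mul_mono ih maximalIdeal_le_psFilt_one).trans (psFilt_mul_le n 1)

lemma C_mem_maximalIdeal_pow {n : ℕ} {a : A} (ha : a ∈ maximalIdeal A ^ n) :
    (C a : A⟦X⟧) ∈ maximalIdeal A⟦X⟧ ^ n := by
  have h1 : (maximalIdeal A).map (C : A →+* A⟦X⟧) ≤ maximalIdeal A⟦X⟧ := by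
    rw [Ideal.map_le_iff_le_comap]
    intro x hx
    rw [Ideal.mem_comap, ps_mem_maximalIdeal_iff]
    simpa using hx
  have h2 : (maximalIdeal A ^ n).map (C : A →+* A⟦X⟧) ≤ maximalIdeal A⟦X⟧ ^ n := by
    rw [Ideal.map_pow]; exact Ideal.pow_right_mono h1 n
  exact h2 (Ideal.mem_map_of_mem _ ha)

lemma X_mem_maximalIdeal : (X : A⟦X⟧) ∈ maximalIdeal A⟦X⟧ := by
  rw [ps_mem_maximalIdeal_iff]; simp

lemma psFilt_le_maximalIdeal_pow (n : ℕ) : psFilt A n ≤ maximalIdeal A⟦X⟧ ^ n := by
  induction n with
  | zero => simp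
  | succ n ih =>
    intro f hf
    rw [f.eq_shift_mul_X_add_const]
    refine Ideal.add_mem _ ?_ ?_
    · rw [pow_succ]
      refine Ideal.mul_mem_mul (ih ?_) X_mem_maximalIdeal
      intro k
      rw [coeff_mk]
      have := hf (k + 1)
      rwa [show n + 1 - (k + 1) = n - k by omega] at this
    · apply C_mem_maximalIdeal_pow
      have := hf 0
      simpa using this

lemma maximalIdeal_pow_eq_psFilt (n : ℕ) : maximalIdeal A⟦X⟧ ^ n = psFilt A n :=
  le_antisymm (maximalIdeal_pow_le_psFilt n) (psFilt_le_maximalIdeal_pow n)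

/-- A power series ring in one variable over a complete Noetherian local ring is complete
with respect to its maximal ideal. -/
theorem powerSeries_isAdicComplete [IsNoetherianRing A] [IsAdicComplete (maximalIdeal A) A] :
    IsAdicComplete (maximalIdeal A⟦X⟧) A⟦X⟧ := by
  have : IsHausdorff (maximalIdeal A⟦X⟧) A⟦X⟧ := inferInstance
  refine { prec' := fun f hf => ?_ }
  -- the hypothesis in terms of membership
  have hf' : ∀ {m n : ℕ}, m ≤ n → f m - f n ∈ psFilt A m := by
    intro m n hmn
    have := hf hmn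
    rw [SModEq.sub_mem, smul_eq_mul, Ideal.mul_top, maximalIdeal_pow_eq_psFilt] at this
    exact this
  -- for each `k`, the shifted coefficient sequence is Cauchy in `A`
  have hcauchy : ∀ k : ℕ, ∃ L : A, ∀ j : ℕ,
      coeff k (f (j + k)) ≡ L [SMOD (maximalIdeal A ^ j • ⊤ : Submodule A A)] := by
    intro k
    apply IsPrecomplete.prec (inferInstance : IsPrecomplete (maximalIdeal A) A)
    intro i j hij
    rw [SModEq.sub_mem, smul_eq_mul, Ideal.mul_top, ← map_sub]
    have := hf' (show i + k ≤ j + k by omega) k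
    rwa [show i + k - k = i by omega] at this
  choose L hL using hcauchy
  refine ⟨PowerSeries.mk L, fun n => ?_⟩
  rw [SModEq.sub_mem, smul_eq_mul, Ideal.mul_top, maximalIdeal_pow_eq_psFilt]
  intro k
  rw [map_sub, coeff_mk]
  by_cases hkn : k < n
  · have := hL k (n - k)
    rw [SModEq.sub_mem, smul_eq_mul, Ideal.mul_top, show n - k + k = n by omega] at this
    exact this
  · have : n - k = 0 := by omega
    rw [this, pow_zero, Ideal.one_eq_top]; trivial

end OneVariable

section Transport

/-- Completeness with respect to the maximal ideal transports along ring isomorphisms. -/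
lemma isAdicComplete_maximalIdeal_of_ringEquiv {R S : Type*} [CommRing R] [CommRing S]
    [IsLocalRing R] [IsLocalRing S] (e : R ≃+* S)
    [IsAdicComplete (maximalIdeal R) R] : IsAdicComplete (maximalIdeal S) S := by
  have h : (maximalIdeal R).map e = maximalIdeal S := by
    ext x
    rw [Ideal.mem_map_of_equiv]
    constructor
    · rintro ⟨y, hy, rfl⟩
      rw [mem_maximalIdeal, mem_nonunits_iff] at hy ⊢
      simpa using hy
    · intro hx
      refine ⟨e.symm x, ?_, by simp⟩
      rw [mem_maximalIdeal, mem_nonunits_iff] at hx ⊢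
      simpa using hx
  rw [← h]
  exact (IsAdicComplete.congr_ringEquiv (maximalIdeal R) e).mpr inferInstance

end Transport

/-- A power series ring in finitely many variables over a complete Noetherian local ring is
complete with respect to its maximal ideal. -/
theorem mvPowerSeries_isAdicComplete (𝒪 : Type*) [CommRing 𝒪] [IsNoetherianRing 𝒪]
    [IsLocalRing 𝒪] [IsAdicComplete (maximalIdeal 𝒪) 𝒪] (d : ℕ) :
    IsAdicComplete (maximalIdeal (MvPowerSeries (Fin d) 𝒪)) (MvPowerSeries (Fin d) 𝒪) := by
  induction d with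
  | zero =>
    exact isAdicComplete_maximalIdeal_of_ringEquiv
      (MvPowerSeries.isEmptyEquiv (σ := Fin 0) (R := 𝒪)).toRingEquiv.symm
  | succ d ih =>
    have := ih
    have : IsAdicComplete (maximalIdeal (MvPowerSeries (Fin d) 𝒪)⟦X⟧)
        (MvPowerSeries (Fin d) 𝒪)⟦X⟧ := powerSeries_isAdicComplete
    exact isAdicComplete_maximalIdeal_of_ringEquiv
      (MvPowerSeries.finSuccEquiv 𝒪 d).toRingEquiv.symm

end Fermat.Agent.S53

end
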