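/-
Standalone commutative algebra about Artinian test algebras over a local ring `𝒪`
(used by the construction of the universal deformation ring, statement S53).
-/
import Mathlib
import Fermat.Prelude.Def_GaloisRep_DeformationCondition

set_option autoImplicit false

namespace Fermat.Agent.S53

open IsLocalRing

section General

variable {𝒪 : Type*} [CommRing 𝒪]

/-- (T1) A commutative `𝒪`-algebra `B` with a nil ideal `𝔪` such that `B = 𝒪 + 𝔪` and
`𝔪_𝒪 B ⊆ 𝔪` is a local ring with maximal ideal `𝔪`, the structure map is local and hits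
every residue class. -/
theorem isLocalRing_of_nil_ideal [IsLocalRing 𝒪] {B : Type*} [CommRing B] [Algebra 𝒪 B]
    (𝔪 : Ideal B)
    (hnil : ∀ x ∈ 𝔪, IsNilpotent x) (h1 : (1 : B) ∉ 𝔪)
    (hres : ∀ b : B, ∃ c : 𝒪, b - algebraMap 𝒪 B c ∈ 𝔪)
    (hmax : ∀ c ∈ maximalIdeal 𝒪, algebraMap 𝒪 B c ∈ 𝔪) :
    ∃ _ : IsLocalRing B, maximalIdeal B = 𝔪 ∧ IsLocalHom (algebraMap 𝒪 B) ∧
      Function.Surjective (residue B ∘ algebraMap 𝒪 B) := by
  have hunit : ∀ b : B, b ∉ 𝔪 → IsUnit b := by
    intro b hb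
    obtain ⟨c, hc⟩ := hres b
    have hcu : IsUnit c := by
      rw [← IsLocalRing.notMem_maximalIdeal]
      intro hcm
      apply hb
      have := 𝔪.add_mem hc (hmax c hcm)
      simpa using this
    have := (hnil _ hc).isUnit_add_left_of_commute (hcu.map (algebraMap 𝒪 B)) (Commute.all _ _)
    simpa using this
  have hnonunit : ∀ b : B, b ∈ 𝔪 → ¬ IsUnit b := by
    intro b hb hu
    exact h1 ((Ideal.eq_top_of_isUnit_mem 𝔪 hb hu) ▸ Submodule.mem_top)
  have hiff : ∀ b : B, b ∈ nonunits B ↔ b ∈ 𝔪 := by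
    intro b
    rw [mem_nonunits_iff]
    exact ⟨fun h => by_contra fun hb => h (hunit b hb), hnonunit b⟩
  have : Nontrivial B := ⟨⟨1, 0, fun h => h1 (h ▸ 𝔪.zero_mem)⟩⟩
  have hloc : IsLocalRing B := IsLocalRing.of_nonunits_add fun a b ha hb => by
    rw [hiff] at ha hb ⊢
    exact 𝔪.add_mem ha hb
  refine ⟨hloc, ?_, ?_, ?_⟩
  · ext x
    rw [IsLocalRing.mem_maximalIdeal, hiff]
  · refine ⟨fun c hc => ?_⟩
    by_contra hcu
    have hcm : c ∈ maximalIdeal 𝒪 := by
      rwa [IsLocalRing.mem_maximalIdeal, mem_nonunits_iff]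
    exact hnonunit _ (hmax c hcm) hc
  · intro x
    obtain ⟨b, rfl⟩ := IsLocalRing.residue_surjective x
    obtain ⟨c, hc⟩ := hres b
    refine ⟨c, ?_⟩
    have hc' : b - algebraMap 𝒪 B c ∈ maximalIdeal B := by
      rw [IsLocalRing.mem_maximalIdeal, hiff]
      exact hc
    rw [← IsLocalRing.residue_eq_zero_iff, map_sub, sub_eq_zero] at hc'
    exact hc'.symm

/-- Residue-surjectivity in elementwise form. -/
theorem exists_sub_mem_maximalIdeal {A : Type*} [CommRing A] [IsLocalRing A] [Algebra 𝒪 A]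
    (hsurj : Function.Surjective (residue A ∘ algebraMap 𝒪 A)) (a : A) :
    ∃ c : 𝒪, a - algebraMap 𝒪 A c ∈ maximalIdeal A := by
  obtain ⟨c, hc⟩ := hsurj (residue A a)
  refine ⟨c, ?_⟩
  rw [← IsLocalRing.residue_eq_zero_iff, map_sub, sub_eq_zero]
  exact hc.symm

/-- Converse of `exists_sub_mem_maximalIdeal`. -/
theorem residue_comp_algebraMap_surjective_of_forall {A : Type*} [CommRing A] [IsLocalRing A]
    [Algebra 𝒪 A] (h : ∀ a : A, ∃ c : 𝒪, a - algebraMap 𝒪 A c ∈ maximalIdeal A) :
    Function.Surjective (residue A ∘ algebraMap 𝒪 A) := by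
  intro x
  obtain ⟨a, rfl⟩ := IsLocalRing.residue_surjective x
  obtain ⟨c, hc⟩ := h a
  refine ⟨c, ?_⟩
  rw [← IsLocalRing.residue_eq_zero_iff, map_sub, sub_eq_zero] at hc
  exact hc.symm

/-- (T5a) An `𝒪`-algebra map between local `𝒪`-algebras is local as soon as the target is
residue-surjective over `𝒪` and its structure map is local. -/
theorem isLocalHom_algHom_of_target {A B : Type*} [CommRing A] [IsLocalRing A] [Algebra 𝒪 A]
    [CommRing B] [IsLocalRing B] [Algebra 𝒪 B]
    (hB : IsLocalHom (algebraMap 𝒪 B))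
    (hsurjB : Function.Surjective (residue B ∘ algebraMap 𝒪 B)) (ψ : A →ₐ[𝒪] B) :
    IsLocalHom (ψ : A →+* B) := by
  refine ⟨fun a ha => ?_⟩
  by_contra hau
  have ham : a ∈ maximalIdeal A := by rwa [IsLocalRing.mem_maximalIdeal, mem_nonunits_iff]
  have ha' : IsUnit (ψ a) := ha
  obtain ⟨c, hc⟩ := exists_sub_mem_maximalIdeal hsurjB (ψ a)
  have hcB : IsUnit (algebraMap 𝒪 B c) := by
    rw [← IsLocalRing.notMem_maximalIdeal]
    intro hcm
    have := (maximalIdeal B).add_mem hc hcm
    rw [sub_add_cancel] at this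
    exact (IsLocalRing.notMem_maximalIdeal.mpr ha') this
  have hcu : IsUnit c := hB.map_nonunit c hcB
  have hu : IsUnit (a - algebraMap 𝒪 A c) := by
    rw [← IsLocalRing.notMem_maximalIdeal]
    intro hm
    have h2 : algebraMap 𝒪 A c ∈ maximalIdeal A := by
      have := (maximalIdeal A).sub_mem ham hm
      simpa using this
    exact (IsLocalRing.notMem_maximalIdeal.mpr (hcu.map (algebraMap 𝒪 A))) h2
  have hu' : IsUnit (ψ (a - algebraMap 𝒪 A c)) := hu.map ψ
  rw [map_sub, AlgHom.commutes] at hu'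
  exact (IsLocalRing.notMem_maximalIdeal.mpr hu') hc

/-- (T5b) An `𝒪`-algebra map between local `𝒪`-algebras is local as soon as the source is
residue-surjective over `𝒪` with nil maximal ideal and the structure map of the target is
local. -/
theorem isLocalHom_algHom_of_source {A B : Type*} [CommRing A] [IsLocalRing A] [Algebra 𝒪 A]
    [CommRing B] [IsLocalRing B] [Algebra 𝒪 B]
    (hB : IsLocalHom (algebraMap 𝒪 B))
    (hsurjA : Function.Surjective (residue A ∘ algebraMap 𝒪 A))
    (hnil : ∀ x ∈ maximalIdeal A, IsNilpotent x) (ψ : A →ₐ[𝒪] B) :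
    IsLocalHom (ψ : A →+* B) := by
  refine ⟨fun a ha => ?_⟩
  have ha' : IsUnit (ψ a) := ha
  obtain ⟨c, hc⟩ := exists_sub_mem_maximalIdeal hsurjA a
  have hnilB : IsNilpotent (ψ (a - algebraMap 𝒪 A c)) := (hnil _ hc).map ψ
  have hcB : IsUnit (algebraMap 𝒪 B c) := by
    have h := (hnilB.neg).isUnit_add_left_of_commute ha' (Commute.all _ _)
    rw [map_sub, AlgHom.commutes] at h
    simpa using h
  have hcu : IsUnit c := hB.map_nonunit c hcB
  have := (hnil _ hc).isUnit_add_left_of_commute (hcu.map (algebraMap 𝒪 A)) (Commute.all _ _)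
  simpa using this

end General

section Finite

universe u

variable {𝒪 : Type*} [CommRing 𝒪]

/-- A finitely generated module over a Noetherian local `𝒪`-algebra `A` with
`A = 𝒪 + 𝔪_A`, killed by a power of `𝔪_A`, is finitely generated over `𝒪`. -/
theorem finite_of_maximalIdeal_pow_smul_eq_bot {A : Type*} [CommRing A] [IsLocalRing A]
    [Algebra 𝒪 A] [IsNoetherianRing A]
    (hsurj : Function.Surjective (residue A ∘ algebraMap 𝒪 A)) :
    ∀ (n : ℕ) (M : Type u) [AddCommGroup M] [Module A M] [Module 𝒪 M] [IsScalarTower 𝒪 A M]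
      [Module.Finite A M],
      (maximalIdeal A ^ n) • (⊤ : Submodule A M) = ⊥ → Module.Finite 𝒪 M := by
  intro n
  induction n with
  | zero =>
    intro M _ _ _ _ _ h
    rw [pow_zero, Ideal.one_eq_top, Submodule.top_smul] at h
    have : Subsingleton M := by
      refine ⟨fun x y => ?_⟩
      have hx : x ∈ (⊤ : Submodule A M) := Submodule.mem_top
      have hy : y ∈ (⊤ : Submodule A M) := Submodule.mem_top
      rw [h, Submodule.mem_bot] at hx hy
      rw [hx, hy]
    infer_instance
  | succ n ih =>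
    intro M _ _ _ _ _ h
    have : IsNoetherian A M := isNoetherian_of_isNoetherianRing_of_finite A M
    let N : Submodule A M := maximalIdeal A • (⊤ : Submodule A M)
    -- the submodule `𝔪 M` is finite over `𝒪` by induction
    have hN : (maximalIdeal A ^ n) • (⊤ : Submodule A N) = ⊥ := by
      apply Submodule.map_injective_of_injective N.injective_subtype
      rw [Submodule.map_smul'', Submodule.map_top, Submodule.range_subtype, Submodule.map_bot,
        ← Submodule.mul_smul, ← pow_succ]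
      exact h
    have hNfin : Module.Finite 𝒪 N := ih N hN
    -- the quotient `M / 𝔪 M` is finite over `𝒪`
    have hsmul : ∀ (a : A) (q : M ⧸ N), ∃ c : 𝒪, a • q = c • q := by
      intro a q
      obtain ⟨c, hc⟩ := exists_sub_mem_maximalIdeal hsurj a
      refine ⟨c, ?_⟩
      obtain ⟨x, rfl⟩ := Submodule.Quotient.mk_surjective N q
      rw [← sub_eq_zero, ← algebraMap_smul A c (Submodule.Quotient.mk x), ← sub_smul,
        ← Submodule.Quotient.mk_smul, Submodule.Quotient.mk_eq_zero]
      exact Submodule.smul_mem_smul hc Submodule.mem_top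
    have hQfin : Module.Finite 𝒪 (M ⧸ N) := by
      obtain ⟨s, hs⟩ := (Module.finite_def.mp (inferInstance : Module.Finite A (M ⧸ N)))
      refine ⟨⟨s, ?_⟩⟩
      rw [eq_top_iff]
      intro q _
      have hq : q ∈ Submodule.span A (s : Set (M ⧸ N)) := hs ▸ Submodule.mem_top
      induction hq using Submodule.span_induction with
      | mem x hx => exact Submodule.subset_span hx
      | zero => exact Submodule.zero_mem _
      | add x y _ _ hx hy => exact Submodule.add_mem _ (hx Submodule.mem_top) (hy Submodule.mem_top)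
      | smul a x _ hx =>
        obtain ⟨c, hc⟩ := hsmul a x
        rw [hc]
        exact Submodule.smul_mem _ c (hx Submodule.mem_top)
    have h1 : Module.Finite 𝒪 ↥(N.restrictScalars 𝒪) :=
      Module.Finite.equiv ((Submodule.restrictScalarsEquiv 𝒪 A M N).restrictScalars 𝒪).symm
    have h2 : Module.Finite 𝒪 (M ⧸ N.restrictScalars 𝒪) :=
      Module.Finite.equiv (Submodule.Quotient.restrictScalarsEquiv 𝒪 N).symm
    exact Module.Finite.of_submodule_quotient (N.restrictScalars 𝒪)

end Finite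

section TestAlgebra

variable {𝒪 : Type} [CommRing 𝒪]

/-- The maximal ideal of an Artinian test algebra is nilpotent. -/
theorem isNilpotent_maximalIdeal_of_isArtinianTestAlgebra {A : Type} [CommRing A] [IsLocalRing A]
    [Algebra 𝒪 A] (hA : GaloisRep.IsArtinianTestAlgebra 𝒪 A) :
    IsNilpotent (maximalIdeal A) := by
  have := hA.isArtinian
  have h := IsArtinianRing.isNilpotent_jacobson_bot (R := A)
  rwa [IsLocalRing.jacobson_eq_maximalIdeal ⊥ bot_ne_top] at h

/-- Every element of the maximal ideal of an Artinian test algebra is nilpotent. -/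
theorem isNilpotent_of_mem_maximalIdeal_of_isArtinianTestAlgebra {A : Type} [CommRing A]
    [IsLocalRing A] [Algebra 𝒪 A] (hA : GaloisRep.IsArtinianTestAlgebra 𝒪 A) {x : A}
    (hx : x ∈ maximalIdeal A) : IsNilpotent x := by
  obtain ⟨n, hn⟩ := isNilpotent_maximalIdeal_of_isArtinianTestAlgebra hA
  refine ⟨n, ?_⟩
  have : x ^ n ∈ maximalIdeal A ^ n := Ideal.pow_mem_pow hx n
  rw [hn] at this
  simpa using this

/-- (T2) An Artinian test algebra is a finite `𝒪`-module. -/
theorem finite_of_isArtinianTestAlgebra {A : Type} [CommRing A] [IsLocalRing A]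
    [Algebra 𝒪 A] (hA : GaloisRep.IsArtinianTestAlgebra 𝒪 A) : Module.Finite 𝒪 A := by
  have := hA.isArtinian
  obtain ⟨n, hn⟩ := isNilpotent_maximalIdeal_of_isArtinianTestAlgebra hA
  refine finite_of_maximalIdeal_pow_smul_eq_bot hA.residue_surjective n A ?_
  rw [hn]
  simp

/-- (T3) A local `𝒪`-algebra, finite over the Noetherian ring `𝒪`, with nilpotent maximal
ideal, local structure map and residue field hit by `𝒪`, is an Artinian test algebra. -/
theorem isArtinianTestAlgebra_of_finite [IsNoetherianRing 𝒪] {A : Type} [CommRing A]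
    [IsLocalRing A] [Algebra 𝒪 A] (hloc : IsLocalHom (algebraMap 𝒪 A))
    (hsurj : Function.Surjective (residue A ∘ algebraMap 𝒪 A)) [Module.Finite 𝒪 A]
    (hnil : IsNilpotent (maximalIdeal A)) : GaloisRep.IsArtinianTestAlgebra 𝒪 A := by
  have : IsNoetherianRing A := IsNoetherianRing.of_finite 𝒪 A
  exact ⟨hloc, hsurj, (isArtinianRing_iff_isNilpotent_maximalIdeal A).mpr hnil⟩

/-- (T3') Every `𝒪`-subalgebra of an Artinian test algebra is again an Artinian test algebra,
and the inclusion is a local homomorphism. -/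
theorem subalgebra_isArtinianTestAlgebra [IsLocalRing 𝒪] [IsNoetherianRing 𝒪] {A : Type} [CommRing A]
    [IsLocalRing A] [Algebra 𝒪 A] (hA : GaloisRep.IsArtinianTestAlgebra 𝒪 A)
    (B : Subalgebra 𝒪 A) :
    ∃ _ : IsLocalRing ↥B, GaloisRep.IsArtinianTestAlgebra 𝒪 ↥B ∧
      IsLocalHom (B.val : ↥B →+* A) := by
  have hAloc := hA.isLocalHom
  obtain ⟨n, hn⟩ := isNilpotent_maximalIdeal_of_isArtinianTestAlgebra hA
  have hinj : Function.Injective (B.val : ↥B →+* A) := Subtype.val_injective
  let 𝔪 : Ideal ↥B := Ideal.comap (B.val : ↥B →+* A) (maximalIdeal A)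
  have hnil : ∀ x ∈ 𝔪, IsNilpotent x := by
    intro x hx
    have hx' : (x : A) ∈ maximalIdeal A := hx
    obtain ⟨k, hk⟩ := isNilpotent_of_mem_maximalIdeal_of_isArtinianTestAlgebra hA hx'
    refine ⟨k, Subtype.ext ?_⟩
    simpa using hk
  have h1 : (1 : ↥B) ∉ 𝔪 := by
    intro h
    have h' : ((1 : ↥B) : A) ∈ maximalIdeal A := h
    rw [OneMemClass.coe_one] at h'
    exact (Ideal.ne_top_iff_one _).mp (IsLocalRing.maximalIdeal.isMaximal A).ne_top h'
  have hres : ∀ b : ↥B, ∃ c : 𝒪, b - algebraMap 𝒪 ↥B c ∈ 𝔪 := by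
    intro b
    obtain ⟨c, hc⟩ := exists_sub_mem_maximalIdeal hA.residue_surjective (b : A)
    exact ⟨c, hc⟩
  have hmax : ∀ c ∈ maximalIdeal 𝒪, algebraMap 𝒪 ↥B c ∈ 𝔪 := by
    intro c hc
    have : algebraMap 𝒪 A c ∈ maximalIdeal A := by
      rw [IsLocalRing.mem_maximalIdeal, mem_nonunits_iff] at hc ⊢
      exact fun h => hc (hAloc.map_nonunit c h)
    exact this
  obtain ⟨hloc, hmaxeq, hlocal, hsurj⟩ := isLocalRing_of_nil_ideal 𝔪 hnil h1 hres hmax
  refine ⟨hloc, ?_, ?_⟩
  · have : Module.Finite 𝒪 A := finite_of_isArtinianTestAlgebra hA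
    have : IsNoetherian 𝒪 A := isNoetherian_of_isNoetherianRing_of_finite 𝒪 A
    have : Module.Finite 𝒪 ↥B := Module.Finite.of_injective B.val.toLinearMap Subtype.val_injective
    refine isArtinianTestAlgebra_of_finite hlocal hsurj ⟨n, ?_⟩
    rw [hmaxeq, Ideal.zero_eq_bot, eq_bot_iff]
    refine (Ideal.le_comap_pow (B.val : ↥B →+* A) n).trans ?_
    rw [hn, Ideal.zero_eq_bot]
    intro x hx
    rw [Ideal.mem_comap, Ideal.mem_bot] at hx
    rw [Ideal.mem_bot]
    exact hinj (by simpa using hx)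
  · refine ⟨fun b hb => ?_⟩
    rw [← IsLocalRing.notMem_maximalIdeal, hmaxeq]
    intro hbm
    exact (IsLocalRing.notMem_maximalIdeal.mpr hb) hbm

/-- (T4) A proper quotient of a Noetherian local `𝒪`-algebra `A` (local structure map, residue
field hit by `𝒪`) by an ideal containing a power of the maximal ideal is an Artinian test
algebra, and the quotient map is local. -/
theorem quotient_isArtinianTestAlgebra {A : Type} [CommRing A] [IsLocalRing A]
    [IsNoetherianRing A] [Algebra 𝒪 A] (hloc : IsLocalHom (algebraMap 𝒪 A))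
    (hsurj : Function.Surjective (residue A ∘ algebraMap 𝒪 A))
    (I : Ideal A) (hI : I ≠ ⊤) (n : ℕ) (hn : maximalIdeal A ^ n ≤ I) :
    ∃ _ : IsLocalRing (A ⧸ I), GaloisRep.IsArtinianTestAlgebra 𝒪 (A ⧸ I) ∧
      IsLocalHom (Ideal.Quotient.mk I) := by
  have : Nontrivial (A ⧸ I) := Ideal.Quotient.nontrivial_iff.mpr hI
  have hlocQ : IsLocalRing (A ⧸ I) :=
    IsLocalRing.of_surjective' (Ideal.Quotient.mk I) Ideal.Quotient.mk_surjective
  have hmk : IsLocalHom (Ideal.Quotient.mk I) :=
    IsLocalHom.of_surjective (Ideal.Quotient.mk I) Ideal.Quotient.mk_surjective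
  have hmap : (maximalIdeal A).map (Ideal.Quotient.mk I) = maximalIdeal (A ⧸ I) := by
    ext x
    obtain ⟨x, rfl⟩ := Ideal.Quotient.mk_surjective x
    simp [sup_eq_left.mpr (le_maximalIdeal hI)]
  refine ⟨hlocQ, ⟨?_, ?_, ?_⟩, hmk⟩
  · have : algebraMap 𝒪 (A ⧸ I) = (Ideal.Quotient.mk I).comp (algebraMap 𝒪 A) := rfl
    rw [this]
    exact RingHom.isLocalHom_comp _ _
  · apply residue_comp_algebraMap_surjective_of_forall
    intro x
    obtain ⟨a, rfl⟩ := Ideal.Quotient.mk_surjective x
    obtain ⟨c, hc⟩ := exists_sub_mem_maximalIdeal hsurj a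
    refine ⟨c, ?_⟩
    rw [← hmap]
    exact Ideal.mem_map_of_mem _ hc
  · rw [isArtinianRing_iff_isNilpotent_maximalIdeal]
    refine ⟨n, ?_⟩
    rw [← hmap, ← Ideal.map_pow, Ideal.zero_eq_bot, Ideal.map_eq_bot_iff_le_ker, Ideal.mk_ker]
    exact hn

/-- (T4, special case) `A ⧸ 𝔪_A ^ n` for `n ≥ 1`. -/
theorem quotient_maximalIdeal_pow_isArtinianTestAlgebra {A : Type} [CommRing A] [IsLocalRing A]
    [IsNoetherianRing A] [Algebra 𝒪 A] (hloc : IsLocalHom (algebraMap 𝒪 A))
    (hsurj : Function.Surjective (residue A ∘ algebraMap 𝒪 A)) (n : ℕ) (hn : 1 ≤ n) :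
    ∃ _ : IsLocalRing (A ⧸ maximalIdeal A ^ n),
      GaloisRep.IsArtinianTestAlgebra 𝒪 (A ⧸ maximalIdeal A ^ n) ∧
      IsLocalHom (Ideal.Quotient.mk (maximalIdeal A ^ n)) := by
  refine quotient_isArtinianTestAlgebra hloc hsurj _ ?_ n le_rfl
  intro h
  have h1 : maximalIdeal A ^ n ≤ maximalIdeal A := Ideal.pow_le_self (by omega)
  rw [h, top_le_iff] at h1
  exact (IsLocalRing.maximalIdeal.isMaximal A).ne_top h1

end TestAlgebra

end Fermat.Agent.S53
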