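/-
S53 block PointsBasic (owner: helper92): basic facts on matrix lifts.
-/
import Fermat.Agent.S53.Defs
import Fermat.Agent.S53.Rigid
import Fermat.Agent.S53.TestAlg

set_option autoImplicit false

namespace Fermat.Agent.S53

open IsLocalRing GaloisRep

variable {𝒪 : Type} [CommRing 𝒪] [IsLocalRing 𝒪] {ρbar : ResidualGaloisRep (ResidueField 𝒪)}
  (D : RigidData 𝒪 ρbar)

/-- Over a ring with nilpotent maximal ideal, continuity means: trivial on an open subgroup. -/
theorem isContMat_iff_of_isNilpotent {A : Type} [CommRing A] [IsLocalRing A]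
    (hnil : IsNilpotent (maximalIdeal A)) (r : Gal →* M2 A) :
    IsContMat r ↔ ∃ L : IntermediateField ℚ (AlgebraicClosure ℚ), FiniteDimensional ℚ L ∧
      ∀ σ : Gal, (∀ x ∈ L, σ x = x) → r σ = 1 := by
  constructor
  · intro h
    obtain ⟨n, hn⟩ := hnil
    obtain ⟨L, hL, hL'⟩ := h n
    refine ⟨L, hL, fun σ hσ => ?_⟩
    have h0 : r σ - 1 = 0 := by
      ext i j
      have := hL' σ hσ i j
      rw [hn] at this
      simpa using this
    exact sub_eq_zero.mp h0
  · rintro ⟨L, hL, hL'⟩ n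
    refine ⟨L, hL, fun σ hσ i j => ?_⟩
    rw [hL' σ hσ, sub_self]
    exact Ideal.zero_mem _

/-- Continuity descends along an injective ring homomorphism between rings with nilpotent
maximal ideals. -/
theorem isContMat_of_mapMat_injective {A B : Type} [CommRing A] [IsLocalRing A] [CommRing B]
    [IsLocalRing B] (hA : IsNilpotent (maximalIdeal A)) (hB : IsNilpotent (maximalIdeal B))
    (φ : A →+* B) (hφ : Function.Injective φ) (r : Gal →* M2 A)
    (h : IsContMat (mapMat φ r)) : IsContMat r := by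
  rw [isContMat_iff_of_isNilpotent hB] at h
  rw [isContMat_iff_of_isNilpotent hA]
  obtain ⟨L, hL, hL'⟩ := h
  refine ⟨L, hL, fun σ hσ => ?_⟩
  have h1 := hL' σ hσ
  ext i j
  apply hφ
  have h2 := congrFun (congrFun h1 i) j
  rw [mapMat_apply] at h2
  rw [h2]
  by_cases hij : i = j
  · subst hij; simp
  · simp [Matrix.one_apply_ne hij]

/-- `LiftsC` descends along a local algebra homomorphism. -/
theorem liftsC_of_mapMat {A B : Type} [CommRing A] [IsLocalRing A] [Algebra 𝒪 A] [CommRing B]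
    [IsLocalRing B] [Algebra 𝒪 B] (φ : A →ₐ[𝒪] B) (_hφ : IsLocalHom (φ : A →+* B))
    (r : Gal →* M2 A) (h : LiftsC D (mapMat (φ : A →+* B) r)) : LiftsC D r := by
  intro σ i j
  have h1 := h σ i j
  rw [mapMat_apply] at h1
  have h2 : (φ : A →+* B) (r σ i j) - algebraMap 𝒪 B (D.c σ i j) =
      (φ : A →+* B) (r σ i j - algebraMap 𝒪 A (D.c σ i j)) := by
    rw [map_sub]
    congr 1
    exact (φ.commutes _).symm
  rw [h2, mem_maximalIdeal, mem_nonunits_iff] at h1
  rw [mem_maximalIdeal, mem_nonunits_iff]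
  exact fun hu => h1 (hu.map _)

/-- `eMat` commutes with push-forward along algebra maps. -/
theorem eMat_mapMat {A B : Type} [CommRing A] [IsLocalRing A] [Algebra 𝒪 A] [CommRing B]
    [IsLocalRing B] [Algebra 𝒪 B] (φ : A →ₐ[𝒪] B) (r : Gal →* M2 A) (i j : Fin 2) :
    eMat D (mapMat (φ : A →+* B) r) i j = φ (eMat D r i j) := by
  simp only [eMat, Matrix.sum_apply, Matrix.smul_apply, mapMat_apply, smul_eq_mul, map_sum,
    map_mul, AlgHom.commutes, RingHom.coe_coe]

/-- `fMat` commutes with push-forward along algebra maps. -/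
theorem fMat_mapMat {A B : Type} [CommRing A] [IsLocalRing A] [Algebra 𝒪 A] [CommRing B]
    [IsLocalRing B] [Algebra 𝒪 B] (φ : A →ₐ[𝒪] B) (r : Gal →* M2 A) (i j : Fin 2) :
    fMat D (mapMat (φ : A →+* B) r) i j = φ (fMat D r i j) := by
  simp only [fMat, Matrix.sum_apply, Matrix.smul_apply, mapMat_apply, smul_eq_mul, map_sum,
    map_mul, AlgHom.commutes, RingHom.coe_coe]

/-- `Normalized` descends along an injective algebra homomorphism. -/
theorem normalized_of_mapMat_injective {A B : Type} [CommRing A] [IsLocalRing A] [Algebra 𝒪 A]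
    [CommRing B] [IsLocalRing B] [Algebra 𝒪 B] (φ : A →ₐ[𝒪] B) (hφ : Function.Injective φ)
    (r : Gal →* M2 A) (h : Normalized D (mapMat (φ : A →+* B) r)) : Normalized D r := by
  obtain ⟨h1, h2, h3⟩ := h
  rw [eMat_mapMat] at h1
  rw [fMat_mapMat] at h2 h3
  refine ⟨hφ ?_, hφ ?_, hφ ?_⟩
  · rw [h1, map_zero]
  · rw [h2, map_zero]
  · rw [h3, map_one]

/-- `Normalized` is preserved by push-forward along algebra homomorphisms. -/
theorem Normalized.mapMat {A B : Type} [CommRing A] [IsLocalRing A] [Algebra 𝒪 A]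
    [CommRing B] [IsLocalRing B] [Algebra 𝒪 B] (φ : A →ₐ[𝒪] B)
    {r : Gal →* M2 A} (h : Normalized D r) : Normalized D (mapMat (φ : A →+* B) r) := by
  obtain ⟨h1, h2, h3⟩ := h
  refine ⟨?_, ?_, ?_⟩
  · rw [eMat_mapMat, h1, map_zero]
  · rw [fMat_mapMat, h2, map_zero]
  · rw [fMat_mapMat, h3, map_one]

/-- `LiftsC` is preserved by push-forward along local algebra homomorphisms. -/
theorem LiftsC.mapMat {A B : Type} [CommRing A] [IsLocalRing A] [Algebra 𝒪 A] [CommRing B]
    [IsLocalRing B] [Algebra 𝒪 B] (φ : A →ₐ[𝒪] B) (hφ : IsLocalHom (φ : A →+* B))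
    {r : Gal →* M2 A} (h : LiftsC D r) : LiftsC D (mapMat (φ : A →+* B) r) := by
  intro σ i j
  have h1 := h σ i j
  rw [mapMat_apply]
  have h2 : (φ : A →+* B) (r σ i j) - algebraMap 𝒪 B (D.c σ i j) =
      (φ : A →+* B) (r σ i j - algebraMap 𝒪 A (D.c σ i j)) := by
    rw [map_sub]
    congr 1
    exact (φ.commutes _).symm
  rw [h2]
  rw [mem_maximalIdeal, mem_nonunits_iff] at h1 ⊢
  exact fun hu => h1 (hφ.map_nonunit _ hu)

/-- Corestriction of a matrix representation to a subalgebra containing all its entries. -/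
theorem exists_corestrict {A : Type} [CommRing A] [Algebra 𝒪 A] (S : Subalgebra 𝒪 A)
    (r : Gal →* M2 A) (h : ∀ σ i j, r σ i j ∈ S) :
    ∃ r' : Gal →* M2 S, mapMat (S.val : S →+* A) r' = r := by
  have hinj : Function.Injective ((S.val : S →+* A).mapMatrix : M2 S →+* M2 A) := by
    intro M N hMN
    ext i j
    have := congrFun (congrFun hMN i) j
    simpa using this
  have hval : ∀ σ, ((S.val : S →+* A).mapMatrix : M2 S →+* M2 A)
      (Matrix.of fun i j => (⟨r σ i j, h σ i j⟩ : S)) = r σ := by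
    intro σ
    ext i j
    simp
  refine ⟨{ toFun := fun σ => Matrix.of fun i j => (⟨r σ i j, h σ i j⟩ : S)
            map_one' := hinj (by rw [hval, map_one, map_one])
            map_mul' := fun σ τ => hinj (by
              rw [map_mul ((S.val : S →+* A).mapMatrix : M2 S →+* M2 A), hval, hval, hval,
                map_mul]) }, ?_⟩
  ext σ i j
  rfl

/-- Two `𝒪`-algebra maps out of `A` agree as soon as they agree on the entries of `r`, when
these generate `A`. -/
theorem algHom_ext_of_ev_surjective {A B : Type} [CommRing A] [Algebra 𝒪 A] [CommRing B]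
    [Algebra 𝒪 B] (r : Gal →* M2 A) (hr : Function.Surjective (ev (𝒪 := 𝒪) r))
    (φ ψ : A →ₐ[𝒪] B) (h : mapMat (φ : A →+* B) r = mapMat (ψ : A →+* B) r) : φ = ψ := by
  have h1 : φ.comp (ev (𝒪 := 𝒪) r) = ψ.comp (ev (𝒪 := 𝒪) r) := by
    rw [ev_map, ev_map, h]
  exact (AlgHom.cancel_right hr).mp h1

end Fermat.Agent.S53
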