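/-
S53 (universal deformation ring) -- dictionary between `GaloisRepAdic` and matrix
representations: compatibility of `ofMat` with base change (C2) and the description of
equivalences between `ofMat`'s as conjugation by an invertible matrix (C3).
Owner: helper89.  Everything lives in `namespace Fermat.Agent.S53`.
-/
import Mathlib
import Fermat.Agent.S53.Defs

set_option autoImplicit false

noncomputable section

namespace Fermat.Agent.S53

open IsLocalRing
open scoped TensorProduct

/-- The identification `B ⊗[A] A² ≃ B²` intertwines the base change of a matrix with the matrix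
with mapped entries. -/
lemma piScalarRight_baseChange_toLin' {A B : Type} [CommRing A] [CommRing B] [Algebra A B]
    (m : M2 A) (x : B ⊗[A] (Fin 2 → A)) :
    TensorProduct.piScalarRight A B B (Fin 2) ((Matrix.toLin' m).baseChange B x) =
      ((algebraMap A B).mapMatrix m).mulVec (TensorProduct.piScalarRight A B B (Fin 2) x) := by
  induction x using TensorProduct.induction_on with
  | zero => simp
  | tmul b v =>
    rw [LinearMap.baseChange_tmul, TensorProduct.piScalarRight_apply,
      TensorProduct.piScalarRightHom_tmul, TensorProduct.piScalarRight_apply,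
      TensorProduct.piScalarRightHom_tmul]
    ext j
    simp only [Matrix.toLin'_apply, Matrix.mulVec, dotProduct, Algebra.smul_def,
      RingHom.mapMatrix_apply, Matrix.map_apply, map_sum, map_mul, Finset.sum_mul, mul_assoc]
  | add x y hx hy => simp only [map_add, hx, hy, Matrix.mulVec_add]

/-- (C2) `ofMat` commutes with base change along a local homomorphism. -/
theorem ofMat_baseChangeAlong_isEquiv {A B : Type} [CommRing A] [IsLocalRing A] [CommRing B]
    [IsLocalRing B] (φ : A →+* B) (hφ : IsLocalHom φ) (r : Gal →* M2 A) (hr : IsContMat r) :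
    ((ofMat r hr).baseChangeAlong φ hφ).IsEquiv (ofMat (mapMat φ r) (hr.map φ hφ)) := by
  let _ : Algebra A B := φ.toAlgebra
  refine ⟨⟨(TensorProduct.piScalarRight A B B (Fin 2) : B ⊗[A] (Fin 2 → A) ≃ₗ[B] (Fin 2 → B)),
    ?_⟩⟩
  intro σ x
  exact piScalarRight_baseChange_toLin' (r σ) x

/-- (C3), easy direction: conjugate matrix representations give equivalent `ofMat`'s. -/
theorem ofMat_isEquiv_of_conj {A : Type} [CommRing A] [IsLocalRing A] (r r' : Gal →* M2 A)
    (hr : IsContMat r) (hr' : IsContMat r') (M N : M2 A) (hMN : M * N = 1) (hNM : N * M = 1)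
    (h : ∀ σ, M * r σ = r' σ * M) : (ofMat r hr).IsEquiv (ofMat r' hr') := by
  have h1 : Matrix.toLin' M ∘ₗ Matrix.toLin' N = LinearMap.id := by
    rw [← Matrix.toLin'_mul, hMN, Matrix.toLin'_one]
  have h2 : Matrix.toLin' N ∘ₗ Matrix.toLin' M = LinearMap.id := by
    rw [← Matrix.toLin'_mul, hNM, Matrix.toLin'_one]
  let e : (Fin 2 → A) ≃ₗ[A] (Fin 2 → A) :=
    LinearEquiv.ofLinearMap (Matrix.toLin' M) (Matrix.toLin' N) h1 h2
  have he : ∀ σ (x : Fin 2 → A), e ((r σ).mulVec x) = (r' σ).mulVec (e x) := by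
    intro σ x
    show M.mulVec ((r σ).mulVec x) = (r' σ).mulVec (M.mulVec x)
    rw [Matrix.mulVec_mulVec, Matrix.mulVec_mulVec, h σ]
  exact ⟨⟨e, he⟩⟩

/-- (C3), converse direction: an equivalence of `ofMat`'s is conjugation by an invertible
matrix. -/
theorem exists_conj_of_ofMat_isEquiv {A : Type} [CommRing A] [IsLocalRing A] (r r' : Gal →* M2 A)
    (hr : IsContMat r) (hr' : IsContMat r') (h : (ofMat r hr).IsEquiv (ofMat r' hr')) :
    ∃ M N : M2 A, M * N = 1 ∧ N * M = 1 ∧ ∀ σ, M * r σ = r' σ * M := by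
  obtain ⟨e, he⟩ := h
  change (Fin 2 → A) ≃ₗ[A] (Fin 2 → A) at e
  have he' : ∀ σ (x : Fin 2 → A), e ((r σ).mulVec x) = (r' σ).mulVec (e x) := he
  refine ⟨LinearMap.toMatrix' (e : (Fin 2 → A) →ₗ[A] (Fin 2 → A)),
    LinearMap.toMatrix' (e.symm : (Fin 2 → A) →ₗ[A] (Fin 2 → A)), ?_, ?_, ?_⟩
  · rw [← LinearMap.toMatrix'_comp]
    have : (e : (Fin 2 → A) →ₗ[A] (Fin 2 → A)) ∘ₗ (e.symm : (Fin 2 → A) →ₗ[A] (Fin 2 → A)) =
        LinearMap.id := by
      ext x : 1; simp
    rw [this, LinearMap.toMatrix'_id]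
  · rw [← LinearMap.toMatrix'_comp]
    have : (e.symm : (Fin 2 → A) →ₗ[A] (Fin 2 → A)) ∘ₗ (e : (Fin 2 → A) →ₗ[A] (Fin 2 → A)) =
        LinearMap.id := by
      ext x : 1; simp
    rw [this, LinearMap.toMatrix'_id]
  · intro σ
    apply Matrix.toLin'.injective
    rw [Matrix.toLin'_mul, Matrix.toLin'_mul, Matrix.toLin'_toMatrix']
    apply LinearMap.ext
    intro x
    show e ((r σ).mulVec x) = (r' σ).mulVec (e x)
    exact he' σ x

/-- (C3) Two `ofMat`'s are equivalent iff the matrix representations are conjugate by an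
invertible matrix. -/
theorem ofMat_isEquiv_iff {A : Type} [CommRing A] [IsLocalRing A] (r r' : Gal →* M2 A)
    (hr : IsContMat r) (hr' : IsContMat r') :
    (ofMat r hr).IsEquiv (ofMat r' hr') ↔
      ∃ M N : M2 A, M * N = 1 ∧ N * M = 1 ∧ ∀ σ, M * r σ = r' σ * M :=
  ⟨exists_conj_of_ofMat_isEquiv r r' hr hr', fun ⟨M, N, hMN, hNM, h⟩ =>
    ofMat_isEquiv_of_conj r r' hr hr' M N hMN hNM h⟩

end Fermat.Agent.S53

end
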