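/-
S53 block PointsMap (owner: helper93): functoriality of normalised `𝒟`-lifts.
-/
import Fermat.Agent.S53.PointsBasic
import Fermat.Agent.S53.Mat

set_option autoImplicit false

namespace Fermat.Agent.S53

open IsLocalRing GaloisRep

variable {𝒪 : Type} [CommRing 𝒪] [IsLocalRing 𝒪] {ρbar : ResidualGaloisRep (ResidueField 𝒪)}
  (D : RigidData 𝒪 ρbar)
  {𝒟 : ∀ ⦃A : Type⦄ [CommRing A] [IsLocalRing A] [Algebra 𝒪 A], GaloisRepAdic A → Prop}

/-- Normalised `𝒟`-lifts push forward along maps of Artinian test algebras. -/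
theorem IsNLift.map (h𝒟 : IsDeformationCondition 𝒪 𝒟) {A B : Type} [CommRing A] [IsLocalRing A]
    [Algebra 𝒪 A] [CommRing B] [IsLocalRing B] [Algebra 𝒪 B] (hA : IsArtinianTestAlgebra 𝒪 A)
    (hB : IsArtinianTestAlgebra 𝒪 B) (φ : A →ₐ[𝒪] B) {r : Gal →* M2 A} (h : IsNLift D 𝒟 r) :
    IsNLift D 𝒟 (mapMat (φ : A →+* B) r) :=
  have hφ : IsLocalHom (φ : A →+* B) :=
    isLocalHom_algHom_of_target hB.isLocalHom hB.residue_surjective φ
  ⟨h.cont.map _ hφ, h.lifts.mapMat D φ hφ, h.norm.mapMat D φ,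
    h𝒟.of_isEquiv hB (ofMat_baseChangeAlong_isEquiv (φ : A →+* B) hφ r h.cont)
      (h𝒟.baseChangeAlong hA hB φ hφ h.isD)⟩

/-- Normalised `𝒟`-lifts over a complete Noetherian local ring push forward to Artinian
quotients. -/
theorem IsNLift.map_of_surjective (h𝒟 : IsDeformationCondition 𝒪 𝒟) {A B : Type} [CommRing A]
    [IsLocalRing A] [IsNoetherianRing A] [IsAdicComplete (maximalIdeal A) A] [Algebra 𝒪 A]
    [CommRing B] [IsLocalRing B] [Algebra 𝒪 B] (hloc : IsLocalHom (algebraMap 𝒪 A))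
    (hres : Function.Surjective (residue A ∘ algebraMap 𝒪 A)) (hB : IsArtinianTestAlgebra 𝒪 B)
    (φ : A →ₐ[𝒪] B) (hφ : Function.Surjective φ) {r : Gal →* M2 A} (h : IsNLift D 𝒟 r) :
    IsNLift D 𝒟 (mapMat (φ : A →+* B) r) :=
  have hφl : IsLocalHom (φ : A →+* B) :=
    isLocalHom_algHom_of_target hB.isLocalHom hB.residue_surjective φ
  ⟨h.cont.map _ hφl, h.lifts.mapMat D φ hφl, h.norm.mapMat D φ,
    h𝒟.of_isEquiv hB (ofMat_baseChangeAlong_isEquiv (φ : A →+* B) hφl r h.cont)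
      ((h𝒟.iff_forall_surjective hloc hres (ofMat r h.cont)).mp h.isD hB φ hφl hφ)⟩

/-- Descent of normalised `𝒟`-lifts along injective maps of Artinian test algebras. -/
theorem IsNLift.of_map_injective (h𝒟 : IsDeformationCondition 𝒪 𝒟) {A B : Type} [CommRing A]
    [IsLocalRing A] [Algebra 𝒪 A] [CommRing B] [IsLocalRing B] [Algebra 𝒪 B]
    (hA : IsArtinianTestAlgebra 𝒪 A) (hB : IsArtinianTestAlgebra 𝒪 B) (φ : A →ₐ[𝒪] B)
    (hφ : Function.Injective φ) {r : Gal →* M2 A} (h : IsNLift D 𝒟 (mapMat (φ : A →+* B) r)) :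
    IsNLift D 𝒟 r := by
  have hφl : IsLocalHom (φ : A →+* B) :=
    isLocalHom_algHom_of_target hB.isLocalHom hB.residue_surjective φ
  have := hA.isArtinian
  have := hB.isArtinian
  have hnA : IsNilpotent (maximalIdeal A) :=
    (isArtinianRing_iff_isNilpotent_maximalIdeal A).mp inferInstance
  have hnB : IsNilpotent (maximalIdeal B) :=
    (isArtinianRing_iff_isNilpotent_maximalIdeal B).mp inferInstance
  have hc : IsContMat r := isContMat_of_mapMat_injective hnA hnB (φ : A →+* B) hφ r h.cont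
  refine ⟨hc, liftsC_of_mapMat D φ hφl r h.lifts, normalized_of_mapMat_injective D φ hφ r h.norm,
    h𝒟.of_baseChangeAlong_injective hA hB φ hφl hφ ?_⟩
  obtain ⟨e⟩ := ofMat_baseChangeAlong_isEquiv (φ : A →+* B) hφl r hc
  exact h𝒟.of_isEquiv hB ⟨e.symm⟩ h.isD

end Fermat.Agent.S53
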