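/-
S53 block PointsSub (owner: helper56): every normalised lift comes from a point.
-/
import Fermat.Agent.S53.PointsMap

set_option autoImplicit false

namespace Fermat.Agent.S53

open IsLocalRing GaloisRep

variable {𝒪 : Type} [CommRing 𝒪] [IsLocalRing 𝒪] {ρbar : ResidualGaloisRep (ResidueField 𝒪)}
  (D : RigidData 𝒪 ρbar)
  {𝒟 : ∀ ⦃A : Type⦄ [CommRing A] [IsLocalRing A] [Algebra 𝒪 A], GaloisRepAdic A → Prop}

/-- Every normalised `𝒟`-lift over an Artinian test algebra comes from a point (the subalgebra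
generated by its matrix entries). -/
theorem exists_pt_of_isNLift [IsNoetherianRing 𝒪] (h𝒟 : IsDeformationCondition 𝒪 𝒟) {B : Type}
    [CommRing B] [IsLocalRing B] [Algebra 𝒪 B] (hB : IsArtinianTestAlgebra 𝒪 B)
    {r : Gal →* M2 B} (h : IsNLift D 𝒟 r) :
    ∃ (x : Pt D 𝒟) (ι : x.A →ₐ[𝒪] B), Function.Injective ι ∧
      mapMat (ι : x.A →+* B) x.r = r := by
  classical
  -- the subalgebra generated by the matrix entries of `r`
  let S : Subalgebra 𝒪 B := (ev (𝒪 := 𝒪) r).range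
  have hmem : ∀ σ i j, r σ i j ∈ S := fun σ i j =>
    ⟨MvPolynomial.X (σ, i, j), ev_X r σ i j⟩
  obtain ⟨hloc, htest, -⟩ := subalgebra_isArtinianTestAlgebra hB S
  have : IsLocalRing ↥S := hloc
  obtain ⟨r', hr'⟩ := exists_corestrict S r hmem
  have hinj : Function.Injective (S.val : ↥S →ₐ[𝒪] B) := Subtype.val_injective
  have hnl : IsNLift D 𝒟 r' :=
    IsNLift.of_map_injective D h𝒟 htest hB S.val hinj (by
      have : mapMat ((S.val : ↥S →ₐ[𝒪] B) : ↥S →+* B) r' = r := hr'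
      rw [this]
      exact h)
  have hgen : Function.Surjective (ev (𝒪 := 𝒪) r') := by
    rintro ⟨s, p, hp⟩
    refine ⟨p, hinj ?_⟩
    have h1 : (S.val : ↥S →ₐ[𝒪] B).comp (ev (𝒪 := 𝒪) r') = ev (𝒪 := 𝒪) r := by
      rw [ev_map]
      have : mapMat ((S.val : ↥S →ₐ[𝒪] B) : ↥S →+* B) r' = r := hr'
      rw [this]
    have h2 := congrArg (fun f : Pol 𝒪 →ₐ[𝒪] B => f p) h1
    simp only [AlgHom.comp_apply] at h2
    rw [h2]
    exact hp
  exact ⟨{ A := ↥S, test := htest, r := r', nlift := hnl, gen := hgen }, S.val, hinj, hr'⟩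

end Fermat.Agent.S53
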