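/-
S53: umbrella file for the Points blocks (owner: helper53).
-/
import Fermat.Agent.S53.PointsBasic
import Fermat.Agent.S53.PointsMap
import Fermat.Agent.S53.PointsSub
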