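import Mathlib
import Fermat.Prelude.Def_GaloisRep_DeformationCondition

/-!
# Goursat quotient of two surjections (helper lemmas for S53)

Given surjective `𝒪`-algebra maps `p₁ : S → A₁`, `p₂ : S → A₂`, the ring
`C = S ⧸ (ker p₁ ⊔ ker p₂)` receives surjections `f : A₁ → C`, `g : A₂ → C` with
`f ∘ p₁ = g ∘ p₂`, and `S → A₁ ×_C A₂` is surjective.  This is the shape required by
`GaloisRep.IsDeformationCondition.of_fibreProduct`.
-/

set_option autoImplicit false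

namespace Fermat.Agent.S53

open IsLocalRing

section Goursat

variable {𝒪 : Type} [CommRing 𝒪]
variable {S A₁ A₂ : Type} [CommRing S] [CommRing A₁] [CommRing A₂]
  [Algebra 𝒪 S] [Algebra 𝒪 A₁] [Algebra 𝒪 A₂]

/-- The sum of the two kernels. -/
def goursatIdeal (p₁ : S →ₐ[𝒪] A₁) (p₂ : S →ₐ[𝒪] A₂) : Ideal S :=
  RingHom.ker p₁.toRingHom ⊔ RingHom.ker p₂.toRingHom

/-- The Goursat quotient `S ⧸ (ker p₁ ⊔ ker p₂)`. -/
abbrev GoursatQuot (p₁ : S →ₐ[𝒪] A₁) (p₂ : S →ₐ[𝒪] A₂) : Type :=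
  S ⧸ goursatIdeal p₁ p₂

/-- The quotient map `S → C`. -/
def goursatMk (p₁ : S →ₐ[𝒪] A₁) (p₂ : S →ₐ[𝒪] A₂) : S →ₐ[𝒪] GoursatQuot p₁ p₂ :=
  Ideal.Quotient.mkₐ 𝒪 (goursatIdeal p₁ p₂)

theorem goursatMk_surjective (p₁ : S →ₐ[𝒪] A₁) (p₂ : S →ₐ[𝒪] A₂) :
    Function.Surjective (goursatMk p₁ p₂) :=
  Ideal.Quotient.mkₐ_surjective 𝒪 _

theorem goursatMk_eq_iff (p₁ : S →ₐ[𝒪] A₁) (p₂ : S →ₐ[𝒪] A₂) (s t : S) :
    goursatMk p₁ p₂ s = goursatMk p₁ p₂ t ↔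
      ∃ u ∈ RingHom.ker p₁.toRingHom, ∃ v ∈ RingHom.ker p₂.toRingHom, u + v = s - t := by
  show Ideal.Quotient.mk (goursatIdeal p₁ p₂) s = Ideal.Quotient.mk (goursatIdeal p₁ p₂) t ↔ _
  rw [Ideal.Quotient.eq, goursatIdeal, Submodule.mem_sup]

theorem ker_le_ker_goursatMk_left (p₁ : S →ₐ[𝒪] A₁) (p₂ : S →ₐ[𝒪] A₂) :
    RingHom.ker p₁.toRingHom ≤ RingHom.ker (goursatMk p₁ p₂).toRingHom := by
  intro x hx
  show Ideal.Quotient.mk (goursatIdeal p₁ p₂) x = 0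
  exact Ideal.Quotient.eq_zero_iff_mem.mpr (Ideal.mem_sup_left hx)

theorem ker_le_ker_goursatMk_right (p₁ : S →ₐ[𝒪] A₁) (p₂ : S →ₐ[𝒪] A₂) :
    RingHom.ker p₂.toRingHom ≤ RingHom.ker (goursatMk p₁ p₂).toRingHom := by
  intro x hx
  show Ideal.Quotient.mk (goursatIdeal p₁ p₂) x = 0
  exact Ideal.Quotient.eq_zero_iff_mem.mpr (Ideal.mem_sup_right hx)

/-- The map `f : A₁ → C`. -/
noncomputable def goursatLeft (p₁ : S →ₐ[𝒪] A₁) (p₂ : S →ₐ[𝒪] A₂)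
    (h₁ : Function.Surjective p₁) : A₁ →ₐ[𝒪] GoursatQuot p₁ p₂ :=
  p₁.liftOfSurjective h₁ (goursatMk p₁ p₂) (ker_le_ker_goursatMk_left p₁ p₂)

/-- The map `g : A₂ → C`. -/
noncomputable def goursatRight (p₁ : S →ₐ[𝒪] A₁) (p₂ : S →ₐ[𝒪] A₂)
    (h₂ : Function.Surjective p₂) : A₂ →ₐ[𝒪] GoursatQuot p₁ p₂ :=
  p₂.liftOfSurjective h₂ (goursatMk p₁ p₂) (ker_le_ker_goursatMk_right p₁ p₂)

@[simp]
theorem goursatLeft_apply (p₁ : S →ₐ[𝒪] A₁) (p₂ : S →ₐ[𝒪] A₂)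
    (h₁ : Function.Surjective p₁) (s : S) :
    goursatLeft p₁ p₂ h₁ (p₁ s) = goursatMk p₁ p₂ s :=
  AlgHom.liftOfSurjective_apply _ _ _ _ _

@[simp]
theorem goursatRight_apply (p₁ : S →ₐ[𝒪] A₁) (p₂ : S →ₐ[𝒪] A₂)
    (h₂ : Function.Surjective p₂) (s : S) :
    goursatRight p₁ p₂ h₂ (p₂ s) = goursatMk p₁ p₂ s :=
  AlgHom.liftOfSurjective_apply _ _ _ _ _

theorem goursatLeft_comp (p₁ : S →ₐ[𝒪] A₁) (p₂ : S →ₐ[𝒪] A₂)
    (h₁ : Function.Surjective p₁) :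
    (goursatLeft p₁ p₂ h₁).comp p₁ = goursatMk p₁ p₂ :=
  AlgHom.liftOfSurjective_comp _ _ _ _

theorem goursatRight_comp (p₁ : S →ₐ[𝒪] A₁) (p₂ : S →ₐ[𝒪] A₂)
    (h₂ : Function.Surjective p₂) :
    (goursatRight p₁ p₂ h₂).comp p₂ = goursatMk p₁ p₂ :=
  AlgHom.liftOfSurjective_comp _ _ _ _

/-- The compatibility `f ∘ p₁ = g ∘ p₂`. -/
theorem goursat_comm (p₁ : S →ₐ[𝒪] A₁) (p₂ : S →ₐ[𝒪] A₂)
    (h₁ : Function.Surjective p₁) (h₂ : Function.Surjective p₂) :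
    (goursatLeft p₁ p₂ h₁).comp p₁ = (goursatRight p₁ p₂ h₂).comp p₂ := by
  rw [goursatLeft_comp, goursatRight_comp]

theorem goursatLeft_surjective (p₁ : S →ₐ[𝒪] A₁) (p₂ : S →ₐ[𝒪] A₂)
    (h₁ : Function.Surjective p₁) : Function.Surjective (goursatLeft p₁ p₂ h₁) := by
  intro c
  obtain ⟨s, rfl⟩ := goursatMk_surjective p₁ p₂ c
  exact ⟨p₁ s, goursatLeft_apply p₁ p₂ h₁ s⟩

theorem goursatRight_surjective (p₁ : S →ₐ[𝒪] A₁) (p₂ : S →ₐ[𝒪] A₂)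
    (h₂ : Function.Surjective p₂) : Function.Surjective (goursatRight p₁ p₂ h₂) := by
  intro c
  obtain ⟨s, rfl⟩ := goursatMk_surjective p₁ p₂ c
  exact ⟨p₂ s, goursatRight_apply p₁ p₂ h₂ s⟩

/-- Goursat's lemma: `S` surjects onto the fibre product `A₁ ×_C A₂`. -/
theorem goursat_exists (p₁ : S →ₐ[𝒪] A₁) (p₂ : S →ₐ[𝒪] A₂)
    (h₁ : Function.Surjective p₁) (h₂ : Function.Surjective p₂) (a : A₁) (b : A₂)
    (hab : goursatLeft p₁ p₂ h₁ a = goursatRight p₁ p₂ h₂ b) :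
    ∃ x : S, p₁ x = a ∧ p₂ x = b := by
  obtain ⟨s, rfl⟩ := h₁ a
  obtain ⟨t, rfl⟩ := h₂ b
  rw [goursatLeft_apply, goursatRight_apply, goursatMk_eq_iff] at hab
  obtain ⟨u, hu, v, hv, huv⟩ := hab
  have hu' : p₁ u = 0 := hu
  have hv' : p₂ v = 0 := hv
  refine ⟨s - u, ?_, ?_⟩
  · rw [map_sub, hu', sub_zero]
  · have : s - u = t + v := by linear_combination (-1 : S) * huv
    rw [this, map_add, hv', add_zero]

/-- The Goursat ideal is contained in the maximal ideal when the targets are nontrivial. -/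
theorem goursatIdeal_le_maximalIdeal [IsLocalRing S] [Nontrivial A₁] [Nontrivial A₂]
    (p₁ : S →ₐ[𝒪] A₁) (p₂ : S →ₐ[𝒪] A₂) :
    goursatIdeal p₁ p₂ ≤ maximalIdeal S :=
  sup_le (le_maximalIdeal (RingHom.ker_ne_top _)) (le_maximalIdeal (RingHom.ker_ne_top _))

theorem goursatQuot_nontrivial [IsLocalRing S] [Nontrivial A₁] [Nontrivial A₂]
    (p₁ : S →ₐ[𝒪] A₁) (p₂ : S →ₐ[𝒪] A₂) : Nontrivial (GoursatQuot p₁ p₂) :=
  Ideal.Quotient.nontrivial_iff.mpr fun h =>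
    (maximalIdeal.isMaximal S).ne_top (top_le_iff.mp (h ▸ goursatIdeal_le_maximalIdeal p₁ p₂))

/-- The Goursat quotient of a local ring is local (when the targets are nontrivial). -/
theorem goursatQuot_isLocalRing [IsLocalRing S] [Nontrivial A₁] [Nontrivial A₂]
    (p₁ : S →ₐ[𝒪] A₁) (p₂ : S →ₐ[𝒪] A₂) : IsLocalRing (GoursatQuot p₁ p₂) :=
  haveI := goursatQuot_nontrivial p₁ p₂
  IsLocalRing.of_surjective' (goursatMk p₁ p₂).toRingHom (goursatMk_surjective p₁ p₂)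

/-- The quotient map to the Goursat quotient reflects units. -/
theorem isUnit_of_isUnit_goursatMk [IsLocalRing S] [Nontrivial A₁] [Nontrivial A₂]
    (p₁ : S →ₐ[𝒪] A₁) (p₂ : S →ₐ[𝒪] A₂) (s : S) (hs : IsUnit (goursatMk p₁ p₂ s)) :
    IsUnit s := by
  by_contra hns
  obtain ⟨c, hc⟩ := hs.exists_right_inv
  obtain ⟨t, rfl⟩ := goursatMk_surjective p₁ p₂ c
  have h1 : goursatMk p₁ p₂ (s * t) = goursatMk p₁ p₂ 1 := by
    rw [map_mul, hc, map_one]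
  have h2 : s * t - 1 ∈ goursatIdeal p₁ p₂ := Ideal.Quotient.eq.mp h1
  have h3 : s * t - 1 ∈ maximalIdeal S := goursatIdeal_le_maximalIdeal p₁ p₂ h2
  have h4 : s * t ∈ maximalIdeal S :=
    Ideal.mul_mem_right t _ ((IsLocalRing.mem_maximalIdeal s).mpr hns)
  have h5 : (1 : S) ∈ maximalIdeal S := by
    have h6 : s * t - (s * t - 1) = 1 := by ring
    exact h6 ▸ Ideal.sub_mem _ h4 h3
  exact (maximalIdeal.isMaximal S).ne_top ((Ideal.eq_top_iff_one _).mpr h5)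

/-- Packaged statement: the Goursat quotient of an Artinian test algebra is an Artinian test
algebra, and the quotient map is a local homomorphism. -/
theorem goursatQuot_isArtinianTestAlgebra [IsLocalRing S] [Nontrivial A₁] [Nontrivial A₂]
    (hS : GaloisRep.IsArtinianTestAlgebra 𝒪 S)
    (p₁ : S →ₐ[𝒪] A₁) (p₂ : S →ₐ[𝒪] A₂) :
    ∃ _ : IsLocalRing (GoursatQuot p₁ p₂),
      GaloisRep.IsArtinianTestAlgebra 𝒪 (GoursatQuot p₁ p₂) ∧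
        IsLocalHom ((goursatMk p₁ p₂ : S →ₐ[𝒪] GoursatQuot p₁ p₂) : S →+* GoursatQuot p₁ p₂) := by
  have hloc : IsLocalRing (GoursatQuot p₁ p₂) := goursatQuot_isLocalRing p₁ p₂
  have hmk : IsLocalHom ((goursatMk p₁ p₂ : S →ₐ[𝒪] GoursatQuot p₁ p₂) :
      S →+* GoursatQuot p₁ p₂) :=
    ⟨fun s hs => isUnit_of_isUnit_goursatMk p₁ p₂ s hs⟩
  refine ⟨hloc, ⟨?_, ?_, ?_⟩, hmk⟩
  · -- the structure map is local
    refine ⟨fun c hc => ?_⟩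
    have := hS.isLocalHom
    have h1 : IsUnit (goursatMk p₁ p₂ (algebraMap 𝒪 S c)) := by
      rw [AlgHom.commutes]; exact hc
    exact isUnit_of_map_unit (algebraMap 𝒪 S) c (isUnit_of_isUnit_goursatMk p₁ p₂ _ h1)
  · -- residue field is hit by `𝒪`
    intro z
    obtain ⟨y, rfl⟩ := IsLocalRing.residue_surjective z
    obtain ⟨s, rfl⟩ := goursatMk_surjective p₁ p₂ y
    obtain ⟨c, hc⟩ := hS.residue_surjective (IsLocalRing.residue S s)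
    refine ⟨c, ?_⟩
    have h1 : algebraMap 𝒪 S c - s ∈ maximalIdeal S := by
      rw [← IsLocalRing.residue_eq_zero_iff, map_sub, sub_eq_zero]
      exact hc
    have h2 : goursatMk p₁ p₂ (algebraMap 𝒪 S c - s) ∈ maximalIdeal (GoursatQuot p₁ p₂) := by
      rw [IsLocalRing.mem_maximalIdeal, mem_nonunits_iff]
      intro hu
      exact (IsLocalRing.mem_maximalIdeal _).mp h1 (isUnit_of_isUnit_goursatMk p₁ p₂ _ hu)
    rw [map_sub, AlgHom.commutes, ← IsLocalRing.residue_eq_zero_iff, map_sub, sub_eq_zero] at h2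
    exact h2
  · -- Artinian
    have := hS.isArtinian
    exact (goursatMk_surjective p₁ p₂).isArtinianRing

end Goursat

section DeformationCondition

open GaloisRep

variable {𝒪 : Type} [CommRing 𝒪] [IsLocalRing 𝒪]

omit [IsLocalRing 𝒪] in
/-- A deformation condition can be checked on two jointly injective surjective quotients of an
Artinian test algebra. -/
theorem IsDeformationCondition_of_goursat
    {𝒟 : ∀ ⦃A : Type⦄ [CommRing A] [IsLocalRing A] [Algebra 𝒪 A], GaloisRepAdic A → Prop}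
    (h𝒟 : IsDeformationCondition 𝒪 𝒟)
    {S A₁ A₂ : Type} [CommRing S] [IsLocalRing S] [Algebra 𝒪 S]
    [CommRing A₁] [IsLocalRing A₁] [Algebra 𝒪 A₁] [CommRing A₂] [IsLocalRing A₂] [Algebra 𝒪 A₂]
    (hS : IsArtinianTestAlgebra 𝒪 S) (hA₁ : IsArtinianTestAlgebra 𝒪 A₁)
    (hA₂ : IsArtinianTestAlgebra 𝒪 A₂)
    (p₁ : S →ₐ[𝒪] A₁) (p₂ : S →ₐ[𝒪] A₂)
    (hp₁ : IsLocalHom (p₁ : S →+* A₁)) (hp₂ : IsLocalHom (p₂ : S →+* A₂))
    (h₁ : Function.Surjective p₁) (h₂ : Function.Surjective p₂)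
    (hinj : Function.Injective (fun x => (p₁ x, p₂ x)))
    ⦃ρ : GaloisRepAdic S⦄
    (hρ₁ : 𝒟 (ρ.baseChangeAlong (p₁ : S →+* A₁) hp₁))
    (hρ₂ : 𝒟 (ρ.baseChangeAlong (p₂ : S →+* A₂) hp₂)) : 𝒟 ρ := by
  obtain ⟨hloc, hC, -⟩ := goursatQuot_isArtinianTestAlgebra hS p₁ p₂
  exact h𝒟.of_fibreProduct hA₁ hA₂ hC hS (goursatLeft p₁ p₂ h₁) (goursatRight p₁ p₂ h₂) p₁ p₂
    hp₁ hp₂ (goursat_comm p₁ p₂ h₁ h₂) hinj (goursat_exists p₁ p₂ h₁ h₂) hρ₁ hρ₂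

end DeformationCondition

end Fermat.Agent.S53
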