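import Mathlib
import Fermat.Prelude.Def_GaloisRep_DeformationCondition
import Fermat.Agent.S53.Defs
import Fermat.Agent.S53.TestAlg
import Fermat.Agent.S53.Goursat

/-!
# Joins of Artinian test algebras (helper lemmas for S53)

A subalgebra `S` of a product `A₁ × A₂` of two Artinian test algebras all of whose elements are
"residually diagonal" is again an Artinian test algebra, and both projections are local
homomorphisms.
-/

set_option autoImplicit false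

namespace Fermat.Agent.S53

open IsLocalRing GaloisRep

section ProdSubalgebra

variable {𝒪 : Type} [CommRing 𝒪] [IsLocalRing 𝒪] [IsNoetherianRing 𝒪]
variable {A₁ A₂ : Type} [CommRing A₁] [IsLocalRing A₁] [Algebra 𝒪 A₁]
  [CommRing A₂] [IsLocalRing A₂] [Algebra 𝒪 A₂]

/-- First projection from a subalgebra of a product. -/
def subalgFst (S : Subalgebra 𝒪 (A₁ × A₂)) : ↥S →ₐ[𝒪] A₁ :=
  (AlgHom.fst 𝒪 A₁ A₂).comp S.val

/-- Second projection from a subalgebra of a product. -/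
def subalgSnd (S : Subalgebra 𝒪 (A₁ × A₂)) : ↥S →ₐ[𝒪] A₂ :=
  (AlgHom.snd 𝒪 A₁ A₂).comp S.val

omit [IsLocalRing 𝒪] [IsNoetherianRing 𝒪] [IsLocalRing A₁] [IsLocalRing A₂] in
@[simp] theorem subalgFst_apply (S : Subalgebra 𝒪 (A₁ × A₂)) (x : ↥S) :
    subalgFst S x = (x : A₁ × A₂).1 := rfl

omit [IsLocalRing 𝒪] [IsNoetherianRing 𝒪] [IsLocalRing A₁] [IsLocalRing A₂] in
@[simp] theorem subalgSnd_apply (S : Subalgebra 𝒪 (A₁ × A₂)) (x : ↥S) :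
    subalgSnd S x = (x : A₁ × A₂).2 := rfl

omit [IsLocalRing 𝒪] [IsNoetherianRing 𝒪] [IsLocalRing A₁] [IsLocalRing A₂] in
theorem subalg_fst_snd_injective (S : Subalgebra 𝒪 (A₁ × A₂)) :
    Function.Injective (fun x : ↥S => (subalgFst S x, subalgSnd S x)) := by
  intro x y h
  exact Subtype.ext h

/-- A residually diagonal subalgebra of a product of two Artinian test algebras is an Artinian
test algebra, and the two projections are local homomorphisms. -/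
theorem prod_subalgebra_isArtinianTestAlgebra
    (h₁ : IsArtinianTestAlgebra 𝒪 A₁) (h₂ : IsArtinianTestAlgebra 𝒪 A₂)
    (S : Subalgebra 𝒪 (A₁ × A₂))
    (hS : ∀ x ∈ S, ∃ c : 𝒪, x.1 - algebraMap 𝒪 A₁ c ∈ maximalIdeal A₁ ∧
      x.2 - algebraMap 𝒪 A₂ c ∈ maximalIdeal A₂) :
    ∃ _ : IsLocalRing ↥S, IsArtinianTestAlgebra 𝒪 ↥S ∧
      IsLocalHom ((subalgFst S : ↥S →ₐ[𝒪] A₁) : ↥S →+* A₁) ∧
      IsLocalHom ((subalgSnd S : ↥S →ₐ[𝒪] A₂) : ↥S →+* A₂) := by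
  have hloc₁ := h₁.isLocalHom
  have hloc₂ := h₂.isLocalHom
  -- the candidate maximal ideal
  let 𝔪 : Ideal ↥S :=
    Ideal.comap (S.val : ↥S →+* A₁ × A₂) ((maximalIdeal A₁).prod (maximalIdeal A₂))
  have hmem : ∀ x : ↥S, x ∈ 𝔪 ↔
      (x : A₁ × A₂).1 ∈ maximalIdeal A₁ ∧ (x : A₁ × A₂).2 ∈ maximalIdeal A₂ := by
    intro x
    show (S.val x) ∈ (maximalIdeal A₁).prod (maximalIdeal A₂) ↔ _
    rw [Ideal.mem_prod]
    rfl
  have hnil : ∀ x ∈ 𝔪, IsNilpotent x := by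
    intro x hx
    obtain ⟨hx1, hx2⟩ := (hmem x).mp hx
    obtain ⟨n₁, hn₁⟩ := isNilpotent_of_mem_maximalIdeal_of_isArtinianTestAlgebra h₁ hx1
    obtain ⟨n₂, hn₂⟩ := isNilpotent_of_mem_maximalIdeal_of_isArtinianTestAlgebra h₂ hx2
    refine ⟨n₁ + n₂, Subtype.ext ?_⟩
    apply Prod.ext
    · show ((x : A₁ × A₂) ^ (n₁ + n₂)).1 = 0
      rw [Prod.pow_fst, pow_add, hn₁, zero_mul]
    · show ((x : A₁ × A₂) ^ (n₁ + n₂)).2 = 0
      rw [Prod.pow_snd, pow_add, hn₂, mul_zero]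
  have h1 : (1 : ↥S) ∉ 𝔪 := by
    intro h
    have := ((hmem 1).mp h).1
    exact (maximalIdeal.isMaximal A₁).ne_top ((Ideal.eq_top_iff_one _).mpr this)
  have hres : ∀ b : ↥S, ∃ c : 𝒪, b - algebraMap 𝒪 ↥S c ∈ 𝔪 := by
    intro b
    obtain ⟨c, hc1, hc2⟩ := hS b b.2
    exact ⟨c, (hmem _).mpr ⟨hc1, hc2⟩⟩
  have hmax : ∀ c ∈ maximalIdeal 𝒪, algebraMap 𝒪 ↥S c ∈ 𝔪 := by
    intro c hc
    refine (hmem _).mpr ⟨?_, ?_⟩
    · exact map_nonunit (algebraMap 𝒪 A₁) c hc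
    · exact map_nonunit (algebraMap 𝒪 A₂) c hc
  obtain ⟨hloc, hmaxS, hlocHom, hsurj⟩ := isLocalRing_of_nil_ideal 𝔪 hnil h1 hres hmax
  have hfin₁ : Module.Finite 𝒪 A₁ := finite_of_isArtinianTestAlgebra h₁
  have hfin₂ : Module.Finite 𝒪 A₂ := finite_of_isArtinianTestAlgebra h₂
  have hnoeth : IsNoetherian 𝒪 (A₁ × A₂) := isNoetherian_of_isNoetherianRing_of_finite 𝒪 _
  have hfinS : Module.Finite 𝒪 ↥S :=
    Module.Finite.of_injective (S.val.toLinearMap) Subtype.val_injective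
  have hnoethS : IsNoetherianRing ↥S := IsNoetherianRing.of_finite 𝒪 ↥S
  have hnilm : IsNilpotent (maximalIdeal ↥S) := by
    obtain ⟨n, hn⟩ := IsNoetherianRing.isNilpotent_nilradical ↥S
    refine ⟨n, ?_⟩
    have hle : maximalIdeal ↥S ≤ nilradical ↥S := by
      intro x hx
      rw [hmaxS] at hx
      exact mem_nilradical.mpr (hnil x hx)
    have := Ideal.pow_right_mono hle n
    rw [hn] at this
    exact le_bot_iff.mp this
  have hnilS : ∀ x ∈ maximalIdeal ↥S, IsNilpotent x := by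
    intro x hx
    rw [hmaxS] at hx
    exact hnil x hx
  refine ⟨hloc, isArtinianTestAlgebra_of_finite hlocHom hsurj hnilm, ?_, ?_⟩
  · exact isLocalHom_algHom_of_source hloc₁ hsurj hnilS (subalgFst S)
  · exact isLocalHom_algHom_of_source hloc₂ hsurj hnilS (subalgSnd S)

end ProdSubalgebra

section MapMat

variable {𝒪 : Type} [CommRing 𝒪] [IsLocalRing 𝒪] {ρbar : ResidualGaloisRep (ResidueField 𝒪)}
  (D : RigidData 𝒪 ρbar)
variable {A B : Type} [CommRing A] [IsLocalRing A] [Algebra 𝒪 A]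
  [CommRing B] [IsLocalRing B] [Algebra 𝒪 B]

omit [IsLocalRing A] [IsLocalRing B] in
theorem join_eMat_mapMat (φ : A →ₐ[𝒪] B) (r : Gal →* M2 A) (i j : Fin 2) :
    eMat D (mapMat (φ : A →+* B) r) i j = φ (eMat D r i j) := by
  simp only [eMat, Matrix.sum_apply, Matrix.smul_apply, mapMat_apply, smul_eq_mul, map_sum,
    map_mul, RingHom.coe_coe, AlgHom.commutes]

omit [IsLocalRing A] [IsLocalRing B] in
theorem join_fMat_mapMat (φ : A →ₐ[𝒪] B) (r : Gal →* M2 A) (i j : Fin 2) :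
    fMat D (mapMat (φ : A →+* B) r) i j = φ (fMat D r i j) := by
  simp only [fMat, Matrix.sum_apply, Matrix.smul_apply, mapMat_apply, smul_eq_mul, map_sum,
    map_mul, RingHom.coe_coe, AlgHom.commutes]

end MapMat

section JoinConstruction

variable {𝒪 : Type} [CommRing 𝒪]
variable {A₁ A₂ : Type} [CommRing A₁] [Algebra 𝒪 A₁] [CommRing A₂] [Algebra 𝒪 A₂]

/-- The set of pairs of matrix entries of two matrix representations. -/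
def joinEntries (r₁ : Gal →* M2 A₁) (r₂ : Gal →* M2 A₂) : Set (A₁ × A₂) :=
  Set.range fun t : Gal × Fin 2 × Fin 2 => (r₁ t.1 t.2.1 t.2.2, r₂ t.1 t.2.1 t.2.2)

/-- The subalgebra of `A₁ × A₂` generated by the pairs of matrix entries. -/
def joinAlg (𝒪 : Type) [CommRing 𝒪] {A₁ A₂ : Type} [CommRing A₁] [Algebra 𝒪 A₁] [CommRing A₂]
    [Algebra 𝒪 A₂] (r₁ : Gal →* M2 A₁) (r₂ : Gal →* M2 A₂) : Subalgebra 𝒪 (A₁ × A₂) :=
  Algebra.adjoin 𝒪 (joinEntries r₁ r₂)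

theorem joinEntry_mem (r₁ : Gal →* M2 A₁) (r₂ : Gal →* M2 A₂) (σ : Gal) (i j : Fin 2) :
    (r₁ σ i j, r₂ σ i j) ∈ joinAlg 𝒪 r₁ r₂ :=
  Algebra.subset_adjoin ⟨(σ, i, j), rfl⟩

/-- The joined matrix representation with values in the join algebra. -/
noncomputable def joinMat (𝒪 : Type) [CommRing 𝒪] {A₁ A₂ : Type} [CommRing A₁] [Algebra 𝒪 A₁]
    [CommRing A₂] [Algebra 𝒪 A₂] (r₁ : Gal →* M2 A₁) (r₂ : Gal →* M2 A₂) :
    Gal →* M2 ↥(joinAlg 𝒪 r₁ r₂) where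
  toFun σ := Matrix.of fun i j => ⟨(r₁ σ i j, r₂ σ i j), joinEntry_mem r₁ r₂ σ i j⟩
  map_one' := by
    refine Matrix.ext fun i j => Subtype.ext ?_
    by_cases hij : i = j
    · subst hij
      simp
    · simp [Matrix.one_apply_ne hij]
  map_mul' σ τ := by
    refine Matrix.ext fun i j => Subtype.ext ?_
    simp only [map_mul, Matrix.of_apply, Matrix.mul_apply, Fin.sum_univ_two]
    rfl

@[simp] theorem joinMat_apply_coe (r₁ : Gal →* M2 A₁) (r₂ : Gal →* M2 A₂) (σ : Gal)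
    (i j : Fin 2) :
    ((joinMat 𝒪 r₁ r₂ σ i j : ↥(joinAlg 𝒪 r₁ r₂)) : A₁ × A₂) = (r₁ σ i j, r₂ σ i j) := rfl

theorem mapMat_subalgFst_joinMat (r₁ : Gal →* M2 A₁) (r₂ : Gal →* M2 A₂) :
    mapMat ((subalgFst (joinAlg 𝒪 r₁ r₂) : ↥(joinAlg 𝒪 r₁ r₂) →ₐ[𝒪] A₁) :
      ↥(joinAlg 𝒪 r₁ r₂) →+* A₁) (joinMat 𝒪 r₁ r₂) = r₁ := by
  ext σ i j
  rfl

theorem mapMat_subalgSnd_joinMat (r₁ : Gal →* M2 A₁) (r₂ : Gal →* M2 A₂) :
    mapMat ((subalgSnd (joinAlg 𝒪 r₁ r₂) : ↥(joinAlg 𝒪 r₁ r₂) →ₐ[𝒪] A₂) :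
      ↥(joinAlg 𝒪 r₁ r₂) →+* A₂) (joinMat 𝒪 r₁ r₂) = r₂ := by
  ext σ i j
  rfl

/-- The entries of the joined representation generate the join algebra. -/
theorem adjoin_joinMat_eq_top (r₁ : Gal →* M2 A₁) (r₂ : Gal →* M2 A₂) :
    Algebra.adjoin 𝒪 (Set.range fun t : Gal × Fin 2 × Fin 2 =>
      joinMat 𝒪 r₁ r₂ t.1 t.2.1 t.2.2) = ⊤ := by
  apply Subalgebra.map_injective (f := (joinAlg 𝒪 r₁ r₂).val) Subtype.val_injective
  rw [AlgHom.map_adjoin, Algebra.map_top, Subalgebra.range_val, ← Set.range_comp]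
  rfl

/-- If the entries of `r₁` generate `A₁`, the first projection of the join is surjective. -/
theorem subalgFst_joinAlg_surjective (r₁ : Gal →* M2 A₁) (r₂ : Gal →* M2 A₂)
    (hgen : Algebra.adjoin 𝒪 (Set.range fun t : Gal × Fin 2 × Fin 2 => r₁ t.1 t.2.1 t.2.2) = ⊤) :
    Function.Surjective (subalgFst (joinAlg 𝒪 r₁ r₂)) := by
  rw [← AlgHom.range_eq_top, eq_top_iff, ← hgen]
  apply Algebra.adjoin_le
  rintro _ ⟨t, rfl⟩
  exact ⟨joinMat 𝒪 r₁ r₂ t.1 t.2.1 t.2.2, rfl⟩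

/-- If the entries of `r₂` generate `A₂`, the second projection of the join is surjective. -/
theorem subalgSnd_joinAlg_surjective (r₁ : Gal →* M2 A₁) (r₂ : Gal →* M2 A₂)
    (hgen : Algebra.adjoin 𝒪 (Set.range fun t : Gal × Fin 2 × Fin 2 => r₂ t.1 t.2.1 t.2.2) = ⊤) :
    Function.Surjective (subalgSnd (joinAlg 𝒪 r₁ r₂)) := by
  rw [← AlgHom.range_eq_top, eq_top_iff, ← hgen]
  apply Algebra.adjoin_le
  rintro _ ⟨t, rfl⟩
  exact ⟨joinMat 𝒪 r₁ r₂ t.1 t.2.1 t.2.2, rfl⟩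

end JoinConstruction

section JoinProperties

variable {𝒪 : Type} [CommRing 𝒪] [IsLocalRing 𝒪] {ρbar : ResidualGaloisRep (ResidueField 𝒪)}
  (D : RigidData 𝒪 ρbar)
variable {A₁ A₂ : Type} [CommRing A₁] [IsLocalRing A₁] [Algebra 𝒪 A₁]
  [CommRing A₂] [IsLocalRing A₂] [Algebra 𝒪 A₂]

/-- Every element of the join algebra of two lifts of `ρbar` is residually diagonal. -/
theorem joinAlg_residually_diagonal (r₁ : Gal →* M2 A₁) (r₂ : Gal →* M2 A₂)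
    (hl₁ : LiftsC D r₁) (hl₂ : LiftsC D r₂) :
    ∀ x ∈ joinAlg 𝒪 r₁ r₂, ∃ c : 𝒪, x.1 - algebraMap 𝒪 A₁ c ∈ maximalIdeal A₁ ∧
      x.2 - algebraMap 𝒪 A₂ c ∈ maximalIdeal A₂ := by
  intro x hx
  induction hx using Algebra.adjoin_induction with
  | mem x hx =>
    obtain ⟨t, rfl⟩ := hx
    exact ⟨D.c t.1 t.2.1 t.2.2, hl₁ _ _ _, hl₂ _ _ _⟩
  | algebraMap c =>
    refine ⟨c, ?_, ?_⟩
    · rw [Prod.algebraMap_apply]; simp
    · rw [Prod.algebraMap_apply]; simp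
  | add x y _ _ hx hy =>
    obtain ⟨c, hc1, hc2⟩ := hx
    obtain ⟨c', hc1', hc2'⟩ := hy
    refine ⟨c + c', ?_, ?_⟩
    · have : (x + y).1 - algebraMap 𝒪 A₁ (c + c') =
          (x.1 - algebraMap 𝒪 A₁ c) + (y.1 - algebraMap 𝒪 A₁ c') := by
        rw [Prod.fst_add, map_add]; ring
      rw [this]
      exact Ideal.add_mem _ hc1 hc1'
    · have : (x + y).2 - algebraMap 𝒪 A₂ (c + c') =
          (x.2 - algebraMap 𝒪 A₂ c) + (y.2 - algebraMap 𝒪 A₂ c') := by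
        rw [Prod.snd_add, map_add]; ring
      rw [this]
      exact Ideal.add_mem _ hc2 hc2'
  | mul x y _ _ hx hy =>
    obtain ⟨c, hc1, hc2⟩ := hx
    obtain ⟨c', hc1', hc2'⟩ := hy
    refine ⟨c * c', ?_, ?_⟩
    · have : (x * y).1 - algebraMap 𝒪 A₁ (c * c') =
          (x.1 - algebraMap 𝒪 A₁ c) * y.1 + algebraMap 𝒪 A₁ c * (y.1 - algebraMap 𝒪 A₁ c') := by
        rw [Prod.fst_mul, map_mul]; ring
      rw [this]
      exact Ideal.add_mem _ (Ideal.mul_mem_right _ _ hc1) (Ideal.mul_mem_left _ _ hc1')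
    · have : (x * y).2 - algebraMap 𝒪 A₂ (c * c') =
          (x.2 - algebraMap 𝒪 A₂ c) * y.2 + algebraMap 𝒪 A₂ c * (y.2 - algebraMap 𝒪 A₂ c') := by
        rw [Prod.snd_mul, map_mul]; ring
      rw [this]
      exact Ideal.add_mem _ (Ideal.mul_mem_right _ _ hc2) (Ideal.mul_mem_left _ _ hc2')

omit [IsLocalRing A₂] in
/-- The joined representation lifts `ρbar` (for any local ring structure on the join). -/
theorem joinMat_liftsC (r₁ : Gal →* M2 A₁) (r₂ : Gal →* M2 A₂)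
    [IsLocalRing ↥(joinAlg 𝒪 r₁ r₂)] (hl₁ : LiftsC D r₁) :
    LiftsC D (joinMat 𝒪 r₁ r₂) := by
  intro σ i j
  by_contra hx
  have hu : IsUnit (joinMat 𝒪 r₁ r₂ σ i j - algebraMap 𝒪 ↥(joinAlg 𝒪 r₁ r₂) (D.c σ i j)) :=
    IsLocalRing.notMem_maximalIdeal.mp hx
  have hu' := hu.map (subalgFst (joinAlg 𝒪 r₁ r₂))
  have h1 : subalgFst (joinAlg 𝒪 r₁ r₂)
      (joinMat 𝒪 r₁ r₂ σ i j - algebraMap 𝒪 ↥(joinAlg 𝒪 r₁ r₂) (D.c σ i j)) =
      r₁ σ i j - algebraMap 𝒪 A₁ (D.c σ i j) := by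
    rw [map_sub, AlgHom.commutes]
    rfl
  rw [h1] at hu'
  exact (IsLocalRing.notMem_maximalIdeal.mpr hu') (hl₁ σ i j)

omit [IsLocalRing A₁] [IsLocalRing A₂] in
/-- The joined representation of two normalised lifts is normalised. -/
theorem joinMat_normalized (r₁ : Gal →* M2 A₁) (r₂ : Gal →* M2 A₂)
    (hn₁ : Normalized D r₁) (hn₂ : Normalized D r₂) :
    Normalized D (joinMat 𝒪 r₁ r₂) := by
  have he : ∀ i j, ((eMat D (joinMat 𝒪 r₁ r₂) i j : ↥(joinAlg 𝒪 r₁ r₂)) : A₁ × A₂) =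
      (eMat D r₁ i j, eMat D r₂ i j) := by
    intro i j
    apply Prod.ext
    · have := join_eMat_mapMat D (subalgFst (joinAlg 𝒪 r₁ r₂)) (joinMat 𝒪 r₁ r₂) i j
      rw [mapMat_subalgFst_joinMat] at this
      exact this.symm
    · have := join_eMat_mapMat D (subalgSnd (joinAlg 𝒪 r₁ r₂)) (joinMat 𝒪 r₁ r₂) i j
      rw [mapMat_subalgSnd_joinMat] at this
      exact this.symm
  have hf : ∀ i j, ((fMat D (joinMat 𝒪 r₁ r₂) i j : ↥(joinAlg 𝒪 r₁ r₂)) : A₁ × A₂) =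
      (fMat D r₁ i j, fMat D r₂ i j) := by
    intro i j
    apply Prod.ext
    · have := join_fMat_mapMat D (subalgFst (joinAlg 𝒪 r₁ r₂)) (joinMat 𝒪 r₁ r₂) i j
      rw [mapMat_subalgFst_joinMat] at this
      exact this.symm
    · have := join_fMat_mapMat D (subalgSnd (joinAlg 𝒪 r₁ r₂)) (joinMat 𝒪 r₁ r₂) i j
      rw [mapMat_subalgSnd_joinMat] at this
      exact this.symm
  obtain ⟨h1, h2, h3⟩ := hn₁
  obtain ⟨h1', h2', h3'⟩ := hn₂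
  refine ⟨Subtype.ext ?_, Subtype.ext ?_, Subtype.ext ?_⟩
  · rw [he, h1, h1']; rfl
  · rw [hf, h2, h2']; rfl
  · rw [hf, h3, h3']; rfl

omit [IsLocalRing 𝒪] in
/-- The joined representation of two continuous lifts over Artinian test algebras is
continuous (it even factors through a finite level). -/
theorem joinMat_isContMat (h₁ : IsArtinianTestAlgebra 𝒪 A₁) (h₂ : IsArtinianTestAlgebra 𝒪 A₂)
    (r₁ : Gal →* M2 A₁) (r₂ : Gal →* M2 A₂)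
    [IsLocalRing ↥(joinAlg 𝒪 r₁ r₂)] (hr₁ : IsContMat r₁) (hr₂ : IsContMat r₂) :
    IsContMat (joinMat 𝒪 r₁ r₂) := by
  obtain ⟨n₁, hn₁⟩ := isNilpotent_maximalIdeal_of_isArtinianTestAlgebra h₁
  obtain ⟨n₂, hn₂⟩ := isNilpotent_maximalIdeal_of_isArtinianTestAlgebra h₂
  obtain ⟨L₁, hL₁, hσ₁⟩ := hr₁ n₁
  obtain ⟨L₂, hL₂, hσ₂⟩ := hr₂ n₂
  intro n
  refine ⟨L₁ ⊔ L₂, IntermediateField.finiteDimensional_sup L₁ L₂, fun σ hσ i j => ?_⟩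
  have e1 : ∀ i j, (r₁ σ - 1) i j = 0 := by
    intro i j
    have := hσ₁ σ (fun x hx => hσ x ((le_sup_left : L₁ ≤ L₁ ⊔ L₂) hx)) i j
    rwa [hn₁, Ideal.zero_eq_bot, Ideal.mem_bot] at this
  have e2 : ∀ i j, (r₂ σ - 1) i j = 0 := by
    intro i j
    have := hσ₂ σ (fun x hx => hσ x ((le_sup_right : L₂ ≤ L₁ ⊔ L₂) hx)) i j
    rwa [hn₂, Ideal.zero_eq_bot, Ideal.mem_bot] at this
  have h0 : (joinMat 𝒪 r₁ r₂ σ - 1) i j = 0 := by
    have e1' := e1 i j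
    have e2' := e2 i j
    rw [Matrix.sub_apply, sub_eq_zero] at e1' e2'
    rw [Matrix.sub_apply, sub_eq_zero]
    apply Subtype.ext
    rw [joinMat_apply_coe, e1', e2']
    by_cases hij : i = j
    · subst hij; simp
    · simp [Matrix.one_apply_ne hij]
  rw [h0]
  exact Ideal.zero_mem _

end JoinProperties

section JoinMain

variable {𝒪 : Type} [CommRing 𝒪] [IsLocalRing 𝒪] [IsNoetherianRing 𝒪]
  {ρbar : ResidualGaloisRep (ResidueField 𝒪)} (D : RigidData 𝒪 ρbar)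
variable {A₁ A₂ : Type} [CommRing A₁] [IsLocalRing A₁] [Algebra 𝒪 A₁]
  [CommRing A₂] [IsLocalRing A₂] [Algebra 𝒪 A₂]

/-- **Join of two points.**  Given two normalised `𝒟`-lifts `r₁`, `r₂` of `ρbar` over Artinian
test algebras `A₁`, `A₂` whose entries generate `A₁`, resp. `A₂`, the subalgebra
`joinAlg 𝒪 r₁ r₂ ⊆ A₁ × A₂` generated by the pairs of entries is an Artinian test algebra, the
joined representation `joinMat 𝒪 r₁ r₂` is a normalised `𝒟`-lift whose entries generate, and the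
two projections are surjective local homomorphisms carrying it to `r₁` and `r₂`.

The hypothesis `hC2` is the compatibility of `ofMat` with base change. -/
theorem exists_join_of_baseChange
    {𝒟 : ∀ ⦃A : Type⦄ [CommRing A] [IsLocalRing A] [Algebra 𝒪 A], GaloisRepAdic A → Prop}
    (h𝒟 : IsDeformationCondition 𝒪 𝒟)
    (hC2 : ∀ {A B : Type} [CommRing A] [IsLocalRing A] [CommRing B] [IsLocalRing B]
      (φ : A →+* B) (hφ : IsLocalHom φ) (r : Gal →* M2 A) (hr : IsContMat r),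
      ((ofMat r hr).baseChangeAlong φ hφ).IsEquiv (ofMat (mapMat φ r) (hr.map φ hφ)))
    (h₁ : IsArtinianTestAlgebra 𝒪 A₁) (h₂ : IsArtinianTestAlgebra 𝒪 A₂)
    (r₁ : Gal →* M2 A₁) (r₂ : Gal →* M2 A₂) (hr₁ : IsContMat r₁) (hr₂ : IsContMat r₂)
    (hl₁ : LiftsC D r₁) (hl₂ : LiftsC D r₂) (hn₁ : Normalized D r₁) (hn₂ : Normalized D r₂)
    (hd₁ : 𝒟 (ofMat r₁ hr₁)) (hd₂ : 𝒟 (ofMat r₂ hr₂))
    (hg₁ : Algebra.adjoin 𝒪 (Set.range fun t : Gal × Fin 2 × Fin 2 => r₁ t.1 t.2.1 t.2.2) = ⊤)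
    (hg₂ : Algebra.adjoin 𝒪 (Set.range fun t : Gal × Fin 2 × Fin 2 => r₂ t.1 t.2.1 t.2.2) = ⊤) :
    ∃ (_ : IsLocalRing ↥(joinAlg 𝒪 r₁ r₂)) (hr : IsContMat (joinMat 𝒪 r₁ r₂)),
      IsArtinianTestAlgebra 𝒪 ↥(joinAlg 𝒪 r₁ r₂) ∧
      LiftsC D (joinMat 𝒪 r₁ r₂) ∧ Normalized D (joinMat 𝒪 r₁ r₂) ∧
      𝒟 (ofMat (joinMat 𝒪 r₁ r₂) hr) ∧
      Algebra.adjoin 𝒪 (Set.range fun t : Gal × Fin 2 × Fin 2 =>
        joinMat 𝒪 r₁ r₂ t.1 t.2.1 t.2.2) = ⊤ ∧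
      Function.Surjective (subalgFst (joinAlg 𝒪 r₁ r₂)) ∧
      Function.Surjective (subalgSnd (joinAlg 𝒪 r₁ r₂)) ∧
      IsLocalHom ((subalgFst (joinAlg 𝒪 r₁ r₂) : ↥(joinAlg 𝒪 r₁ r₂) →ₐ[𝒪] A₁) :
        ↥(joinAlg 𝒪 r₁ r₂) →+* A₁) ∧
      IsLocalHom ((subalgSnd (joinAlg 𝒪 r₁ r₂) : ↥(joinAlg 𝒪 r₁ r₂) →ₐ[𝒪] A₂) :
        ↥(joinAlg 𝒪 r₁ r₂) →+* A₂) ∧
      mapMat ((subalgFst (joinAlg 𝒪 r₁ r₂) : ↥(joinAlg 𝒪 r₁ r₂) →ₐ[𝒪] A₁) :
        ↥(joinAlg 𝒪 r₁ r₂) →+* A₁) (joinMat 𝒪 r₁ r₂) = r₁ ∧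
      mapMat ((subalgSnd (joinAlg 𝒪 r₁ r₂) : ↥(joinAlg 𝒪 r₁ r₂) →ₐ[𝒪] A₂) :
        ↥(joinAlg 𝒪 r₁ r₂) →+* A₂) (joinMat 𝒪 r₁ r₂) = r₂ := by
  obtain ⟨hloc, hS, hp₁, hp₂⟩ := prod_subalgebra_isArtinianTestAlgebra h₁ h₂ (joinAlg 𝒪 r₁ r₂)
    (joinAlg_residually_diagonal D r₁ r₂ hl₁ hl₂)
  have hr : IsContMat (joinMat 𝒪 r₁ r₂) := joinMat_isContMat h₁ h₂ r₁ r₂ hr₁ hr₂
  have hs₁ := subalgFst_joinAlg_surjective r₁ r₂ hg₁
  have hs₂ := subalgSnd_joinAlg_surjective r₁ r₂ hg₂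
  refine ⟨hloc, hr, hS, joinMat_liftsC D r₁ r₂ hl₁, joinMat_normalized D r₁ r₂ hn₁ hn₂, ?_,
    adjoin_joinMat_eq_top r₁ r₂, hs₁, hs₂, hp₁, hp₂, mapMat_subalgFst_joinMat r₁ r₂,
    mapMat_subalgSnd_joinMat r₁ r₂⟩
  -- the deformation condition, via the Goursat fibre product
  have hd₁' : 𝒟 ((ofMat (joinMat 𝒪 r₁ r₂) hr).baseChangeAlong
      ((subalgFst (joinAlg 𝒪 r₁ r₂) : ↥(joinAlg 𝒪 r₁ r₂) →ₐ[𝒪] A₁) :
        ↥(joinAlg 𝒪 r₁ r₂) →+* A₁) hp₁) := by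
    obtain ⟨e⟩ := hC2 _ hp₁ (joinMat 𝒪 r₁ r₂) hr
    refine h𝒟.of_isEquiv h₁ ⟨e.symm⟩ ?_
    exact hd₁
  have hd₂' : 𝒟 ((ofMat (joinMat 𝒪 r₁ r₂) hr).baseChangeAlong
      ((subalgSnd (joinAlg 𝒪 r₁ r₂) : ↥(joinAlg 𝒪 r₁ r₂) →ₐ[𝒪] A₂) :
        ↥(joinAlg 𝒪 r₁ r₂) →+* A₂) hp₂) := by
    obtain ⟨e⟩ := hC2 _ hp₂ (joinMat 𝒪 r₁ r₂) hr
    refine h𝒟.of_isEquiv h₂ ⟨e.symm⟩ ?_
    exact hd₂
  exact IsDeformationCondition_of_goursat h𝒟 hS h₁ h₂ _ _ hp₁ hp₂ hs₁ hs₂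
    (subalg_fst_snd_injective _) hd₁' hd₂'

end JoinMain

end Fermat.Agent.S53
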