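/-
S53 block PtJoin (owner: helper53): two points are dominated by a third one (`Pt` form of
helper26's `exists_join_of_baseChange`).
-/
import Fermat.Agent.S53.Defs
import Fermat.Agent.S53.Join
import Fermat.Agent.S53.Mat

set_option autoImplicit false

namespace Fermat.Agent.S53

open IsLocalRing GaloisRep

variable {𝒪 : Type} [CommRing 𝒪] [IsLocalRing 𝒪] {ρbar : ResidualGaloisRep (ResidueField 𝒪)}
  (D : RigidData 𝒪 ρbar)
  {𝒟 : ∀ ⦃A : Type⦄ [CommRing A] [IsLocalRing A] [Algebra 𝒪 A], GaloisRepAdic A → Prop}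

/-- `ev r` is surjective iff the entries of `r` generate. -/
theorem ev_surjective_iff {A : Type} [CommRing A] [Algebra 𝒪 A] (r : Gal →* M2 A) :
    Function.Surjective (ev (𝒪 := 𝒪) r) ↔
      Algebra.adjoin 𝒪 (Set.range fun t : Gal × Fin 2 × Fin 2 => r t.1 t.2.1 t.2.2) = ⊤ := by
  rw [Algebra.adjoin_range_eq_range_aeval, ← AlgHom.range_eq_top]
  rfl

theorem exists_join [IsNoetherianRing 𝒪] (h𝒟 : IsDeformationCondition 𝒪 𝒟) (x₁ x₂ : Pt D 𝒟) :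
    ∃ (x₃ : Pt D 𝒟) (p₁ : x₃.A →ₐ[𝒪] x₁.A) (p₂ : x₃.A →ₐ[𝒪] x₂.A),
      mapMat (p₁ : x₃.A →+* x₁.A) x₃.r = x₁.r ∧ mapMat (p₂ : x₃.A →+* x₂.A) x₃.r = x₂.r := by
  obtain ⟨hloc, hr, htest, hl, hn, hd, hg, -, -, -, -, h1, h2⟩ :=
    exists_join_of_baseChange D h𝒟
      (fun φ hφ r hr => ofMat_baseChangeAlong_isEquiv φ hφ r hr) x₁.test x₂.test x₁.r x₂.r
      x₁.nlift.cont x₂.nlift.cont x₁.nlift.lifts x₂.nlift.lifts x₁.nlift.norm x₂.nlift.norm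
      x₁.nlift.isD x₂.nlift.isD ((ev_surjective_iff x₁.r).mp x₁.gen)
      ((ev_surjective_iff x₂.r).mp x₂.gen)
  exact ⟨{ A := ↥(joinAlg 𝒪 x₁.r x₂.r)
           test := htest
           r := joinMat 𝒪 x₁.r x₂.r
           nlift := ⟨hr, hl, hn, hd⟩
           gen := (ev_surjective_iff _).mpr hg },
    subalgFst (joinAlg 𝒪 x₁.r x₂.r), subalgSnd (joinAlg 𝒪 x₁.r x₂.r), h1, h2⟩

end Fermat.Agent.S53
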