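/-
S53 block RingDef (owner: helper57): the ring `R = P ⧸ ⨅ ker θ_x` attached to a cover of all
points by one complete Noetherian local ring `P`.
-/
import Fermat.Agent.S53.Points
import Fermat.Agent.S53.PtJoin
import Fermat.Prelude.Thm_IsLocalRing_isAdicComplete_of_module_finite

set_option autoImplicit false

noncomputable section

namespace Fermat.Agent.S53

open IsLocalRing GaloisRep

variable {𝒪 : Type} [CommRing 𝒪] [IsLocalRing 𝒪] {ρbar : ResidualGaloisRep (ResidueField 𝒪)}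

/-- A cover of all points by one complete Noetherian local `𝒪`-algebra `P`: compatible
surjections `θ x : P → x.A`. -/
structure PtCover (D : RigidData 𝒪 ρbar)
    (𝒟 : ∀ ⦃A : Type⦄ [CommRing A] [IsLocalRing A] [Algebra 𝒪 A], GaloisRepAdic A → Prop) :
    Type 1 where
  P : Type
  [commRing : CommRing P]
  [isLocalRing : IsLocalRing P]
  [isNoetherianRing : IsNoetherianRing P]
  [isAdicComplete : IsAdicComplete (maximalIdeal P) P]
  [algebra : Algebra 𝒪 P]
  isLocalHom : IsLocalHom (algebraMap 𝒪 P)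
  residue_surjective : Function.Surjective (residue P ∘ algebraMap 𝒪 P)
  θ : ∀ x : Pt D 𝒟, P →ₐ[𝒪] x.A
  θ_surjective : ∀ x, Function.Surjective (θ x)
  θ_natural : ∀ (x y : Pt D 𝒟) (p : x.A →ₐ[𝒪] y.A),
    mapMat (p : x.A →+* y.A) x.r = y.r → p.comp (θ x) = θ y

attribute [instance] PtCover.commRing PtCover.isLocalRing PtCover.isNoetherianRing
  PtCover.isAdicComplete PtCover.algebra

namespace PtCover

variable {D : RigidData 𝒪 ρbar}
  {𝒟 : ∀ ⦃A : Type⦄ [CommRing A] [IsLocalRing A] [Algebra 𝒪 A], GaloisRepAdic A → Prop}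
  (C : PtCover D 𝒟)

/-- The intersection of the kernels of all `θ x`. -/
def I : Ideal C.P := ⨅ x : Pt D 𝒟, RingHom.ker (C.θ x : C.P →+* x.A)

/-- The candidate universal ring. -/
abbrev R : Type := C.P ⧸ C.I

lemma I_le_ker (x : Pt D 𝒟) : C.I ≤ RingHom.ker (C.θ x : C.P →+* x.A) := iInf_le _ x

/-- The map `R → x.A` induced by `θ x`. -/
def π (x : Pt D 𝒟) : C.R →ₐ[𝒪] x.A :=
  Ideal.Quotient.liftₐ C.I (C.θ x) (fun _ ha => C.I_le_ker x ha)

@[simp] lemma π_mk (x : Pt D 𝒟) (p : C.P) : C.π x (Ideal.Quotient.mk C.I p) = C.θ x p := rfl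

theorem π_surjective (x : Pt D 𝒟) : Function.Surjective (C.π x) := by
  intro a
  obtain ⟨p, rfl⟩ := C.θ_surjective x a
  exact ⟨Ideal.Quotient.mk C.I p, rfl⟩

theorem π_natural (x y : Pt D 𝒟) (p : x.A →ₐ[𝒪] y.A)
    (h : mapMat (p : x.A →+* y.A) x.r = y.r) : p.comp (C.π x) = C.π y := by
  have h1 := C.θ_natural x y p h
  refine AlgHom.ext fun u => ?_
  obtain ⟨q, rfl⟩ := Ideal.Quotient.mk_surjective u
  exact DFunLike.congr_fun h1 q

lemma I_ne_top [Nonempty (Pt D 𝒟)] : C.I ≠ ⊤ := by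
  obtain ⟨x⟩ := ‹Nonempty (Pt D 𝒟)›
  intro h
  have h1 : (1 : C.P) ∈ RingHom.ker (C.θ x : C.P →+* x.A) := C.I_le_ker x (h ▸ Submodule.mem_top)
  rw [RingHom.mem_ker, map_one] at h1
  exact one_ne_zero h1

instance instNontrivialR [Nonempty (Pt D 𝒟)] : Nontrivial C.R :=
  Ideal.Quotient.nontrivial_iff.mpr C.I_ne_top

/-- The maps `π x` are jointly injective. -/
theorem π_jointly_injective (u v : C.R) (h : ∀ x, C.π x u = C.π x v) : u = v := by
  obtain ⟨p, rfl⟩ := Ideal.Quotient.mk_surjective u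
  obtain ⟨q, rfl⟩ := Ideal.Quotient.mk_surjective v
  rw [Ideal.Quotient.eq]
  refine (Ideal.mem_iInf).2 fun x => ?_
  rw [RingHom.mem_ker, map_sub, sub_eq_zero]
  exact h x

instance instIsLocalRingR [Nonempty (Pt D 𝒟)] : IsLocalRing C.R :=
  IsLocalRing.of_surjective' (Ideal.Quotient.mk C.I) Ideal.Quotient.mk_surjective

lemma mk_isLocalHom [Nonempty (Pt D 𝒟)] : IsLocalHom (Ideal.Quotient.mk C.I) :=
  IsLocalHom.of_surjective (Ideal.Quotient.mk C.I) Ideal.Quotient.mk_surjective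

lemma mk_mem_maximalIdeal [Nonempty (Pt D 𝒟)] {p : C.P} (hp : p ∈ maximalIdeal C.P) :
    Ideal.Quotient.mk C.I p ∈ maximalIdeal C.R := by
  rw [IsLocalRing.mem_maximalIdeal, mem_nonunits_iff] at hp ⊢
  intro hu
  have := C.mk_isLocalHom
  exact hp (isUnit_of_map_unit (Ideal.Quotient.mk C.I) p hu)

instance instIsAdicCompleteR [Nonempty (Pt D 𝒟)] : IsAdicComplete (maximalIdeal C.R) C.R := by
  have h1 : IsLocalHom (algebraMap C.P C.R) := C.mk_isLocalHom
  exact IsLocalRing.isAdicComplete_of_module_finite (𝒪 := C.P) (T := C.R)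

theorem isLocalHom_algebraMap_R [Nonempty (Pt D 𝒟)] : IsLocalHom (algebraMap 𝒪 C.R) := by
  refine ⟨fun c hc => ?_⟩
  have := C.mk_isLocalHom
  have := C.isLocalHom
  have h1 : IsUnit (Ideal.Quotient.mk C.I (algebraMap 𝒪 C.P c)) := hc
  exact isUnit_of_map_unit (algebraMap 𝒪 C.P) c
    (isUnit_of_map_unit (Ideal.Quotient.mk C.I) _ h1)

theorem residue_surjective_R [Nonempty (Pt D 𝒟)] :
    Function.Surjective (residue C.R ∘ algebraMap 𝒪 C.R) := by
  refine residue_comp_algebraMap_surjective_of_forall fun u => ?_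
  obtain ⟨p, rfl⟩ := Ideal.Quotient.mk_surjective u
  obtain ⟨c, hc⟩ := exists_sub_mem_maximalIdeal C.residue_surjective p
  exact ⟨c, C.mk_mem_maximalIdeal hc⟩

theorem π_isLocalHom [Nonempty (Pt D 𝒟)] (x : Pt D 𝒟) : IsLocalHom (C.π x : C.R →+* x.A) :=
  IsLocalHom.of_surjective (C.π x : C.R →+* x.A) (C.π_surjective x)

end PtCover

end Fermat.Agent.S53

end
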