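import Mathlib
import Fermat.Prelude.Def_GaloisRep_DeformationCondition

set_option autoImplicit false

namespace Fermat.Agent.S53

open IsLocalRing

section Chevalley

variable {P : Type*} [CommRing P] [IsLocalRing P] [IsNoetherianRing P]

/-- In a Noetherian local ring, a directed family of ideals has, modulo `𝔪 ^ n`, a least
member. -/
theorem exists_le_sup_pow_of_directed {ι : Sort*} [Nonempty ι] (I : ι → Ideal P)
    (hdir : ∀ i j, ∃ k, I k ≤ I i ⊓ I j) (n : ℕ) :
    ∃ i, ∀ j, I i ≤ I j ⊔ maximalIdeal P ^ n := by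
  rcases Nat.eq_zero_or_pos n with rfl | hn
  · obtain ⟨i⟩ := ‹Nonempty ι›
    exact ⟨i, fun j => by simp⟩
  have hmin : maximalIdeal P ∈ (maximalIdeal P ^ n).minimalPrimes := by
    refine ⟨⟨inferInstance, Ideal.pow_le_self hn.ne'⟩, fun q hq _ => ?_⟩
    exact hq.1.le_of_pow_le hq.2
  have : IsArtinianRing (P ⧸ maximalIdeal P ^ n) :=
    IsLocalRing.quotient_artinian_of_mem_minimalPrimes_of_isLocalRing _ hmin
  let f : ι → Ideal (P ⧸ maximalIdeal P ^ n) := fun i =>
    (I i).map (Ideal.Quotient.mk (maximalIdeal P ^ n))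
  have hwf : WellFoundedLT (Ideal (P ⧸ maximalIdeal P ^ n)) := inferInstance
  obtain ⟨_, ⟨i, rfl⟩, hi⟩ := hwf.wf.has_min (Set.range f) (Set.range_nonempty f)
  refine ⟨i, fun j => ?_⟩
  obtain ⟨k, hk⟩ := hdir i j
  have hki : f k ≤ f i := Ideal.map_mono (hk.trans inf_le_left)
  have hkj : f k ≤ f j := Ideal.map_mono (hk.trans inf_le_right)
  have heq : f k = f i := by
    by_contra hne
    exact hi (f k) ⟨k, rfl⟩ (lt_of_le_of_ne hki hne)
  have h1 : I i ≤ (f i).comap (Ideal.Quotient.mk (maximalIdeal P ^ n)) := Ideal.le_comap_map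
  have h2 : (f j).comap (Ideal.Quotient.mk (maximalIdeal P ^ n)) = I j ⊔ maximalIdeal P ^ n := by
    rw [Ideal.comap_map_of_surjective _ Ideal.Quotient.mk_surjective,
      ← RingHom.ker_eq_comap_bot, Ideal.mk_ker]
  rw [← h2]
  exact h1.trans (Ideal.comap_mono (heq ▸ hkj))

/-- **Chevalley's lemma** (form E-chev).  In a complete Noetherian local ring `P`, a directed
family of `𝔪`-open ideals eventually lies inside `(⨅ i, I i) ⊔ 𝔪 ^ n`. -/
theorem chevalley_directed [IsAdicComplete (maximalIdeal P) P]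
    {ι : Sort*} [Nonempty ι] (I : ι → Ideal P)
    (hdir : ∀ i j, ∃ k, I k ≤ I i ⊓ I j)
    (hopen : ∀ i, ∃ n, maximalIdeal P ^ n ≤ I i) (n : ℕ) :
    ∃ i, I i ≤ (⨅ i, I i) ⊔ maximalIdeal P ^ n := by
  classical
  choose idx hidx using exists_le_sup_pow_of_directed I hdir
  refine ⟨idx n, fun x hx => ?_⟩
  -- step function
  have hstep : ∀ t : ℕ, ∀ y ∈ I (idx (n + t)),
      ∃ y' ∈ I (idx (n + t + 1)), y - y' ∈ maximalIdeal P ^ (n + t) := by
    intro t y hy
    have := hidx (n + t) (idx (n + t + 1)) hy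
    obtain ⟨y', hy', z, hz, rfl⟩ := Submodule.mem_sup.mp this
    exact ⟨y', hy', by simpa using hz⟩
  -- the sequence
  let z : (t : ℕ) → {y : P // y ∈ I (idx (n + t))} := fun t =>
    Nat.rec (motive := fun t => {y : P // y ∈ I (idx (n + t))}) ⟨x, hx⟩
      (fun t y => ⟨(hstep t y.1 y.2).choose, (hstep t y.1 y.2).choose_spec.1⟩) t
  have hz0 : (z 0 : P) = x := rfl
  have hzs : ∀ t, (z t : P) - (z (t + 1) : P) ∈ maximalIdeal P ^ (n + t) := fun t =>
    (hstep t (z t).1 (z t).2).choose_spec.2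
  have hcauchy : ∀ a b, a ≤ b → (z a : P) - (z b : P) ∈ maximalIdeal P ^ (n + a) := by
    intro a b hab
    induction b, hab using Nat.le_induction with
    | base => simp
    | succ b hab ih =>
      have h1 : (z b : P) - (z (b + 1) : P) ∈ maximalIdeal P ^ (n + a) :=
        Ideal.pow_le_pow_right (by omega) (hzs b)
      have : (z a : P) - (z (b + 1) : P) = ((z a : P) - z b) + ((z b : P) - z (b + 1)) := by ring
      rw [this]
      exact Ideal.add_mem _ ih h1
  obtain ⟨L, hL⟩ := IsPrecomplete.prec' (I := maximalIdeal P) (M := P) (fun t => (z t : P))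
    (fun {a b} hab => by
      rw [SModEq.sub_mem, smul_eq_mul, Ideal.mul_top]
      exact Ideal.pow_le_pow_right (Nat.le_add_left a n) (hcauchy a b hab))
  have hL' : ∀ t, (z t : P) - L ∈ maximalIdeal P ^ t := fun t => by
    have := hL t
    rwa [SModEq.sub_mem, smul_eq_mul, Ideal.mul_top] at this
  have hLmem : L ∈ ⨅ i, I i := by
    rw [Ideal.mem_iInf]
    intro j
    obtain ⟨N, hN⟩ := hopen j
    have h1 : (z N : P) ∈ I j := by
      have h2 := hidx (n + N) j (z N).2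
      have h3 : I j ⊔ maximalIdeal P ^ (n + N) ≤ I j :=
        sup_le le_rfl ((Ideal.pow_le_pow_right (Nat.le_add_left N n)).trans hN)
      exact h3 h2
    have h4 : (z N : P) - L ∈ I j := hN (hL' N)
    have : L = (z N : P) - ((z N : P) - L) := by ring
    rw [this]
    exact Ideal.sub_mem _ h1 h4
  have hxL : x - L ∈ maximalIdeal P ^ n := by
    have h1 : (z 0 : P) - (z n : P) ∈ maximalIdeal P ^ n := by
      simpa using hcauchy 0 n (Nat.zero_le n)
    have h2 := hL' n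
    have : x - L = ((z 0 : P) - z n) + ((z n : P) - L) := by rw [hz0]; ring
    rw [this]
    exact Ideal.add_mem _ h1 h2
  have : x = L + (x - L) := by ring
  rw [this]
  exact Submodule.add_mem_sup hLmem hxL

end Chevalley

section Adjoin

variable {𝒪 : Type*} [CommRing 𝒪] [IsLocalRing 𝒪]
variable {A : Type*} [CommRing A] [IsLocalRing A] [Algebra 𝒪 A]

/-- If `𝒪 → A / 𝔪_A` is surjective then `algebraMap 𝒪 A` maps `𝔪_𝒪` into `𝔪_A`. -/
theorem algebraMap_mem_maximalIdeal_of_residue_surjective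
    (hres : Function.Surjective (IsLocalRing.residue A ∘ algebraMap 𝒪 A))
    {c : 𝒪} (hc : c ∈ maximalIdeal 𝒪) : algebraMap 𝒪 A c ∈ maximalIdeal A := by
  let g : 𝒪 →+* ResidueField A := (IsLocalRing.residue A).comp (algebraMap 𝒪 A)
  have hg : Function.Surjective g := hres
  have hmax : (RingHom.ker g).IsMaximal := RingHom.ker_isMaximal_of_surjective g hg
  have hker : RingHom.ker g = maximalIdeal 𝒪 := IsLocalRing.eq_maximalIdeal hmax
  have : c ∈ RingHom.ker g := hker ▸ hc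
  rw [RingHom.mem_ker] at this
  exact (IsLocalRing.residue_eq_zero_iff _).mp this

/-- (E-gen) A set `s ⊆ 𝔪_A` spanning `𝔪_A / (𝔪_A² + 𝔪_𝒪 A)` generates `A` as an `𝒪`-algebra,
when `𝔪_A` is nilpotent and `𝒪 → A / 𝔪_A` is surjective. -/
theorem adjoin_eq_top_of_span_cotangent
    (hnil : IsNilpotent (maximalIdeal A))
    (hres : Function.Surjective (IsLocalRing.residue A ∘ algebraMap 𝒪 A))
    (s : Set A) (hs : s ⊆ maximalIdeal A)
    (hgen : maximalIdeal A ≤ Ideal.span s ⊔ (maximalIdeal 𝒪).map (algebraMap 𝒪 A)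
      ⊔ maximalIdeal A ^ 2) :
    Algebra.adjoin 𝒪 s = ⊤ := by
  set B : Subalgebra 𝒪 A := Algebra.adjoin 𝒪 s with hB
  set 𝔪 : Ideal A := maximalIdeal A with h𝔪
  -- A = B + 𝔪
  have hB1 : ∀ a : A, ∃ b ∈ B, a - b ∈ 𝔪 := by
    intro a
    obtain ⟨c, hc⟩ := hres (IsLocalRing.residue A a)
    refine ⟨algebraMap 𝒪 A c, B.algebraMap_mem c, ?_⟩
    rw [h𝔪, ← IsLocalRing.residue_eq_zero_iff, map_sub, sub_eq_zero]
    exact hc.symm
  -- the generating set
  set t : Set A := s ∪ (algebraMap 𝒪 A) '' (maximalIdeal 𝒪 : Set 𝒪) with ht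
  have htB : t ⊆ B := by
    rintro y (hy | ⟨c, -, rfl⟩)
    · exact Algebra.subset_adjoin hy
    · exact B.algebraMap_mem c
  have ht𝔪 : t ⊆ 𝔪 := by
    rintro y (hy | ⟨c, hc, rfl⟩)
    · exact hs hy
    · exact algebraMap_mem_maximalIdeal_of_residue_surjective hres hc
  have hspan : Ideal.span s ⊔ (maximalIdeal 𝒪).map (algebraMap 𝒪 A) = Ideal.span t := by
    rw [ht, Ideal.span_union]; rfl
  have hspan𝔪 : Ideal.span t ≤ 𝔪 := Ideal.span_le.mpr ht𝔪
  -- span t ⊆ B + 𝔪²
  have hQ0 : ∀ y ∈ Ideal.span t, ∃ b ∈ B, y - b ∈ 𝔪 ^ 2 := by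
    intro y hy
    induction hy using Submodule.span_induction with
    | mem y hy => exact ⟨y, htB hy, by simp⟩
    | zero => exact ⟨0, B.zero_mem, by simp⟩
    | add y z _ _ ihy ihz =>
      obtain ⟨b, hb, hyb⟩ := ihy
      obtain ⟨b', hb', hzb⟩ := ihz
      refine ⟨b + b', B.add_mem hb hb', ?_⟩
      have : y + z - (b + b') = (y - b) + (z - b') := by ring
      rw [this]; exact Ideal.add_mem _ hyb hzb
    | smul a y hy ihy =>
      obtain ⟨b, hb, hyb⟩ := ihy
      obtain ⟨b', hb', hab⟩ := hB1 a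
      refine ⟨b' * b, B.mul_mem hb' hb, ?_⟩
      have hy𝔪 : y ∈ 𝔪 := hspan𝔪 hy
      have : a • y - b' * b = (a - b') * y + b' * (y - b) := by rw [smul_eq_mul]; ring
      rw [this]
      refine Ideal.add_mem _ ?_ (Ideal.mul_mem_left _ _ hyb)
      rw [pow_two]; exact Ideal.mul_mem_mul hab hy𝔪
  -- 𝔪 ⊆ B + 𝔪²
  have hQ1 : ∀ y ∈ 𝔪, ∃ b ∈ B, y - b ∈ 𝔪 ^ 2 := by
    intro y hy
    have := hgen hy
    rw [hspan] at this
    obtain ⟨u, hu, v, hv, rfl⟩ := Submodule.mem_sup.mp this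
    obtain ⟨b, hb, hub⟩ := hQ0 u hu
    refine ⟨b, hb, ?_⟩
    have : u + v - b = (u - b) + v := by ring
    rw [this]; exact Ideal.add_mem _ hub hv
  -- 𝔪^n ⊆ B + 𝔪^(n+1)
  have hQ : ∀ n : ℕ, ∀ y ∈ 𝔪 ^ (n + 1), ∃ b ∈ B, y - b ∈ 𝔪 ^ (n + 2) := by
    intro n
    induction n with
    | zero => intro y hy; simpa using hQ1 y (by simpa using hy)
    | succ n ih =>
      intro y hy
      rw [pow_succ] at hy
      refine Submodule.mul_induction_on hy ?_ ?_
      · intro u hu v hv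
        obtain ⟨b, hb, hub⟩ := ih u hu
        obtain ⟨b', hb', hvb⟩ := hQ1 v hv
        refine ⟨b * b', B.mul_mem hb hb', ?_⟩
        have hb𝔪 : b ∈ 𝔪 ^ (n + 1) := by
          have : b = u - (u - b) := by ring
          rw [this]
          exact Ideal.sub_mem _ hu (Ideal.pow_le_pow_right (by omega) hub)
        have : u * v - b * b' = (u - b) * v + b * (v - b') := by ring
        rw [this]
        refine Ideal.add_mem _ ?_ ?_
        · have : 𝔪 ^ (n + 1 + 2) = 𝔪 ^ (n + 2) * 𝔪 := by rw [← pow_succ]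
          rw [this]; exact Ideal.mul_mem_mul hub hv
        · have : 𝔪 ^ (n + 1 + 2) = 𝔪 ^ (n + 1) * 𝔪 ^ 2 := by rw [← pow_add]
          rw [this]; exact Ideal.mul_mem_mul hb𝔪 hvb
      · intro u v ihu ihv
        obtain ⟨b, hb, hub⟩ := ihu
        obtain ⟨b', hb', hvb⟩ := ihv
        refine ⟨b + b', B.add_mem hb hb', ?_⟩
        have : u + v - (b + b') = (u - b) + (v - b') := by ring
        rw [this]; exact Ideal.add_mem _ hub hvb
  -- A = B + 𝔪^(n+1)
  have hall : ∀ n : ℕ, ∀ a : A, ∃ b ∈ B, a - b ∈ 𝔪 ^ (n + 1) := by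
    intro n
    induction n with
    | zero => intro a; simpa using hB1 a
    | succ n ih =>
      intro a
      obtain ⟨b, hb, hab⟩ := ih a
      obtain ⟨b', hb', hab'⟩ := hQ n _ hab
      refine ⟨b + b', B.add_mem hb hb', ?_⟩
      have : a - (b + b') = a - b - b' := by ring
      rw [this]; exact hab'
  obtain ⟨N, hN⟩ := hnil
  rw [eq_top_iff]
  intro a _
  obtain ⟨b, hb, hab⟩ := hall N a
  have h0 : 𝔪 ^ (N + 1) = ⊥ := by rw [pow_succ, hN]; simp
  rw [h0, Ideal.mem_bot, sub_eq_zero] at hab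
  rw [hab]; exact hb

end Adjoin

section Tangent

variable {𝒪 : Type*} [CommRing 𝒪] [IsLocalRing 𝒪]
variable {A : Type*} [CommRing A] [IsLocalRing A] [Algebra 𝒪 A]

/-- (E-tan), general form with a set `s ⊆ 𝔪_A` of elements to be killed. -/
theorem exists_algHom_dualNumber_ne_zero_span_aux
    [IsLocalHom (algebraMap 𝒪 A)]
    (hres : Function.Surjective (IsLocalRing.residue A ∘ algebraMap 𝒪 A))
    (s : Set A) (hs : s ⊆ maximalIdeal A)
    {x : A} (hx : x ∈ maximalIdeal A)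
    (hx' : x ∉ Ideal.span s ⊔ (maximalIdeal 𝒪).map (algebraMap 𝒪 A) ⊔ maximalIdeal A ^ 2) :
    letI : Algebra 𝒪 (DualNumber (ResidueField 𝒪)) :=
      ((algebraMap (ResidueField 𝒪) (DualNumber (ResidueField 𝒪))).comp
        (algebraMap 𝒪 (ResidueField 𝒪))).toAlgebra
    ∃ ψ : A →ₐ[𝒪] DualNumber (ResidueField 𝒪), ψ x ≠ 0 ∧ (∀ y ∈ s, ψ y = 0) ∧
      (∀ m ∈ maximalIdeal A, (ψ m).fst = 0) := by
  classical
  let _ : Algebra 𝒪 (DualNumber (ResidueField 𝒪)) :=
    ((algebraMap (ResidueField 𝒪) (DualNumber (ResidueField 𝒪))).comp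
      (algebraMap 𝒪 (ResidueField 𝒪))).toAlgebra
  let ι : ResidueField 𝒪 →+* ResidueField A := ResidueField.map (algebraMap 𝒪 A)
  have hι : ∀ c : 𝒪, ι (residue 𝒪 c) = residue A (algebraMap 𝒪 A c) := fun c =>
    ResidueField.map_residue _ c
  have hιsurj : Function.Surjective ι := by
    intro y
    obtain ⟨a, rfl⟩ := IsLocalRing.residue_surjective y
    obtain ⟨c, hc⟩ := hres (residue A a)
    exact ⟨residue 𝒪 c, by rw [hι]; exact hc⟩
  let e' : ResidueField 𝒪 ≃+* ResidueField A := RingEquiv.ofBijective ι ⟨ι.injective, hιsurj⟩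
  let e : ResidueField A ≃+* ResidueField 𝒪 := e'.symm
  have he : ∀ c : 𝒪, e (residue A (algebraMap 𝒪 A c)) = residue 𝒪 c := fun c => by
    rw [← hι]
    show e'.symm (e' (residue 𝒪 c)) = residue 𝒪 c
    exact e'.symm_apply_apply _
  let f : A →+* ResidueField 𝒪 := (e : ResidueField A →+* ResidueField 𝒪).comp (residue A)
  have hf𝔪 : ∀ m ∈ maximalIdeal A, f m = 0 := fun m hm => by
    show e (residue A m) = 0
    rw [(IsLocalRing.residue_eq_zero_iff m).mpr hm, map_zero]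
  -- the subspace coming from `𝔪_𝒪`
  have halg : ∀ c : maximalIdeal 𝒪, algebraMap 𝒪 A c ∈ maximalIdeal A := fun c =>
    algebraMap_mem_maximalIdeal_of_residue_surjective hres c.2
  let g : maximalIdeal 𝒪 → maximalIdeal A := fun c => ⟨algebraMap 𝒪 A c, halg c⟩
  let G : Set (maximalIdeal A) := Set.range g ∪ {m | (m : A) ∈ s}
  let N : Submodule A (maximalIdeal A) := Submodule.span A G
  let U : Submodule (ResidueField A) (CotangentSpace A) :=
    Submodule.span (ResidueField A) ((maximalIdeal A).toCotangent '' G)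
  have hU : U.restrictScalars A = N.map (maximalIdeal A).toCotangent := by
    rw [Submodule.map_span]
    exact Submodule.restrictScalars_span A (ResidueField A) IsLocalRing.residue_surjective _
  have hN : ∀ n ∈ N, (n : A) ∈ Ideal.span s ⊔ (maximalIdeal 𝒪).map (algebraMap 𝒪 A) := by
    intro n hn
    induction hn using Submodule.span_induction with
    | mem n hn =>
      rcases hn with ⟨c, rfl⟩ | hn
      · exact Ideal.mem_sup_right (Ideal.mem_map_of_mem _ c.2)
      · exact Ideal.mem_sup_left (Ideal.subset_span hn)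
    | zero => simp
    | add u v _ _ hu hv => simpa using Ideal.add_mem _ hu hv
    | smul a u _ hu => simpa using Ideal.mul_mem_left _ a hu
  have hxU : (maximalIdeal A).toCotangent ⟨x, hx⟩ ∉ U := by
    intro hmem
    have hmem' : (maximalIdeal A).toCotangent ⟨x, hx⟩ ∈ U.restrictScalars A := hmem
    rw [hU] at hmem'
    obtain ⟨n, hn, hnx⟩ := hmem'
    rw [Ideal.toCotangent_eq] at hnx
    apply hx'
    have : x = n + (x - (n : A)) := by ring
    rw [this]
    refine Submodule.add_mem_sup (hN n hn) ?_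
    have h2 : x - (n : A) = -((n : A) - x) := by ring
    rw [h2]; exact Ideal.neg_mem_iff _ |>.mpr hnx
  obtain ⟨lam, hlamx, hlamU⟩ := Submodule.exists_dual_map_eq_bot_of_notMem hxU inferInstance
  have hlamG : ∀ m ∈ G, lam ((maximalIdeal A).toCotangent m) = 0 := by
    intro m hmG
    have h : lam ((maximalIdeal A).toCotangent m) ∈ U.map lam :=
      Submodule.mem_map_of_mem (Submodule.subset_span ⟨m, hmG, rfl⟩)
    rw [hlamU] at h
    exact (Submodule.mem_bot _).mp h
  have hlamU' : ∀ c : maximalIdeal 𝒪, lam ((maximalIdeal A).toCotangent (g c)) = 0 :=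
    fun c => hlamG _ (Or.inl ⟨c, rfl⟩)
  -- a section
  choose c hc using fun a : A => hres (residue A a)
  have hm : ∀ a, a - algebraMap 𝒪 A (c a) ∈ maximalIdeal A := fun a => by
    rw [← IsLocalRing.residue_eq_zero_iff, map_sub, sub_eq_zero]; exact (hc a).symm
  let D : A → ResidueField 𝒪 := fun a =>
    e (lam ((maximalIdeal A).toCotangent ⟨a - algebraMap 𝒪 A (c a), hm a⟩))
  have hD : ∀ (a : A) (c' : 𝒪) (m : A) (hm' : m ∈ maximalIdeal A), a = algebraMap 𝒪 A c' + m →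
      D a = e (lam ((maximalIdeal A).toCotangent ⟨m, hm'⟩)) := by
    intro a c' m hm' ha
    have hcc : c' - c a ∈ maximalIdeal 𝒪 := by
      by_contra hnot
      have hu : IsUnit (c' - c a) := by
        rwa [IsLocalRing.mem_maximalIdeal, mem_nonunits_iff, not_not] at hnot
      have hu' : IsUnit (algebraMap 𝒪 A (c' - c a)) := hu.map _
      have hmem : algebraMap 𝒪 A (c' - c a) ∈ maximalIdeal A := by
        have : algebraMap 𝒪 A (c' - c a) = (a - algebraMap 𝒪 A (c a)) - m := by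
          rw [ha, map_sub]; ring
        rw [this]; exact Ideal.sub_mem _ (hm a) hm'
      exact (IsLocalRing.mem_maximalIdeal _).mp hmem hu'
    have hsplit : (⟨a - algebraMap 𝒪 A (c a), hm a⟩ : maximalIdeal A) =
        ⟨m, hm'⟩ + g ⟨c' - c a, hcc⟩ := by
      apply Subtype.ext
      show a - algebraMap 𝒪 A (c a) = m + algebraMap 𝒪 A (c' - c a)
      rw [ha, map_sub]; ring
    show e (lam ((maximalIdeal A).toCotangent ⟨a - algebraMap 𝒪 A (c a), hm a⟩)) = _
    rw [hsplit, map_add, map_add, hlamU', add_zero]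
  have hD𝔪 : ∀ (m : A) (hm' : m ∈ maximalIdeal A),
      D m = e (lam ((maximalIdeal A).toCotangent ⟨m, hm'⟩)) := fun m hm' =>
    hD m 0 m hm' (by simp)
  have hDalg : ∀ c' : 𝒪, D (algebraMap 𝒪 A c') = 0 := fun c' => by
    rw [hD _ c' 0 (Ideal.zero_mem _) (by simp)]
    have : (⟨0, Ideal.zero_mem _⟩ : maximalIdeal A) = 0 := rfl
    rw [this, map_zero, map_zero, map_zero]
  have hDadd : ∀ a b, D (a + b) = D a + D b := by
    intro a b
    rw [hD (a + b) (c a + c b) ((a - algebraMap 𝒪 A (c a)) + (b - algebraMap 𝒪 A (c b)))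
      (Ideal.add_mem _ (hm a) (hm b)) (by rw [map_add]; ring)]
    have : (⟨(a - algebraMap 𝒪 A (c a)) + (b - algebraMap 𝒪 A (c b)),
        Ideal.add_mem _ (hm a) (hm b)⟩ : maximalIdeal A) =
        ⟨a - algebraMap 𝒪 A (c a), hm a⟩ + ⟨b - algebraMap 𝒪 A (c b), hm b⟩ := rfl
    rw [this, map_add, map_add, map_add]
  have hfc : ∀ a, f a = residue 𝒪 (c a) := fun a => by
    show e (residue A a) = _
    rw [← hc a]; exact he _
  have hDmul : ∀ a b, D (a * b) = f a * D b + f b * D a := by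
    intro a b
    set ma : A := a - algebraMap 𝒪 A (c a) with hma
    set mb : A := b - algebraMap 𝒪 A (c b) with hmb
    have hmab : algebraMap 𝒪 A (c a) * mb + algebraMap 𝒪 A (c b) * ma + ma * mb ∈ maximalIdeal A :=
      Ideal.add_mem _ (Ideal.add_mem _ (Ideal.mul_mem_left _ _ (hm b))
        (Ideal.mul_mem_left _ _ (hm a))) (Ideal.mul_mem_left _ _ (hm b))
    rw [hD (a * b) (c a * c b) _ hmab (by rw [map_mul, hma, hmb]; ring)]
    have hsplit : (⟨algebraMap 𝒪 A (c a) * mb + algebraMap 𝒪 A (c b) * ma + ma * mb, hmab⟩ :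
        maximalIdeal A) = algebraMap 𝒪 A (c a) • (⟨mb, hm b⟩ : maximalIdeal A) +
          algebraMap 𝒪 A (c b) • (⟨ma, hm a⟩ : maximalIdeal A) +
          (⟨ma * mb, Ideal.mul_mem_left _ _ (hm b)⟩ : maximalIdeal A) := by
      apply Subtype.ext; rfl
    have hzero : (maximalIdeal A).toCotangent ⟨ma * mb, Ideal.mul_mem_left _ _ (hm b)⟩ = 0 := by
      rw [Ideal.toCotangent_eq_zero, pow_two]
      exact Ideal.mul_mem_mul (hm a) (hm b)
    rw [hsplit, map_add, hzero, add_zero, map_add, map_smul, map_smul]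
    have hsm : ∀ (r : A) (v : CotangentSpace A), lam (r • v) = residue A r * lam v := by
      intro r v
      have : r • v = (residue A r) • v := by
        rw [← IsLocalRing.ResidueField.algebraMap_eq, algebraMap_smul]
      rw [this, map_smul, smul_eq_mul]
    rw [map_add, hsm, hsm, map_add, map_mul, map_mul, he, he, hfc, hfc]
  have hD1 : D 1 = 0 := by
    have := hDalg 1
    rwa [map_one] at this
  let ψ₀ : A →+* DualNumber (ResidueField 𝒪) :=
    { toFun := fun a => TrivSqZeroExt.inl (f a) + TrivSqZeroExt.inr (D a)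
      map_one' := by
        rw [hD1, map_one, TrivSqZeroExt.inr_zero, add_zero]; rfl
      map_mul' := fun a b => by
        apply TrivSqZeroExt.ext
        · simp [TrivSqZeroExt.fst_mul]
        · simp only [TrivSqZeroExt.snd_add, TrivSqZeroExt.snd_inl, TrivSqZeroExt.snd_inr, zero_add,
            TrivSqZeroExt.snd_mul, TrivSqZeroExt.fst_add, TrivSqZeroExt.fst_inl,
            TrivSqZeroExt.fst_inr, add_zero, hDmul, smul_eq_mul, MulOpposite.smul_eq_mul_unop,
            MulOpposite.unop_op]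
          ring
      map_zero' := by
        have : D 0 = 0 := by have := hDalg 0; rwa [map_zero] at this
        rw [this, map_zero, TrivSqZeroExt.inr_zero, add_zero, TrivSqZeroExt.inl_zero]
      map_add' := fun a b => by
        rw [hDadd, map_add, TrivSqZeroExt.inl_add, TrivSqZeroExt.inr_add]; abel }
  refine ⟨{ ψ₀ with
    commutes' := fun c' => ?_ }, ?_, ?_, ?_⟩
  · show TrivSqZeroExt.inl (f (algebraMap 𝒪 A c')) + TrivSqZeroExt.inr (D (algebraMap 𝒪 A c')) = _
    rw [hDalg, TrivSqZeroExt.inr_zero, add_zero]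
    show TrivSqZeroExt.inl (e (residue A (algebraMap 𝒪 A c'))) = _
    rw [he]
    rfl
  · show TrivSqZeroExt.inl (f x) + TrivSqZeroExt.inr (D x) ≠ 0
    intro h0
    have h1 := congrArg TrivSqZeroExt.snd h0
    simp only [TrivSqZeroExt.snd_add, TrivSqZeroExt.snd_inl, TrivSqZeroExt.snd_inr, zero_add,
      TrivSqZeroExt.snd_zero] at h1
    rw [hD𝔪 x hx] at h1
    exact hlamx (by simpa using h1)
  · intro y hy
    show TrivSqZeroExt.inl (f y) + TrivSqZeroExt.inr (D y) = 0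
    rw [hf𝔪 y (hs hy), hD𝔪 y (hs hy), hlamG ⟨y, hs hy⟩ (Or.inr hy), map_zero,
      TrivSqZeroExt.inl_zero, TrivSqZeroExt.inr_zero, add_zero]
  · intro m hm'
    show (TrivSqZeroExt.inl (f m) + TrivSqZeroExt.inr (D m)).fst = 0
    rw [hf𝔪 m hm']
    simp

/-- (E-tan), general form. -/
theorem exists_algHom_dualNumber_ne_zero_aux
    [IsLocalHom (algebraMap 𝒪 A)]
    (hres : Function.Surjective (IsLocalRing.residue A ∘ algebraMap 𝒪 A))
    {x : A} (hx : x ∈ maximalIdeal A)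
    (hx' : x ∉ maximalIdeal A ^ 2 ⊔ (maximalIdeal 𝒪).map (algebraMap 𝒪 A)) :
    letI : Algebra 𝒪 (DualNumber (ResidueField 𝒪)) :=
      ((algebraMap (ResidueField 𝒪) (DualNumber (ResidueField 𝒪))).comp
        (algebraMap 𝒪 (ResidueField 𝒪))).toAlgebra
    ∃ ψ : A →ₐ[𝒪] DualNumber (ResidueField 𝒪), ψ x ≠ 0 := by
  have hx'' : x ∉ Ideal.span (∅ : Set A) ⊔ (maximalIdeal 𝒪).map (algebraMap 𝒪 A) ⊔
      maximalIdeal A ^ 2 := by
    rw [Ideal.span_empty, bot_sup_eq, sup_comm]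
    exact hx'
  obtain ⟨ψ, hψ, -, -⟩ := exists_algHom_dualNumber_ne_zero_span_aux hres ∅
    (Set.empty_subset _) hx hx''
  exact ⟨ψ, hψ⟩

end Tangent

/-- (E-tan) For an Artinian test algebra `A` and `x ∈ 𝔪_A` outside `𝔪_A² + 𝔪_𝒪 A`, there is an
`𝒪`-algebra map `A → k[ε]` not killing `x`.  The `𝒪`-algebra structure on `k[ε]` is the one used
in `GaloisRep.TangentFinite`. -/
theorem exists_algHom_dualNumber_ne_zero
    {𝒪 : Type} [CommRing 𝒪] [IsLocalRing 𝒪] {A : Type} [CommRing A] [IsLocalRing A] [Algebra 𝒪 A]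
    (hA : GaloisRep.IsArtinianTestAlgebra 𝒪 A)
    {x : A} (hx : x ∈ maximalIdeal A)
    (hx' : x ∉ maximalIdeal A ^ 2 ⊔ (maximalIdeal 𝒪).map (algebraMap 𝒪 A)) :
    letI : Algebra 𝒪 (DualNumber (ResidueField 𝒪)) :=
      ((algebraMap (ResidueField 𝒪) (DualNumber (ResidueField 𝒪))).comp
        (algebraMap 𝒪 (ResidueField 𝒪))).toAlgebra
    ∃ ψ : A →ₐ[𝒪] DualNumber (ResidueField 𝒪), ψ x ≠ 0 :=
  haveI := hA.isLocalHom
  exists_algHom_dualNumber_ne_zero_aux hA.residue_surjective hx hx'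

/-- (E-tan), strengthened: for an Artinian test algebra `A`, a set `s ⊆ 𝔪_A` and `x ∈ 𝔪_A`
outside `(s) + 𝔪_𝒪 A + 𝔪_A²`, there is an `𝒪`-algebra map `A → k[ε]` killing `s` but not `x`. -/
theorem exists_algHom_dualNumber_ne_zero_of_notMem_span
    {𝒪 : Type} [CommRing 𝒪] [IsLocalRing 𝒪] {A : Type} [CommRing A] [IsLocalRing A] [Algebra 𝒪 A]
    (hA : GaloisRep.IsArtinianTestAlgebra 𝒪 A)
    (s : Set A) (hs : s ⊆ maximalIdeal A)
    {x : A} (hx : x ∈ maximalIdeal A)
    (hx' : x ∉ Ideal.span s ⊔ (maximalIdeal 𝒪).map (algebraMap 𝒪 A) ⊔ maximalIdeal A ^ 2) :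
    letI : Algebra 𝒪 (DualNumber (ResidueField 𝒪)) :=
      ((algebraMap (ResidueField 𝒪) (DualNumber (ResidueField 𝒪))).comp
        (algebraMap 𝒪 (ResidueField 𝒪))).toAlgebra
    ∃ ψ : A →ₐ[𝒪] DualNumber (ResidueField 𝒪), ψ x ≠ 0 ∧ ∀ y ∈ s, ψ y = 0 := by
  have := hA.isLocalHom
  obtain ⟨ψ, h1, h2, -⟩ := exists_algHom_dualNumber_ne_zero_span_aux hA.residue_surjective s hs
    hx hx'
  exact ⟨ψ, h1, h2⟩

/-- (fact G) A proper `𝒪`-subalgebra `B` of an Artinian test algebra `A` is not "dense" for maps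
to the dual numbers: there are two distinct `𝒪`-algebra maps `A → k[ε]` agreeing on `B`. -/
theorem exists_algHom_dualNumber_ne_of_ne_top
    {𝒪 : Type} [CommRing 𝒪] [IsLocalRing 𝒪] {A : Type} [CommRing A] [IsLocalRing A] [Algebra 𝒪 A]
    (hA : GaloisRep.IsArtinianTestAlgebra 𝒪 A) (B : Subalgebra 𝒪 A) (hB : B ≠ ⊤) :
    letI : Algebra 𝒪 (DualNumber (ResidueField 𝒪)) :=
      ((algebraMap (ResidueField 𝒪) (DualNumber (ResidueField 𝒪))).comp
        (algebraMap 𝒪 (ResidueField 𝒪))).toAlgebra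
    ∃ u v : A →ₐ[𝒪] DualNumber (ResidueField 𝒪), u ≠ v ∧ ∀ b ∈ B, u b = v b := by
  classical
  let _ : Algebra 𝒪 (DualNumber (ResidueField 𝒪)) :=
    ((algebraMap (ResidueField 𝒪) (DualNumber (ResidueField 𝒪))).comp
      (algebraMap 𝒪 (ResidueField 𝒪))).toAlgebra
  have := hA.isLocalHom
  have := hA.isArtinian
  have hres := hA.residue_surjective
  have hnil : IsNilpotent (maximalIdeal A) := isArtinianRing_iff_isNilpotent_maximalIdeal A |>.mp
    inferInstance
  let s : Set A := {y | y ∈ B ∧ y ∈ maximalIdeal A}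
  have hs : s ⊆ maximalIdeal A := fun y hy => hy.2
  have hsB : Algebra.adjoin 𝒪 s ≤ B := Algebra.adjoin_le fun y hy => hy.1
  -- some `x ∈ 𝔪_A` is not in `(s) + 𝔪_𝒪 A + 𝔪_A²`
  have hex : ∃ x ∈ maximalIdeal A,
      x ∉ Ideal.span s ⊔ (maximalIdeal 𝒪).map (algebraMap 𝒪 A) ⊔ maximalIdeal A ^ 2 := by
    by_contra hcon
    push Not at hcon
    exact hB (top_le_iff.mp ((adjoin_eq_top_of_span_cotangent hnil hres s hs hcon).symm ▸ hsB))
  obtain ⟨x, hx, hx'⟩ := hex
  obtain ⟨u, hux, hus, hu𝔪⟩ :=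
    exists_algHom_dualNumber_ne_zero_span_aux hres s hs hx hx'
  -- the "constant" map `v = inl ∘ fst ∘ u`
  let v₀ : A →+* DualNumber (ResidueField 𝒪) :=
    ((TrivSqZeroExt.inlHom (ResidueField 𝒪) (ResidueField 𝒪)).comp
      (TrivSqZeroExt.fstHom (ResidueField 𝒪) (ResidueField 𝒪) (ResidueField 𝒪)).toRingHom).comp
      (u : A →+* DualNumber (ResidueField 𝒪))
  have hv₀ : ∀ a, v₀ a = TrivSqZeroExt.inl (u a).fst := fun a => rfl
  have hualg : ∀ c : 𝒪, u (algebraMap 𝒪 A c) = TrivSqZeroExt.inl (residue 𝒪 c) := fun c => by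
    rw [u.commutes]; rfl
  let v : A →ₐ[𝒪] DualNumber (ResidueField 𝒪) :=
    { v₀ with
      commutes' := fun c => by
        show v₀ (algebraMap 𝒪 A c) = _
        rw [hv₀, hualg, TrivSqZeroExt.fst_inl]
        rfl }
  have hv : ∀ a, v a = TrivSqZeroExt.inl (u a).fst := fun a => rfl
  refine ⟨u, v, ?_, ?_⟩
  · intro huv
    apply hux
    rw [huv, hv, hu𝔪 x hx, TrivSqZeroExt.inl_zero]
  · intro b hb
    obtain ⟨c, hc⟩ := hres (residue A b)
    have hm : b - algebraMap 𝒪 A c ∈ maximalIdeal A := by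
      rw [← IsLocalRing.residue_eq_zero_iff, map_sub, sub_eq_zero]; exact hc.symm
    have hmB : b - algebraMap 𝒪 A c ∈ B := B.sub_mem hb (B.algebraMap_mem c)
    have hb' : b = algebraMap 𝒪 A c + (b - algebraMap 𝒪 A c) := by ring
    have hum : u (b - algebraMap 𝒪 A c) = 0 := hus _ ⟨hmB, hm⟩
    rw [hv, hb', map_add, hum, add_zero, hualg, TrivSqZeroExt.fst_inl]

end Fermat.Agent.S53
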