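/-
S53 (universal deformation ring) -- block TanDual: the dual numbers `k[ε]` over the residue
field as an Artinian test algebra, and finiteness of the set of normalised lifts of type `𝒟`
over `k[ε]`, deduced from `GaloisRep.TangentFinite`.
Owner: helper93.  Everything lives in `namespace Fermat.Agent.S53`.
-/
import Mathlib
import Fermat.Prelude.Def_GaloisRep_DeformationRingData
import Fermat.Prelude.Def_GaloisRep_DeformationCondition
import Fermat.Agent.S53.Defs

set_option autoImplicit false

noncomputable section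

namespace Fermat.Agent.S53

open IsLocalRing

section DualAlgebra

variable (𝒪 : Type) [CommRing 𝒪] [IsLocalRing 𝒪]

/-- The `𝒪`-algebra structure on `k[ε]` used in `GaloisRep.TangentFinite`. -/
@[reducible] def dualNumberAlgebra : Algebra 𝒪 (DualNumber (ResidueField 𝒪)) :=
  ((algebraMap (ResidueField 𝒪) (DualNumber (ResidueField 𝒪))).comp
    (algebraMap 𝒪 (ResidueField 𝒪))).toAlgebra

/-- The `k`-algebra structure on the residue field of `k[ε]` used in
`GaloisRep.TangentFinite`. -/
@[reducible] def dualNumberResidueAlgebra :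
    Algebra (ResidueField 𝒪) (ResidueField (DualNumber (ResidueField 𝒪))) :=
  ((IsLocalRing.residue (DualNumber (ResidueField 𝒪))).comp
    (algebraMap (ResidueField 𝒪) (DualNumber (ResidueField 𝒪)))).toAlgebra

lemma dualNumber_algebraMap_apply (c : 𝒪) :
    letI := dualNumberAlgebra 𝒪
    algebraMap 𝒪 (DualNumber (ResidueField 𝒪)) c =
      TrivSqZeroExt.inl (residue 𝒪 c) := rfl

/-- The structure map `𝒪 → k[ε]` is a local homomorphism. -/
lemma dualNumber_isLocalHom :
    letI := dualNumberAlgebra 𝒪
    IsLocalHom (algebraMap 𝒪 (DualNumber (ResidueField 𝒪))) := by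
  letI := dualNumberAlgebra 𝒪
  refine ⟨fun c hc => ?_⟩
  rw [dualNumber_algebraMap_apply, TrivSqZeroExt.isUnit_iff_isUnit_fst, TrivSqZeroExt.fst_inl]
    at hc
  by_contra hcu
  have : residue 𝒪 c = 0 := (IsLocalRing.residue_eq_zero_iff c).mpr
    (by rwa [IsLocalRing.mem_maximalIdeal, mem_nonunits_iff])
  rw [this] at hc
  exact not_isUnit_zero hc

/-- An element of `k[ε]` lies in the maximal ideal iff its first component vanishes. -/
lemma dualNumber_mem_maximalIdeal_iff (x : DualNumber (ResidueField 𝒪)) :
    x ∈ maximalIdeal (DualNumber (ResidueField 𝒪)) ↔ x.fst = 0 := by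
  rw [IsLocalRing.mem_maximalIdeal, mem_nonunits_iff, TrivSqZeroExt.isUnit_iff_isUnit_fst,
    isUnit_iff_ne_zero, not_not]

/-- `𝒪 → k[ε] → residue field` is surjective. -/
lemma dualNumber_residue_surjective :
    letI := dualNumberAlgebra 𝒪
    Function.Surjective (residue (DualNumber (ResidueField 𝒪)) ∘
      algebraMap 𝒪 (DualNumber (ResidueField 𝒪))) := by
  letI := dualNumberAlgebra 𝒪
  intro x
  obtain ⟨y, rfl⟩ := IsLocalRing.residue_surjective x
  obtain ⟨c, hc⟩ := IsLocalRing.residue_surjective y.fst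
  refine ⟨c, ?_⟩
  rw [Function.comp_apply, ← sub_eq_zero, ← map_sub, IsLocalRing.residue_eq_zero_iff,
    dualNumber_mem_maximalIdeal_iff, dualNumber_algebraMap_apply, TrivSqZeroExt.fst_sub,
    TrivSqZeroExt.fst_inl, hc, sub_self]

lemma dualNumber_moduleFinite (K : Type) [Field K] : Module.Finite K (DualNumber K) := by
  refine Module.Finite.of_surjective
    ((Algebra.linearMap K (DualNumber K)).coprod (TrivSqZeroExt.inrHom K K)) fun x => ?_
  refine ⟨(x.fst, x.snd), ?_⟩
  rw [LinearMap.coprod_apply, Algebra.linearMap_apply, TrivSqZeroExt.algebraMap_eq_inl]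
  exact TrivSqZeroExt.inl_fst_add_inr_snd_eq x

lemma dualNumber_isArtinianRing (K : Type) [Field K] : IsArtinianRing (DualNumber K) :=
  haveI := dualNumber_moduleFinite K
  IsArtinianRing.of_finite K _

/-- `k[ε]` is an Artinian test algebra over `𝒪`. -/
theorem dualNumber_isArtinianTestAlgebra :
    letI := dualNumberAlgebra 𝒪
    GaloisRep.IsArtinianTestAlgebra 𝒪 (DualNumber (ResidueField 𝒪)) :=
  letI := dualNumberAlgebra 𝒪
  { isLocalHom := dualNumber_isLocalHom 𝒪
    residue_surjective := dualNumber_residue_surjective 𝒪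
    isArtinian := dualNumber_isArtinianRing _ }

/-- The two ring homomorphisms `k → ResidueField k[ε]` in play agree. -/
lemma residueFieldMap_dualNumber_eq :
    letI := dualNumberAlgebra 𝒪
    haveI := dualNumber_isLocalHom 𝒪
    IsLocalRing.ResidueField.map (algebraMap 𝒪 (DualNumber (ResidueField 𝒪))) =
      (IsLocalRing.residue (DualNumber (ResidueField 𝒪))).comp
        (algebraMap (ResidueField 𝒪) (DualNumber (ResidueField 𝒪))) := by
  letI := dualNumberAlgebra 𝒪
  haveI := dualNumber_isLocalHom 𝒪
  ext x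
  obtain ⟨c, rfl⟩ := IsLocalRing.residue_surjective x
  rfl

end DualAlgebra

section Tangent

variable {𝒪 : Type} [CommRing 𝒪] [IsLocalRing 𝒪] {ρbar : ResidualGaloisRep (ResidueField 𝒪)}
  (D : RigidData 𝒪 ρbar)
  (𝒟 : ∀ ⦃A : Type⦄ [CommRing A] [IsLocalRing A] [Algebra 𝒪 A], GaloisRepAdic A → Prop)

/-- The normalised lifts of type `𝒟` over the dual numbers `k[ε]` (with the `𝒪`-algebra
structure `dualNumberAlgebra 𝒪`). -/
def TanLift : Type :=
  letI := dualNumberAlgebra 𝒪
  {r : Gal →* M2 (DualNumber (ResidueField 𝒪)) //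
    ∃ hr : IsContMat r, LiftsC D r ∧ Normalized D r ∧ 𝒟 (ofMat r hr)}

variable {𝒟}

/-- `GaloisRep.TangentFinite` implies that there are only finitely many normalised lifts of type
`𝒟` over `k[ε]`.  The two hypotheses `hC4` (a lift of `c` has the right residual representation)
and `hGlue` (equivalent normalised lifts are equal) are instances at `A = k[ε]` of the general
statements of the blocks `MatRes` and `Glue`. -/
theorem finite_tanLift_of (hfin : GaloisRep.TangentFinite 𝒪 ρbar 𝒟)
    (hC4 : letI := dualNumberAlgebra 𝒪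
      haveI := dualNumber_isLocalHom 𝒪
      ∀ (r : Gal →* M2 (DualNumber (ResidueField 𝒪))) (hr : IsContMat r), LiftsC D r →
        (ofMat r hr).residual.IsEquiv (ρbar.baseChangeAlong
          (IsLocalRing.ResidueField.map (algebraMap 𝒪 (DualNumber (ResidueField 𝒪))))))
    (hGlue : letI := dualNumberAlgebra 𝒪
      ∀ (r r' : Gal →* M2 (DualNumber (ResidueField 𝒪))) (hr : IsContMat r)
        (hr' : IsContMat r'), LiftsC D r → Normalized D r → LiftsC D r' → Normalized D r' →
        (ofMat r hr).IsEquiv (ofMat r' hr') → r = r') :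
    Finite (TanLift D 𝒟) := by
  letI := dualNumberAlgebra 𝒪
  haveI := dualNumber_isLocalHom 𝒪
  unfold GaloisRep.TangentFinite at hfin
  have hres : ∀ (r : Gal →* M2 (DualNumber (ResidueField 𝒪))) (hr : IsContMat r), LiftsC D r →
      (ofMat r hr).residual.IsEquiv (ρbar.baseChangeAlong
        ((IsLocalRing.residue (DualNumber (ResidueField 𝒪))).comp
          (algebraMap (ResidueField 𝒪) (DualNumber (ResidueField 𝒪))))) := by
    intro r hr hl
    have h := hC4 r hr hl
    rwa [residueFieldMap_dualNumber_eq] at h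
  refine @Finite.of_injective _ _ hfin
    (fun r : TanLift D 𝒟 => Quotient.mk _
      ⟨ofMat r.1 r.2.choose, r.2.choose_spec.2.2, hres r.1 r.2.choose r.2.choose_spec.1⟩) ?_
  intro r r' h
  have h' := Quotient.exact h
  exact Subtype.ext (hGlue r.1 r'.1 r.2.choose r'.2.choose r.2.choose_spec.1
    r.2.choose_spec.2.1 r'.2.choose_spec.1 r'.2.choose_spec.2.1 h')

end Tangent

end Fermat.Agent.S53

end
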