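/-
S53 block TanBound (owner: helper32): finitely many polynomials generate every point.

Main results:
* `tanBound_finite_tanLift`   : `TangentFinite` gives finitely many normalised `𝒟`-lifts over
                                `k[ε]`;
* `exists_finset_generators`  : there is a finite set `S` of matrix-entry indices such that for
                                every point `(A, r)` the entries `r σ i j`, `(σ, i, j) ∈ S`,
                                generate `A` as an `𝒪`-algebra;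
* `exists_generators`         : finitely many polynomials `y i ∈ Pol 𝒪` whose values at every
                                point lie in the maximal ideal and generate the algebra.
-/
import Fermat.Agent.S53.Points
import Fermat.Agent.S53.TanDual
import Fermat.Agent.S53.CommAlg
import Fermat.Agent.S53.Glue
import Fermat.Agent.S53.MatRes

set_option autoImplicit false
set_option linter.style.haveILetI false

namespace Fermat.Agent.S53

open IsLocalRing GaloisRep

variable {𝒪 : Type} [CommRing 𝒪] [IsLocalRing 𝒪] {ρbar : ResidualGaloisRep (ResidueField 𝒪)}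
  (D : RigidData 𝒪 ρbar)
  {𝒟 : ∀ ⦃A : Type⦄ [CommRing A] [IsLocalRing A] [Algebra 𝒪 A], GaloisRepAdic A → Prop}

/-- `TangentFinite` gives finitely many normalised lifts of type `𝒟` over `k[ε]`. -/
theorem tanBound_finite_tanLift (hfin : TangentFinite 𝒪 ρbar 𝒟) : Finite (TanLift D 𝒟) := by
  letI := dualNumberAlgebra 𝒪
  haveI := dualNumber_isLocalHom 𝒪
  exact finite_tanLift_of D hfin
    (fun r hr hl => residual_isEquiv_of_liftsC D r hr hl)
    (fun r r' hr hr' hl hn hl' hn' h =>
      Glue.eq_of_normalized_of_isEquiv D r r' hr hr' hl hn hl' hn' h)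

/-- There is a finite set of matrix-entry indices separating the (finitely many) normalised
`𝒟`-lifts over `k[ε]`. -/
theorem tanBound_exists_separating (hfin : TangentFinite 𝒪 ρbar 𝒟) :
    ∃ S : Finset (Gal × Fin 2 × Fin 2), ∀ t t' : TanLift D 𝒟,
      (∀ s ∈ S, t.1 s.1 s.2.1 s.2.2 = t'.1 s.1 s.2.1 s.2.2) → t = t' := by
  classical
  haveI : Finite (TanLift D 𝒟) := tanBound_finite_tanLift D hfin
  have hsep : ∀ p : {p : TanLift D 𝒟 × TanLift D 𝒟 // p.1 ≠ p.2},
      ∃ s : Gal × Fin 2 × Fin 2, p.1.1.1 s.1 s.2.1 s.2.2 ≠ p.1.2.1 s.1 s.2.1 s.2.2 := by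
    rintro ⟨⟨a, b⟩, hab⟩
    by_contra hcon
    refine hab (Subtype.ext (MonoidHom.ext fun σ => Matrix.ext fun i j => ?_))
    by_contra h
    exact hcon ⟨(σ, i, j), h⟩
  choose sep hsep using hsep
  haveI : Fintype {p : TanLift D 𝒟 × TanLift D 𝒟 // p.1 ≠ p.2} := Fintype.ofFinite _
  refine ⟨Finset.univ.image sep, fun t t' h => ?_⟩
  by_contra hne
  exact hsep ⟨(t, t'), hne⟩ (h _ (Finset.mem_image_of_mem _ (Finset.mem_univ _)))

/-- **Finitely many entries generate every point.** -/
theorem exists_finset_generators (h𝒟 : IsDeformationCondition 𝒪 𝒟)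
    (hfin : TangentFinite 𝒪 ρbar 𝒟) :
    ∃ S : Finset (Gal × Fin 2 × Fin 2), ∀ x : Pt D 𝒟,
      Algebra.adjoin 𝒪
        ((fun s : Gal × Fin 2 × Fin 2 => x.r s.1 s.2.1 s.2.2) '' (S : Set (Gal × Fin 2 × Fin 2)))
        = ⊤ := by
  obtain ⟨S, hS⟩ := tanBound_exists_separating D hfin
  refine ⟨S, fun x => ?_⟩
  letI := dualNumberAlgebra 𝒪
  by_contra hB
  obtain ⟨u, v, huv, hagree⟩ := exists_algHom_dualNumber_ne_of_ne_top x.test _ hB
  have hu := IsNLift.map D h𝒟 x.test (dualNumber_isArtinianTestAlgebra 𝒪) u x.nlift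
  have hv := IsNLift.map D h𝒟 x.test (dualNumber_isArtinianTestAlgebra 𝒪) v x.nlift
  have htuv : (Subtype.mk (mapMat (u : x.A →+* DualNumber (ResidueField 𝒪)) x.r)
        ⟨hu.cont, hu.lifts, hu.norm, hu.isD⟩ : TanLift D 𝒟) =
      Subtype.mk (mapMat (v : x.A →+* DualNumber (ResidueField 𝒪)) x.r)
        ⟨hv.cont, hv.lifts, hv.norm, hv.isD⟩ := by
    refine hS _ _ fun s hs => ?_
    show u (x.r s.1 s.2.1 s.2.2) = v (x.r s.1 s.2.1 s.2.2)
    exact hagree _ (Algebra.subset_adjoin ⟨s, Finset.mem_coe.mpr hs, rfl⟩)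
  exact huv (algHom_ext_of_ev_surjective x.r x.gen u v (congrArg Subtype.val htuv))

/-- **Finitely many polynomials generate every point**: there are finitely many polynomials
`y i` in the matrix entries whose values at every point `(A, r)` lie in the maximal ideal of `A`
and generate `A` as an `𝒪`-algebra. -/
theorem exists_generators [IsNoetherianRing 𝒪] (h𝒟 : IsDeformationCondition 𝒪 𝒟)
    (hfin : TangentFinite 𝒪 ρbar 𝒟) :
    ∃ (d : ℕ) (y : Fin d → Pol 𝒪), ∀ x : Pt D 𝒟,
      (∀ i, ev x.r (y i) ∈ maximalIdeal x.A) ∧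
        Algebra.adjoin 𝒪 (Set.range fun i => ev x.r (y i)) = ⊤ := by
  classical
  obtain ⟨S, hS⟩ := exists_finset_generators D h𝒟 hfin
  have hev : ∀ (x : Pt D 𝒟) (s : Gal × Fin 2 × Fin 2),
      ev x.r (MvPolynomial.X s - MvPolynomial.C (D.c s.1 s.2.1 s.2.2) : Pol 𝒪) =
        x.r s.1 s.2.1 s.2.2 - algebraMap 𝒪 x.A (D.c s.1 s.2.1 s.2.2) := by
    intro x s
    obtain ⟨σ, i, j⟩ := s
    rw [map_sub, ev_X, ← MvPolynomial.algebraMap_eq, AlgHom.commutes]
  refine ⟨S.card, fun i => MvPolynomial.X (S.equivFin.symm i).1 -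
    MvPolynomial.C (D.c (S.equivFin.symm i).1.1 (S.equivFin.symm i).1.2.1
      (S.equivFin.symm i).1.2.2), fun x => ⟨fun i => ?_, ?_⟩⟩
  · rw [hev]
    exact x.nlift.lifts _ _ _
  · rw [eq_top_iff, ← hS x]
    refine Algebra.adjoin_le ?_
    rintro _ ⟨s, hs, rfl⟩
    have h1 : x.r s.1 s.2.1 s.2.2 =
        (x.r s.1 s.2.1 s.2.2 - algebraMap 𝒪 x.A (D.c s.1 s.2.1 s.2.2)) +
          algebraMap 𝒪 x.A (D.c s.1 s.2.1 s.2.2) := by ring
    show x.r s.1 s.2.1 s.2.2 ∈ _
    rw [h1]
    refine Subalgebra.add_mem _ (Algebra.subset_adjoin ⟨S.equivFin ⟨s, hs⟩, ?_⟩)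
      (Subalgebra.algebraMap_mem _ _)
    show ev x.r _ = _
    rw [hev, Equiv.symm_apply_apply]

end Fermat.Agent.S53
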