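/-
S53 block CoverPts (owner: helper94): the power series ring covers all points.
-/
import Fermat.Agent.S53.RingDef
import Fermat.Agent.S53.TanBound
import Fermat.Agent.S53.Cover
import Fermat.Agent.S53.PowerSeriesComplete

set_option autoImplicit false

namespace Fermat.Agent.S53

open IsLocalRing GaloisRep

variable {𝒪 : Type} [CommRing 𝒪] [IsLocalRing 𝒪] {ρbar : ResidualGaloisRep (ResidueField 𝒪)}
  (D : RigidData 𝒪 ρbar)
  {𝒟 : ∀ ⦃A : Type⦄ [CommRing A] [IsLocalRing A] [Algebra 𝒪 A], GaloisRepAdic A → Prop}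

theorem exists_ptCover [IsNoetherianRing 𝒪] [IsAdicComplete (maximalIdeal 𝒪) 𝒪]
    (h𝒟 : IsDeformationCondition 𝒪 𝒟) (hfin : TangentFinite 𝒪 ρbar 𝒟) :
    Nonempty (PtCover D 𝒟) := by
  obtain ⟨d, y, hy⟩ := exists_generators D h𝒟 hfin
  have hnil : ∀ x : Pt D 𝒟, IsNilpotent (maximalIdeal x.A) := fun x =>
    isNilpotent_maximalIdeal_of_isArtinianTestAlgebra x.test
  have hθ : ∀ x : Pt D 𝒟, ∃! θ : MvPowerSeries (Fin d) 𝒪 →ₐ[𝒪] x.A,
      ∀ i, θ (MvPowerSeries.X i) = ev x.r (y i) :=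
    fun x => cover_existsUnique_algHom (hnil x) _ (hy x).1
  choose θ hθ1 hθ2 using hθ
  have : IsAdicComplete (maximalIdeal (MvPowerSeries (Fin d) 𝒪)) (MvPowerSeries (Fin d) 𝒪) :=
    mvPowerSeries_isAdicComplete 𝒪 d
  refine ⟨{ P := MvPowerSeries (Fin d) 𝒪
            isLocalHom := cover_isLocalHom
            residue_surjective := cover_residue_surjective
            θ := θ
            θ_surjective := ?_
            θ_natural := ?_ }⟩
  · intro x
    rw [← AlgHom.range_eq_top, eq_top_iff, ← (hy x).2]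
    apply Algebra.adjoin_le
    rintro _ ⟨i, rfl⟩
    exact ⟨MvPowerSeries.X i, hθ1 x i⟩
  · intro x x' p hp
    apply hθ2 x'
    intro i
    rw [AlgHom.comp_apply, hθ1 x i]
    have h := ev_map (𝒪 := 𝒪) p x.r
    rw [hp] at h
    exact DFunLike.congr_fun h (y i)

end Fermat.Agent.S53
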