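/-
S53 (universal deformation ring) -- Chevalley's lemma and limits of compatible families.
Owner: helper34.  Everything lives in `namespace Fermat.Agent.S53`.
-/
import Mathlib

set_option autoImplicit false

namespace Fermat.Agent.S53

open IsLocalRing

section Chevalley

variable {P : Type*} [CommRing P] [IsLocalRing P] [IsNoetherianRing P]

/-- In a noetherian local ring, the quotient by a power of the maximal ideal is artinian. -/
lemma isArtinianRing_quotient_maximalIdeal_pow (k : ℕ) :
    IsArtinianRing (P ⧸ maximalIdeal P ^ k) := by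
  by_cases hk : maximalIdeal P ^ k = ⊤
  · have : Subsingleton (P ⧸ maximalIdeal P ^ k) := by
      rw [hk]; exact Ideal.Quotient.subsingleton_iff.mpr rfl
    exact inferInstance
  · have : Nontrivial (P ⧸ maximalIdeal P ^ k) := Ideal.Quotient.nontrivial_iff.mpr hk
    have hloc : IsLocalRing (P ⧸ maximalIdeal P ^ k) :=
      IsLocalRing.of_surjective' (Ideal.Quotient.mk _) Ideal.Quotient.mk_surjective
    have : IsLocalHom (Ideal.Quotient.mk (maximalIdeal P ^ k)) :=
      IsLocalHom.of_surjective (Ideal.Quotient.mk _) Ideal.Quotient.mk_surjective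
    rw [isArtinianRing_iff_isNilpotent_maximalIdeal]
    have hmap : (maximalIdeal P).map (Ideal.Quotient.mk (maximalIdeal P ^ k)) =
        maximalIdeal (P ⧸ maximalIdeal P ^ k) := by
      ext x
      obtain ⟨x, rfl⟩ := Ideal.Quotient.mk_surjective x
      simp [sup_eq_left.mpr (le_maximalIdeal hk)]
    refine ⟨k, ?_⟩
    rw [← hmap, ← Ideal.map_pow, Ideal.zero_eq_bot, Ideal.map_eq_bot_iff_le_ker, Ideal.mk_ker]

variable {ι : Sort*} [Nonempty ι] (I : ι → Ideal P)

/-- For a downward directed family of ideals, the family `I i ⊔ 𝔪 ^ k` has a least element. -/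
lemma exists_min_sup_pow (hdir : ∀ i j, ∃ l, I l ≤ I i ⊓ I j) (k : ℕ) :
    ∃ i, ∀ j, I i ⊔ maximalIdeal P ^ k ≤ I j ⊔ maximalIdeal P ^ k := by
  have hart : IsArtinianRing (P ⧸ maximalIdeal P ^ k) := isArtinianRing_quotient_maximalIdeal_pow k
  set f := Ideal.Quotient.mk (maximalIdeal P ^ k) with hf
  have hsurj : Function.Surjective f := Ideal.Quotient.mk_surjective
  have hne : (Set.range fun i => (I i).map f).Nonempty := Set.range_nonempty _
  obtain ⟨_, ⟨i, rfl⟩, hmin⟩ := IsArtinian.set_has_minimal (R := P ⧸ maximalIdeal P ^ k)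
    (M := P ⧸ maximalIdeal P ^ k) _ hne
  refine ⟨i, fun j => ?_⟩
  obtain ⟨l, hl⟩ := hdir i j
  have h1 : (I l).map f ≤ (I i).map f := Ideal.map_mono (hl.trans inf_le_left)
  have h2 : (I l).map f ≤ (I j).map f := Ideal.map_mono (hl.trans inf_le_right)
  have h3 : (I i).map f ≤ (I j).map f := by
    have hnot := hmin _ ⟨l, rfl⟩
    have : (I l).map f = (I i).map f := by
      by_contra hne'
      exact hnot (lt_of_le_of_ne h1 hne')
    rw [← this]; exact h2
  have hcomap : ∀ J : Ideal P, ((J.map f).comap f) = J ⊔ maximalIdeal P ^ k := by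
    intro J
    rw [Ideal.comap_map_of_surjective f hsurj, ← RingHom.ker_eq_comap_bot, hf, Ideal.mk_ker]
  rw [← hcomap, ← hcomap]
  exact Ideal.comap_mono h3

variable [IsAdicComplete (maximalIdeal P) P]

/-- **Chevalley's lemma** (for open ideals): a downward directed family of open ideals of a
complete noetherian local ring is cofinal with the powers of the maximal ideal, modulo its
intersection. -/
theorem chevalley (hdir : ∀ i j, ∃ l, I l ≤ I i ⊓ I j)
    (hopen : ∀ i, ∃ n, maximalIdeal P ^ n ≤ I i) (n : ℕ) :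
    ∃ i, I i ≤ (⨅ i, I i) ⊔ maximalIdeal P ^ n := by
  classical
  by_contra hcon
  push Not at hcon
  -- minimal indices
  choose idx hidx using fun k => exists_min_sup_pow I hdir k
  -- a starting element
  obtain ⟨x₀, hx₀I, hx₀⟩ : ∃ x ∈ I (idx n), x ∉ (⨅ i, I i) ⊔ maximalIdeal P ^ n := by
    have := hcon (idx n)
    exact Set.not_subset.mp this
  -- the step: from `x ∈ I (idx k) ⊔ 𝔪^k` get `y ∈ I (idx (k+1))` with `x - y ∈ 𝔪^k`
  have hstep : ∀ (k : ℕ) (x : P), x ∈ I (idx k) ⊔ maximalIdeal P ^ k →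
      ∃ y ∈ I (idx (k + 1)), x - y ∈ maximalIdeal P ^ k := by
    intro k x hx
    have hx' := hidx k (idx (k + 1)) hx
    obtain ⟨y, hy, z, hz, rfl⟩ := Submodule.mem_sup.mp hx'
    exact ⟨y, hy, by simpa using hz⟩
  -- build the sequence `s k ∈ I (idx (n + k))`
  let step : (k : ℕ) → {x : P // x ∈ I (idx (n + k))} → {x : P // x ∈ I (idx (n + k + 1))} :=
    fun k x => ⟨(hstep (n + k) x.1 (Ideal.mem_sup_left x.2)).choose,
      (hstep (n + k) x.1 (Ideal.mem_sup_left x.2)).choose_spec.1⟩
  have hstep_spec : ∀ k (x : {x : P // x ∈ I (idx (n + k))}),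
      x.1 - (step k x).1 ∈ maximalIdeal P ^ (n + k) := fun k x =>
    (hstep (n + k) x.1 (Ideal.mem_sup_left x.2)).choose_spec.2
  let s : (k : ℕ) → {x : P // x ∈ I (idx (n + k))} := fun k =>
    Nat.rec (motive := fun k => {x : P // x ∈ I (idx (n + k))}) ⟨x₀, hx₀I⟩
      (fun k x => step k x) k
  have hs0 : (s 0).1 = x₀ := rfl
  have hs_succ : ∀ k, (s k).1 - (s (k + 1)).1 ∈ maximalIdeal P ^ (n + k) := fun k =>
    hstep_spec k (s k)
  -- differences
  have hs_le : ∀ k l, k ≤ l → (s k).1 - (s l).1 ∈ maximalIdeal P ^ (n + k) := by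
    intro k l hkl
    induction l, hkl using Nat.le_induction with
    | base => simp
    | succ l hkl ih =>
      have h1 := hs_succ l
      have h2 : (s l).1 - (s (l + 1)).1 ∈ maximalIdeal P ^ (n + k) :=
        Ideal.pow_le_pow_right (by omega) h1
      have : (s k).1 - (s (l + 1)).1 = ((s k).1 - (s l).1) + ((s l).1 - (s (l + 1)).1) := by ring
      rw [this]
      exact Ideal.add_mem _ ih h2
  -- the Cauchy sequence `t k = s (k - n)` (constant for `k ≤ n`)
  let t : ℕ → P := fun k => (s (k - n)).1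
  have ht : ∀ {a b : ℕ}, a ≤ b →
      t a ≡ t b [SMOD (maximalIdeal P ^ a • ⊤ : Submodule P P)] := by
    intro a b hab
    rw [SModEq.sub_mem, smul_eq_mul, Ideal.mul_top]
    have := hs_le (a - n) (b - n) (by omega)
    exact Ideal.pow_le_pow_right (by omega) this
  obtain ⟨x, hx⟩ := IsPrecomplete.prec (I := maximalIdeal P) (M := P) inferInstance ht
  have hx' : ∀ k, t k - x ∈ maximalIdeal P ^ k := by
    intro k
    have := hx k
    rwa [SModEq.sub_mem, smul_eq_mul, Ideal.mul_top] at this
  -- `x` lies in every `I i`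
  have hxI : x ∈ ⨅ i, I i := by
    rw [Ideal.mem_iInf]
    intro i
    obtain ⟨N, hN⟩ := hopen i
    -- use `k = n + N`
    have h1 : t (n + N) ∈ I (idx (n + (n + N - n))) := (s (n + N - n)).2
    have h2 : t (n + N) ∈ I (idx (n + N)) ⊔ maximalIdeal P ^ (n + N) := by
      have : n + (n + N - n) = n + N := by omega
      rw [this] at h1
      exact Ideal.mem_sup_left h1
    have h3 : t (n + N) ∈ I i ⊔ maximalIdeal P ^ (n + N) := hidx (n + N) i h2
    have h4 : maximalIdeal P ^ (n + N) ≤ I i := (Ideal.pow_le_pow_right (by omega)).trans hN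
    have h5 : t (n + N) ∈ I i := by
      rw [sup_eq_left.mpr h4] at h3; exact h3
    have h6 : t (n + N) - x ∈ I i := h4 (hx' (n + N))
    have : x = t (n + N) - (t (n + N) - x) := by ring
    rw [this]
    exact Ideal.sub_mem _ h5 h6
  -- contradiction
  apply hx₀
  have h7 : t n - x ∈ maximalIdeal P ^ n := hx' n
  have h8 : t n = x₀ := by
    show (s (n - n)).1 = x₀
    rw [Nat.sub_self]
    exact hs0
  rw [h8] at h7
  have : x₀ = x + (x₀ - x) := by ring
  rw [this]
  exact Ideal.add_mem _ (Ideal.mem_sup_left hxI) (Ideal.mem_sup_right h7)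

/-- Limits of compatible families along a downward directed family of open ideals in a complete
noetherian local ring. -/
theorem exists_limit (hopen : ∀ i, ∃ n, maximalIdeal P ^ n ≤ I i) (a : ι → P)
    (ha : ∀ i j, ∃ l, I l ≤ I i ⊓ I j ∧ a l - a i ∈ I i ∧ a l - a j ∈ I j) :
    ∃ p : P, ∀ i, p - a i ∈ I i := by
  classical
  have hdir : ∀ i j, ∃ l, I l ≤ I i ⊓ I j := fun i j => (ha i j).imp fun _ h => h.1
  set J : Ideal P := ⨅ i, I i with hJ
  choose c hc using fun n => chevalley I hdir hopen n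
  -- a "decreasing" sequence of indices
  let nxt : ι → ℕ → ι := fun j n => (ha j (c (n + 1))).choose
  have hnxt : ∀ j n, I (nxt j n) ≤ I j ⊓ I (c (n + 1)) ∧ a (nxt j n) - a j ∈ I j ∧
      a (nxt j n) - a (c (n + 1)) ∈ I (c (n + 1)) := fun j n => (ha j (c (n + 1))).choose_spec
  let jj : ℕ → ι := fun n => Nat.rec (c 0) (fun n j => nxt j n) n
  have hjj_succ : ∀ n, jj (n + 1) = nxt (jj n) n := fun n => rfl
  have hjj_le : ∀ n, I (jj n) ≤ J ⊔ maximalIdeal P ^ n := by
    intro n
    cases n with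
    | zero => exact hc 0
    | succ n =>
      rw [hjj_succ]
      exact ((hnxt (jj n) n).1.trans inf_le_right).trans (hc (n + 1))
  have hdiff : ∀ n, a (jj (n + 1)) - a (jj n) ∈ J ⊔ maximalIdeal P ^ n := by
    intro n
    rw [hjj_succ]
    exact hjj_le n (hnxt (jj n) n).2.1
  -- decompose the differences
  have hdec : ∀ n, ∃ u ∈ J, ∃ v ∈ maximalIdeal P ^ n, u + v = a (jj (n + 1)) - a (jj n) :=
    fun n => Submodule.mem_sup.mp (hdiff n)
  choose u hu v hv huv using hdec
  let b : ℕ → P := fun n => a (jj n) - ∑ l ∈ Finset.range n, u l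
  have hb_succ : ∀ n, b (n + 1) - b n = v n := by
    intro n
    simp only [b, Finset.sum_range_succ]
    have := huv n
    linear_combination (-1 : P) * this
  have hb_le : ∀ k l, k ≤ l → b l - b k ∈ maximalIdeal P ^ k := by
    intro k l hkl
    induction l, hkl using Nat.le_induction with
    | base => simp
    | succ l hkl ih =>
      have h2 : b (l + 1) - b l ∈ maximalIdeal P ^ k := by
        rw [hb_succ]; exact Ideal.pow_le_pow_right hkl (hv l)
      have : b (l + 1) - b k = (b (l + 1) - b l) + (b l - b k) := by ring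
      rw [this]
      exact Ideal.add_mem _ h2 ih
  have hbc : ∀ {m n : ℕ}, m ≤ n →
      b m ≡ b n [SMOD (maximalIdeal P ^ m • ⊤ : Submodule P P)] := by
    intro m n hmn
    rw [SModEq.sub_mem, smul_eq_mul, Ideal.mul_top]
    have := hb_le m n hmn
    have h' : b m - b n = -(b n - b m) := by ring
    rw [h']
    exact Ideal.neg_mem_iff _ |>.mpr this
  obtain ⟨p, hp⟩ := IsPrecomplete.prec (I := maximalIdeal P) (M := P) inferInstance hbc
  have hp' : ∀ k, b k - p ∈ maximalIdeal P ^ k := by
    intro k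
    have := hp k
    rwa [SModEq.sub_mem, smul_eq_mul, Ideal.mul_top] at this
  have hpa : ∀ n, p - a (jj n) ∈ J ⊔ maximalIdeal P ^ n := by
    intro n
    have h1 : ∑ l ∈ Finset.range n, u l ∈ J := Ideal.sum_mem _ fun l _ => hu l
    have h2 : p - a (jj n) = -(∑ l ∈ Finset.range n, u l) + -(b n - p) := by
      simp only [b]; ring
    rw [h2]
    exact Ideal.add_mem _ (Ideal.mem_sup_left (Ideal.neg_mem_iff _ |>.mpr h1))
      (Ideal.mem_sup_right (Ideal.neg_mem_iff _ |>.mpr (hp' n)))
  refine ⟨p, fun i => ?_⟩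
  obtain ⟨N, hN⟩ := hopen i
  have hJi : J ≤ I i := iInf_le _ i
  have hle : J ⊔ maximalIdeal P ^ N ≤ I i := sup_le hJi hN
  obtain ⟨l, hl, hli, hlj⟩ := ha i (jj N)
  have h1 : a l - a (jj N) ∈ I i := hle (hjj_le N hlj)
  have h2 : p - a (jj N) ∈ I i := hle (hpa N)
  have : p - a i = (p - a (jj N)) - (a l - a (jj N)) + (a l - a i) := by ring
  rw [this]
  exact Ideal.add_mem _ (Ideal.sub_mem _ h2 h1) hli

end Chevalley

end Fermat.Agent.S53
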