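/-
S53 block RingChev (owner: helper34): Chevalley-type consequences for `R = P ⧸ ⨅ ker θ_x`.
-/
import Fermat.Agent.S53.RingDef
import Fermat.Agent.S53.CommAlg
import Fermat.Agent.S53.Chevalley

set_option autoImplicit false

namespace Fermat.Agent.S53

open IsLocalRing GaloisRep

variable {𝒪 : Type} [CommRing 𝒪] [IsLocalRing 𝒪] {ρbar : ResidualGaloisRep (ResidueField 𝒪)}

namespace PtCover

variable {D : RigidData 𝒪 ρbar}
  {𝒟 : ∀ ⦃A : Type⦄ [CommRing A] [IsLocalRing A] [Algebra 𝒪 A], GaloisRepAdic A → Prop}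
  (C : PtCover D 𝒟)

/-- The kernels of the `π x` intersect trivially. -/
theorem iInf_ker_π_eq_bot :
    ⨅ x : Pt D 𝒟, RingHom.ker (C.π x : C.R →+* x.A) = ⊥ := by
  rw [eq_bot_iff]
  intro u hu
  rw [Ideal.mem_iInf] at hu
  rw [Ideal.mem_bot]
  apply C.π_jointly_injective
  intro x
  have h := hu x
  rw [RingHom.mem_ker] at h
  rw [map_zero]
  exact h

/-- A morphism of points gives an inclusion of the kernels of the `π`. -/
theorem ker_π_le_of_map (x y : Pt D 𝒟) (p : x.A →ₐ[𝒪] y.A)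
    (h : mapMat (p : x.A →+* y.A) x.r = y.r) :
    RingHom.ker (C.π x : C.R →+* x.A) ≤ RingHom.ker (C.π y : C.R →+* y.A) := by
  intro u hu
  rw [RingHom.mem_ker] at hu ⊢
  have h1 : C.π y u = p (C.π x u) := by
    rw [← C.π_natural x y p h]
    rfl
  have hu' : C.π x u = 0 := hu
  show C.π y u = 0
  rw [h1, hu', map_zero]

/-- The kernels of the `π x` form a downward directed family. -/
theorem ker_π_directed [IsNoetherianRing 𝒪] (h𝒟 : IsDeformationCondition 𝒪 𝒟)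
    (x y : Pt D 𝒟) :
    ∃ z : Pt D 𝒟, RingHom.ker (C.π z : C.R →+* z.A) ≤
      RingHom.ker (C.π x : C.R →+* x.A) ⊓ RingHom.ker (C.π y : C.R →+* y.A) := by
  obtain ⟨z, p₁, p₂, h1, h2⟩ := exists_join D h𝒟 x y
  exact ⟨z, le_inf (C.ker_π_le_of_map z x p₁ h1) (C.ker_π_le_of_map z y p₂ h2)⟩

/-- The kernels of the `π x` are open. -/
theorem exists_pow_le_ker_π [Nonempty (Pt D 𝒟)] (x : Pt D 𝒟) :
    ∃ n : ℕ, maximalIdeal C.R ^ n ≤ RingHom.ker (C.π x : C.R →+* x.A) := by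
  obtain ⟨n, hn⟩ := isNilpotent_maximalIdeal_of_isArtinianTestAlgebra x.test
  refine ⟨n, ?_⟩
  have hloc : IsLocalHom (C.π x : C.R →+* x.A) := C.π_isLocalHom x
  have hmap : (maximalIdeal C.R ^ n).map (C.π x : C.R →+* x.A) ≤ maximalIdeal x.A ^ n := by
    rw [Ideal.map_pow]
    exact Ideal.pow_right_mono (Ideal.map_le_iff_le_comap.mpr fun a ha =>
      Ideal.mem_comap.mpr (map_nonunit (C.π x : C.R →+* x.A) a ha)) n
  intro u hu
  rw [RingHom.mem_ker]
  have h1 : (C.π x : C.R →+* x.A) u ∈ maximalIdeal x.A ^ n :=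
    hmap (Ideal.mem_map_of_mem _ hu)
  rw [hn] at h1
  simpa using h1

/-- Chevalley: the kernels of the `π x` are cofinal among the powers of the maximal ideal. -/
theorem exists_ker_π_le_pow [Nonempty (Pt D 𝒟)] [IsNoetherianRing 𝒪]
    (h𝒟 : IsDeformationCondition 𝒪 𝒟) (n : ℕ) :
    ∃ x : Pt D 𝒟, RingHom.ker (C.π x : C.R →+* x.A) ≤ maximalIdeal C.R ^ n := by
  obtain ⟨x, hx⟩ := chevalley (P := C.R)
    (fun x : Pt D 𝒟 => RingHom.ker (C.π x : C.R →+* x.A))
    (C.ker_π_directed h𝒟) (C.exists_pow_le_ker_π) n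
  refine ⟨x, ?_⟩
  rw [C.iInf_ker_π_eq_bot, bot_sup_eq] at hx
  exact hx

/-- Compatible families of elements of the points come from `R`. -/
theorem exists_of_compatible [Nonempty (Pt D 𝒟)] [IsNoetherianRing 𝒪]
    (h𝒟 : IsDeformationCondition 𝒪 𝒟) (a : ∀ x : Pt D 𝒟, x.A)
    (ha : ∀ (x y : Pt D 𝒟) (p : x.A →ₐ[𝒪] y.A), mapMat (p : x.A →+* y.A) x.r = y.r →
      p (a x) = a y) :
    ∃ u : C.R, ∀ x, C.π x u = a x := by
  choose b hb using fun x : Pt D 𝒟 => C.π_surjective x (a x)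
  have key : ∀ (z x : Pt D 𝒟) (p : z.A →ₐ[𝒪] x.A), mapMat (p : z.A →+* x.A) z.r = x.r →
      b z - b x ∈ RingHom.ker (C.π x : C.R →+* x.A) := by
    intro z x p h
    rw [RingHom.mem_ker]
    have h1 : C.π x (b z) = p (C.π z (b z)) := by
      rw [← C.π_natural z x p h]
      rfl
    show C.π x (b z - b x) = 0
    rw [map_sub, h1, hb z, hb x, ha z x p h, sub_self]
  obtain ⟨u, hu⟩ := exists_limit (P := C.R)
    (fun x : Pt D 𝒟 => RingHom.ker (C.π x : C.R →+* x.A)) (C.exists_pow_le_ker_π) b (by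
      intro x y
      obtain ⟨z, p₁, p₂, h1, h2⟩ := exists_join D h𝒟 x y
      exact ⟨z, le_inf (C.ker_π_le_of_map z x p₁ h1) (C.ker_π_le_of_map z y p₂ h2),
        key z x p₁ h1, key z y p₂ h2⟩)
  refine ⟨u, fun x => ?_⟩
  have h := hu x
  rw [RingHom.mem_ker] at h
  have h' : C.π x (u - b x) = 0 := h
  rw [map_sub, sub_eq_zero] at h'
  rw [h', hb x]

end PtCover

end Fermat.Agent.S53
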