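/-
S53 block RingArt (owner: helper39): the universal property for Artinian test algebras.
-/
import Fermat.Agent.S53.RingChev

set_option autoImplicit false

namespace Fermat.Agent.S53

open IsLocalRing GaloisRep

variable {𝒪 : Type} [CommRing 𝒪] [IsLocalRing 𝒪] {ρbar : ResidualGaloisRep (ResidueField 𝒪)}
  {D : RigidData 𝒪 ρbar}
  {𝒟 : ∀ ⦃A : Type⦄ [CommRing A] [IsLocalRing A] [Algebra 𝒪 A], GaloisRepAdic A → Prop}
  (C : PtCover D 𝒟)

namespace RingArt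

/-- A local ring homomorphism into a local ring whose maximal ideal satisfies `𝔪 ^ n = ⊥`
kills the `n`-th power of the maximal ideal of the source. -/
theorem map_eq_zero_of_mem_pow {A B : Type} [CommRing A] [IsLocalRing A] [CommRing B]
    [IsLocalRing B] (φ : A →+* B) (hφ : IsLocalHom φ) {n : ℕ}
    (hn : maximalIdeal B ^ n = ⊥) {a : A} (ha : a ∈ maximalIdeal A ^ n) : φ a = 0 := by
  have hmap : (maximalIdeal A ^ n).map φ ≤ maximalIdeal B ^ n := by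
    rw [Ideal.map_pow]
    exact Ideal.pow_right_mono (Ideal.map_le_iff_le_comap.mpr fun a ha =>
      Ideal.mem_comap.mpr (haveI := hφ; map_nonunit φ a ha)) n
  have h := hmap (Ideal.mem_map_of_mem φ ha)
  rw [hn] at h
  simpa using h

omit [IsLocalRing 𝒪] in
/-- `ev` commutes with push-forward (pointwise form of `ev_map`). -/
theorem ev_mapMat_apply {A B : Type} [CommRing A] [Algebra 𝒪 A] [CommRing B] [Algebra 𝒪 B]
    (φ : A →ₐ[𝒪] B) (r : Gal →* M2 A) (w : Pol 𝒪) :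
    ev (mapMat (φ : A →+* B) r) w = φ (ev (𝒪 := 𝒪) r w) := by
  rw [← ev_map]
  rfl

end RingArt

/-- Modulo any power of the maximal ideal, every element of `R` is a polynomial in the entries
of the universal matrix representation. -/
theorem PtCover.exists_ev_sub_mem_pow [Nonempty (Pt D 𝒟)] [IsNoetherianRing 𝒪]
    (h𝒟 : IsDeformationCondition 𝒪 𝒟) (ρu : Gal →* M2 C.R)
    (hρu : ∀ x : Pt D 𝒟, mapMat (C.π x : C.R →+* x.A) ρu = x.r) (n : ℕ) (u : C.R) :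
    ∃ w : Pol 𝒪, u - ev (𝒪 := 𝒪) ρu w ∈ maximalIdeal C.R ^ n := by
  obtain ⟨x, hx⟩ := C.exists_ker_π_le_pow h𝒟 n
  obtain ⟨w, hw⟩ := x.gen (C.π x u)
  refine ⟨w, hx ?_⟩
  rw [RingHom.mem_ker, map_sub, sub_eq_zero]
  have h1 : ev (𝒪 := 𝒪) x.r w = C.π x (ev (𝒪 := 𝒪) ρu w) := by
    rw [← hρu x]
    exact RingArt.ev_mapMat_apply (C.π x) ρu w
  show C.π x u = C.π x (ev (𝒪 := 𝒪) ρu w)
  rw [← h1, hw]

theorem PtCover.univMat_existsUnique [Nonempty (Pt D 𝒟)] [IsNoetherianRing 𝒪]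
    (h𝒟 : IsDeformationCondition 𝒪 𝒟) (ρu : Gal →* M2 C.R)
    (hρu : ∀ x : Pt D 𝒟, mapMat (C.π x : C.R →+* x.A) ρu = x.r)
    {B : Type} [CommRing B] [IsLocalRing B] [Algebra 𝒪 B] (hB : IsArtinianTestAlgebra 𝒪 B)
    (r : Gal →* M2 B) (hr : IsNLift D 𝒟 r) :
    ∃! φ : C.R →ₐ[𝒪] B, mapMat (φ : C.R →+* B) ρu = r := by
  -- existence: `r` comes from a point
  obtain ⟨x, ι, -, hι⟩ := exists_pt_of_isNLift D h𝒟 hB hr
  have hex : mapMat ((ι.comp (C.π x) : C.R →ₐ[𝒪] B) : C.R →+* B) ρu = r := by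
    have h1 : ((ι.comp (C.π x) : C.R →ₐ[𝒪] B) : C.R →+* B) =
        (ι : x.A →+* B).comp (C.π x : C.R →+* x.A) := rfl
    rw [h1, mapMat_comp, hρu x, hι]
  refine ⟨ι.comp (C.π x), hex, ?_⟩
  -- uniqueness: `R` is generated modulo `𝔪 ^ n` by the entries of `ρu`
  have huniq : ∀ φ : C.R →ₐ[𝒪] B, mapMat (φ : C.R →+* B) ρu = r →
      ∀ u : C.R, ∃ w : Pol 𝒪, φ u = ev (𝒪 := 𝒪) r w ∧
        (ι.comp (C.π x) : C.R →ₐ[𝒪] B) u = ev (𝒪 := 𝒪) r w := by
    intro φ hφ u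
    have : IsArtinianRing B := hB.isArtinian
    obtain ⟨n, hn⟩ := (isArtinianRing_iff_isNilpotent_maximalIdeal B).mp hB.isArtinian
    have hn' : maximalIdeal B ^ n = ⊥ := hn
    obtain ⟨w, hw⟩ := C.exists_ev_sub_mem_pow h𝒟 ρu hρu n u
    have key : ∀ ψ : C.R →ₐ[𝒪] B, mapMat (ψ : C.R →+* B) ρu = r → ψ u = ev (𝒪 := 𝒪) r w := by
      intro ψ hψ
      have hloc : IsLocalHom (ψ : C.R →+* B) :=
        isLocalHom_algHom_of_target hB.isLocalHom hB.residue_surjective ψ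
      have h0 := RingArt.map_eq_zero_of_mem_pow (ψ : C.R →+* B) hloc hn' hw
      have h1 : ψ (u - ev (𝒪 := 𝒪) ρu w) = 0 := h0
      rw [map_sub, sub_eq_zero] at h1
      rw [h1, ← hψ]
      exact (RingArt.ev_mapMat_apply ψ ρu w).symm
    exact ⟨w, key φ hφ, key _ hex⟩
  intro φ hφ
  apply AlgHom.ext
  intro u
  obtain ⟨w, h1, h2⟩ := huniq φ hφ u
  rw [h1, h2]

end Fermat.Agent.S53
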