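/-
S53 block RingIsD (owner: helper59): the universal matrix is of type `𝒟`.
-/
import Fermat.Agent.S53.RingChev

set_option autoImplicit false

namespace Fermat.Agent.S53

open IsLocalRing GaloisRep

variable {𝒪 : Type} [CommRing 𝒪] [IsLocalRing 𝒪] {ρbar : ResidualGaloisRep (ResidueField 𝒪)}
  {D : RigidData 𝒪 ρbar}
  {𝒟 : ∀ ⦃A : Type⦄ [CommRing A] [IsLocalRing A] [Algebra 𝒪 A], GaloisRepAdic A → Prop}
  (C : PtCover D 𝒟)

/-- A local homomorphism into a local ring with `𝔪 ^ n = 0` kills the `n`-th power of the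
maximal ideal of the source. -/
theorem RingIsD.pow_le_ker_of_isLocalHom {A B : Type} [CommRing A] [IsLocalRing A] [CommRing B]
    [IsLocalRing B] (q : A →+* B) (hq : IsLocalHom q) (n : ℕ)
    (hn : maximalIdeal B ^ n = ⊥) : maximalIdeal A ^ n ≤ RingHom.ker q := by
  intro u hu
  have hmap : (maximalIdeal A ^ n).map q ≤ maximalIdeal B ^ n := by
    rw [Ideal.map_pow]
    exact Ideal.pow_right_mono (Ideal.map_le_iff_le_comap.mpr fun a ha =>
      Ideal.mem_comap.mpr (haveI := hq; map_nonunit q a ha)) n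
  have h := hmap (Ideal.mem_map_of_mem q hu)
  rw [hn] at h
  exact (RingHom.mem_ker).mpr ((Submodule.mem_bot B).mp h)

omit [IsLocalRing 𝒪] in
/-- `𝒟` only depends on the matrix representation, not on the proof of continuity (a
transport helper). -/
theorem RingIsD.isD_congr {A : Type} [CommRing A] [IsLocalRing A] [Algebra 𝒪 A]
    {r r' : Gal →* M2 A} (h : r = r') (hr : IsContMat r) (hr' : IsContMat r')
    (hd : 𝒟 (ofMat r hr)) : 𝒟 (ofMat r' hr') := by
  subst h
  exact hd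

theorem PtCover.univMat_isD [Nonempty (Pt D 𝒟)] [IsNoetherianRing 𝒪]
    (h𝒟 : IsDeformationCondition 𝒪 𝒟) (ρu : Gal →* M2 C.R)
    (hρu : ∀ x : Pt D 𝒟, mapMat (C.π x : C.R →+* x.A) ρu = x.r) (hcont : IsContMat ρu) :
    𝒟 (ofMat ρu hcont) := by
  refine (h𝒟.iff_forall_surjective C.isLocalHom_algebraMap_R C.residue_surjective_R
    (ofMat ρu hcont)).mpr ?_
  intro B _ _ _ hB q hq hqs
  -- the maximal ideal of `B` is nilpotent, so `q` kills a power of the maximal ideal of `R`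
  obtain ⟨n, hn⟩ := isNilpotent_maximalIdeal_of_isArtinianTestAlgebra hB
  have hn' : maximalIdeal B ^ n = ⊥ := hn
  -- hence `q` factors through a point
  obtain ⟨x, hx⟩ := C.exists_ker_π_le_pow h𝒟 n
  have hker : RingHom.ker (C.π x).toRingHom ≤ RingHom.ker q.toRingHom := fun u hu =>
    RingIsD.pow_le_ker_of_isLocalHom (q : C.R →+* B) hq n hn' (hx hu)
  have hq' : (AlgHom.liftOfSurjective (C.π x) (C.π_surjective x) q hker).comp (C.π x) = q :=
    AlgHom.liftOfSurjective_comp _ _ _ _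
  set q' : x.A →ₐ[𝒪] B := AlgHom.liftOfSurjective (C.π x) (C.π_surjective x) q hker with hq'def
  have hmat : mapMat (q' : x.A →+* B) x.r = mapMat (q : C.R →+* B) ρu := by
    rw [← hρu x, ← mapMat_comp]
    congr 1
    rw [← hq']
    rfl
  have hN : IsNLift D 𝒟 (mapMat (q' : x.A →+* B) x.r) :=
    IsNLift.map D h𝒟 x.test hB q' x.nlift
  have h1 : 𝒟 (ofMat (mapMat (q : C.R →+* B) ρu) (hcont.map _ hq)) :=
    RingIsD.isD_congr hmat hN.cont _ hN.isD
  obtain ⟨e⟩ := ofMat_baseChangeAlong_isEquiv (q : C.R →+* B) hq ρu hcont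
  exact h𝒟.of_isEquiv hB ⟨e.symm⟩ h1

end Fermat.Agent.S53
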