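/-
S53 block RingProps (owner: helper40): the universal matrix is a continuous normalised lift.
-/
import Fermat.Agent.S53.RingChev

set_option autoImplicit false

namespace Fermat.Agent.S53

open IsLocalRing GaloisRep

variable {𝒪 : Type} [CommRing 𝒪] [IsLocalRing 𝒪] {ρbar : ResidualGaloisRep (ResidueField 𝒪)}
  {D : RigidData 𝒪 ρbar}
  {𝒟 : ∀ ⦃A : Type⦄ [CommRing A] [IsLocalRing A] [Algebra 𝒪 A], GaloisRepAdic A → Prop}
  (C : PtCover D 𝒟)

/-- continuity, `LiftsC`, `Normalized` for the universal matrix. -/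
theorem PtCover.univMat_props [Nonempty (Pt D 𝒟)] [IsNoetherianRing 𝒪]
    (h𝒟 : IsDeformationCondition 𝒪 𝒟) (ρu : Gal →* M2 C.R)
    (hρu : ∀ x : Pt D 𝒟, mapMat (C.π x : C.R →+* x.A) ρu = x.r) :
    IsContMat ρu ∧ LiftsC D ρu ∧ Normalized D ρu := by
  refine ⟨?_, ?_, ?_, ?_, ?_⟩
  · -- continuity
    intro n
    obtain ⟨x, hx⟩ := C.exists_ker_π_le_pow h𝒟 n
    obtain ⟨L, hL, hL'⟩ := (isContMat_iff_of_isNilpotent
      (isNilpotent_maximalIdeal_of_isArtinianTestAlgebra x.test) x.r).mp x.nlift.cont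
    refine ⟨L, hL, fun σ hσ i j => hx ?_⟩
    rw [RingHom.mem_ker]
    have h1 : x.r σ = 1 := hL' σ hσ
    have h2 : (C.π x : C.R →+* x.A) (ρu σ i j) = x.r σ i j := by
      rw [← hρu x, mapMat_apply]
    rw [Matrix.sub_apply, map_sub, h2, h1]
    by_cases hij : i = j
    · subst hij; simp
    · simp [Matrix.one_apply_ne hij]
  · -- LiftsC
    obtain ⟨x⟩ := ‹Nonempty (Pt D 𝒟)›
    exact liftsC_of_mapMat D (C.π x) (C.π_isLocalHom x) ρu (by rw [hρu x]; exact x.nlift.lifts)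
  · -- eMat 1 0 = 0
    apply C.π_jointly_injective
    intro x
    rw [map_zero, ← eMat_mapMat D (C.π x) ρu 1 0, hρu x]
    exact x.nlift.norm.1
  · apply C.π_jointly_injective
    intro x
    rw [map_zero, ← fMat_mapMat D (C.π x) ρu 0 0, hρu x]
    exact x.nlift.norm.2.1
  · apply C.π_jointly_injective
    intro x
    rw [map_one, ← fMat_mapMat D (C.π x) ρu 1 0, hρu x]
    exact x.nlift.norm.2.2

end Fermat.Agent.S53
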