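/-
S53 block RingUniv (owner: helper89): the universal matrix representation over `R`.
-/
import Fermat.Agent.S53.RingChev

set_option autoImplicit false

namespace Fermat.Agent.S53

open IsLocalRing GaloisRep

variable {𝒪 : Type} [CommRing 𝒪] [IsLocalRing 𝒪] {ρbar : ResidualGaloisRep (ResidueField 𝒪)}
  {D : RigidData 𝒪 ρbar}
  {𝒟 : ∀ ⦃A : Type⦄ [CommRing A] [IsLocalRing A] [Algebra 𝒪 A], GaloisRepAdic A → Prop}
  (C : PtCover D 𝒟)

theorem PtCover.exists_univMat [Nonempty (Pt D 𝒟)] [IsNoetherianRing 𝒪]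
    (h𝒟 : IsDeformationCondition 𝒪 𝒟) :
    ∃ ρu : Gal →* M2 C.R, ∀ x : Pt D 𝒟, mapMat (C.π x : C.R →+* x.A) ρu = x.r := by
  classical
  -- entrywise lifts
  have hex : ∀ (σ : Gal) (i j : Fin 2), ∃ u : C.R, ∀ x : Pt D 𝒟, C.π x u = x.r σ i j := by
    intro σ i j
    refine C.exists_of_compatible h𝒟 (fun x => x.r σ i j) ?_
    intro x y p hp
    have h1 := congrFun (congrFun (DFunLike.congr_fun hp σ) i) j
    rw [mapMat_apply] at h1
    exact h1
  choose u hu using hex
  have hone : (Matrix.of fun i j => u 1 i j : M2 C.R) = 1 := by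
    ext i j
    apply C.π_jointly_injective
    intro x
    rw [Matrix.of_apply, hu, map_one]
    by_cases hij : i = j
    · subst hij; simp
    · simp [Matrix.one_apply_ne hij]
  have hmul : ∀ σ τ : Gal, (Matrix.of fun i j => u (σ * τ) i j : M2 C.R) =
      (Matrix.of fun i j => u σ i j) * (Matrix.of fun i j => u τ i j) := by
    intro σ τ
    ext i j
    apply C.π_jointly_injective
    intro x
    rw [Matrix.of_apply, hu, map_mul, Matrix.mul_apply, Matrix.mul_apply, map_sum]
    refine Finset.sum_congr rfl fun k _ => ?_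
    rw [map_mul, Matrix.of_apply, Matrix.of_apply, hu, hu]
  refine ⟨{ toFun := fun σ => Matrix.of fun i j => u σ i j
            map_one' := hone
            map_mul' := hmul }, fun x => ?_⟩
  ext σ i j
  rw [mapMat_apply]
  exact hu σ i j x

end Fermat.Agent.S53
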