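/-
S53 block Ring (owner: helper53): the universal ring for Artinian test algebras.
-/
import Fermat.Agent.S53.RingDef
import Fermat.Agent.S53.RingUniv
import Fermat.Agent.S53.RingProps
import Fermat.Agent.S53.RingIsD
import Fermat.Agent.S53.RingArt
import Fermat.Agent.S53.CoverPts
import Fermat.Agent.S53.BasePoint

set_option autoImplicit false

namespace Fermat.Agent.S53

open IsLocalRing GaloisRep

theorem exists_artUniv {𝒪 : Type} [CommRing 𝒪] [IsLocalRing 𝒪] [IsNoetherianRing 𝒪]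
    [IsAdicComplete (maximalIdeal 𝒪) 𝒪] {ρbar : ResidualGaloisRep (ResidueField 𝒪)}
    (D : RigidData 𝒪 ρbar)
    {𝒟 : ∀ ⦃A : Type⦄ [CommRing A] [IsLocalRing A] [Algebra 𝒪 A], GaloisRepAdic A → Prop}
    (h𝒟 : IsDeformationCondition 𝒪 𝒟) (hfin : TangentFinite 𝒪 ρbar 𝒟)
    (hbar : 𝒟 (GaloisRepAdic.ofResidualGaloisRep ρbar)) :
    ∃ (R : Type) (_ : CommRing R) (_ : IsLocalRing R) (_ : IsNoetherianRing R)
      (_ : IsAdicComplete (maximalIdeal R) R) (_ : Algebra 𝒪 R)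
      (_ : IsLocalHom (algebraMap 𝒪 R)),
      Function.Surjective (residue R ∘ algebraMap 𝒪 R) ∧
      ∃ ρu : Gal →* M2 R, IsNLift D 𝒟 ρu ∧
        ∀ (B : Type) [CommRing B] [IsLocalRing B] [Algebra 𝒪 B], IsArtinianTestAlgebra 𝒪 B →
          ∀ r : Gal →* M2 B, IsNLift D 𝒟 r →
            ∃! φ : R →ₐ[𝒪] B, mapMat (φ : R →+* B) ρu = r := by
  obtain ⟨r₀, hr₀, hl₀, hn₀, hd₀⟩ := exists_basePoint h𝒟 hbar D
  obtain ⟨x₀, -⟩ := exists_pt_of_isNLift D h𝒟 isArtinianTestAlgebra_residueField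
    (r := r₀) ⟨hr₀, hl₀, hn₀, hd₀⟩
  haveI : Nonempty (Pt D 𝒟) := ⟨x₀⟩
  obtain ⟨C⟩ := exists_ptCover D h𝒟 hfin
  obtain ⟨ρu, hρu⟩ := C.exists_univMat h𝒟
  exact ⟨C.R, inferInstance, inferInstance, inferInstance, inferInstance, inferInstance,
    C.isLocalHom_algebraMap_R, C.residue_surjective_R, ρu,
    ⟨(C.univMat_props h𝒟 ρu hρu).1, (C.univMat_props h𝒟 ρu hρu).2.1,
      (C.univMat_props h𝒟 ρu hρu).2.2, C.univMat_isD h𝒟 ρu hρu _⟩,
    fun B _ _ _ hB r hr => C.univMat_existsUnique h𝒟 ρu hρu hB r hr⟩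

end Fermat.Agent.S53
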