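/-
S53 (universal deformation ring) -- the universal matrix representation as a limit of a
compatible family of matrix representations over quotients.
Owner: helper34.  Everything lives in `namespace Fermat.Agent.S53`.
-/
import Fermat.Agent.S53.Defs
import Fermat.Agent.S53.Chevalley

set_option autoImplicit false

noncomputable section

namespace Fermat.Agent.S53

open IsLocalRing

section Complete

/-- A surjective image of a complete noetherian local ring is complete (for the maximal-adic
topology), provided it is local. -/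
theorem isAdicComplete_of_surjective {P R : Type*} [CommRing P] [IsLocalRing P]
    [IsAdicComplete (maximalIdeal P) P] [CommRing R] [IsLocalRing R] [IsNoetherianRing R]
    (π : P →+* R) (hπ : Function.Surjective π) : IsAdicComplete (maximalIdeal R) R := by
  have hloc : IsLocalHom π := IsLocalHom.of_surjective π hπ
  have hmap : ∀ n : ℕ, (maximalIdeal P ^ n).map π = maximalIdeal R ^ n := by
    intro n
    rw [Ideal.map_pow]
    congr 1
    apply le_antisymm
    · exact Ideal.map_le_iff_le_comap.mpr fun a ha =>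
        Ideal.mem_comap.mpr (map_nonunit π a ha)
    · intro x hx
      obtain ⟨p, rfl⟩ := hπ x
      refine Ideal.mem_map_of_mem π ?_
      intro hp
      exact hx (hp.map π)
  refine { toIsHausdorff := inferInstance, toIsPrecomplete := ⟨fun f hf => ?_⟩ }
  -- lift the Cauchy sequence
  have hdiff : ∀ n, ∃ d : P, d ∈ maximalIdeal P ^ n ∧ π d = f (n + 1) - f n := by
    intro n
    have h1 : f (n + 1) - f n ∈ maximalIdeal R ^ n := by
      have := hf (Nat.le_succ n)
      rw [SModEq.sub_mem, smul_eq_mul, Ideal.mul_top] at this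
      have h2 : f (n + 1) - f n = -(f n - f (n + 1)) := by ring
      rw [h2]; exact (Ideal.neg_mem_iff _).mpr this
    rw [← hmap n] at h1
    obtain ⟨d, hd, hd'⟩ := (Ideal.mem_map_iff_of_surjective π hπ).mp h1
    exact ⟨d, hd, hd'⟩
  choose d hd hd' using hdiff
  obtain ⟨g0, hg0⟩ := hπ (f 0)
  let g : ℕ → P := fun n => g0 + ∑ l ∈ Finset.range n, d l
  have hg : ∀ n, π (g n) = f n := by
    intro n
    induction n with
    | zero => simp [g, hg0]
    | succ n ih =>
      have : g (n + 1) = g n + d n := by simp [g, Finset.sum_range_succ, add_assoc]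
      rw [this, map_add, ih, hd']; ring
  have hg_le : ∀ k l, k ≤ l → g l - g k ∈ maximalIdeal P ^ k := by
    intro k l hkl
    induction l, hkl using Nat.le_induction with
    | base => simp
    | succ l hkl ih =>
      have h1 : g (l + 1) - g k = d l + (g l - g k) := by
        simp [g, Finset.sum_range_succ]; ring
      rw [h1]
      exact Ideal.add_mem _ (Ideal.pow_le_pow_right hkl (hd l)) ih
  have hgc : ∀ {m n : ℕ}, m ≤ n →
      g m ≡ g n [SMOD (maximalIdeal P ^ m • ⊤ : Submodule P P)] := by
    intro m n hmn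
    rw [SModEq.sub_mem, smul_eq_mul, Ideal.mul_top]
    have h' : g m - g n = -(g n - g m) := by ring
    rw [h']
    exact (Ideal.neg_mem_iff _).mpr (hg_le m n hmn)
  obtain ⟨L, hL⟩ := IsPrecomplete.prec (I := maximalIdeal P) (M := P) inferInstance hgc
  refine ⟨π L, fun n => ?_⟩
  have h1 := hL n
  rw [SModEq.sub_mem, smul_eq_mul, Ideal.mul_top] at h1 ⊢
  rw [← hg n, ← map_sub, ← hmap n]
  exact Ideal.mem_map_of_mem π h1

end Complete

section LimitRep

variable {R : Type} [CommRing R] [IsLocalRing R] [IsNoetherianRing R]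
  [IsAdicComplete (maximalIdeal R) R]
  {ι : Type*} [Nonempty ι] {A : ι → Type} [∀ x, CommRing (A x)]
  (θ : ∀ x, R →+* A x)

omit [IsLocalRing R] [IsNoetherianRing R] [IsAdicComplete (maximalIdeal R) R] [Nonempty ι] in
/-- Elements of `R` are determined by their images under a family of ring homomorphisms whose
kernels intersect trivially. -/
theorem eq_of_forall_proj_eq (hbot : ⨅ x, RingHom.ker (θ x) = ⊥) {a b : R}
    (h : ∀ x, θ x a = θ x b) : a = b := by
  have : a - b ∈ ⨅ x, RingHom.ker (θ x) := by
    rw [Ideal.mem_iInf]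
    intro x
    rw [RingHom.mem_ker, map_sub, h x, sub_self]
  rw [hbot, Ideal.mem_bot, sub_eq_zero] at this
  exact this

/-- Chevalley's lemma for a jointly injective, downward directed family of open quotients. -/
theorem exists_ker_le_pow (hbot : ⨅ x, RingHom.ker (θ x) = ⊥)
    (hdir : ∀ x y, ∃ z, RingHom.ker (θ z) ≤ RingHom.ker (θ x) ⊓ RingHom.ker (θ y))
    (hopen : ∀ x, ∃ n, maximalIdeal R ^ n ≤ RingHom.ker (θ x)) (n : ℕ) :
    ∃ x, RingHom.ker (θ x) ≤ maximalIdeal R ^ n := by
  obtain ⟨x, hx⟩ := chevalley (fun x => RingHom.ker (θ x)) hdir hopen n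
  refine ⟨x, ?_⟩
  rw [hbot, bot_sup_eq] at hx
  exact hx

variable (r : ∀ x, Gal →* M2 (A x))

/-- The compatibility condition between the members of a family of matrix representations
over quotients of `R`. -/
def CompatFamily : Prop :=
  ∀ x y, ∃ z, RingHom.ker (θ z) ≤ RingHom.ker (θ x) ⊓ RingHom.ker (θ y) ∧
    (∀ (p : R) (σ : Gal) (i j : Fin 2), θ z p = r z σ i j → θ x p = r x σ i j) ∧
    (∀ (p : R) (σ : Gal) (i j : Fin 2), θ z p = r z σ i j → θ y p = r y σ i j)

omit [IsLocalRing R] [IsNoetherianRing R] [IsAdicComplete (maximalIdeal R) R] [Nonempty ι] in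
theorem CompatFamily.directed {θ : ∀ x, R →+* A x} {r : ∀ x, Gal →* M2 (A x)}
    (h : CompatFamily θ r) :
    ∀ x y, ∃ z, RingHom.ker (θ z) ≤ RingHom.ker (θ x) ⊓ RingHom.ker (θ y) :=
  fun x y => (h x y).imp fun _ hz => hz.1

/-- Entrywise existence of the limit. -/
theorem exists_entry_limit (hθ : ∀ x, Function.Surjective (θ x))
    (hopen : ∀ x, ∃ n, maximalIdeal R ^ n ≤ RingHom.ker (θ x))
    (hcompat : CompatFamily θ r) (σ : Gal) (i j : Fin 2) :
    ∃ p : R, ∀ x, θ x p = r x σ i j := by
  choose a ha using fun x => hθ x (r x σ i j)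
  have hlim := exists_limit (fun x => RingHom.ker (θ x)) hopen a (by
    intro x y
    obtain ⟨z, hz, hzx, hzy⟩ := hcompat x y
    refine ⟨z, hz, ?_, ?_⟩
    · rw [RingHom.mem_ker, map_sub, hzx (a z) σ i j (ha z), ha x, sub_self]
    · rw [RingHom.mem_ker, map_sub, hzy (a z) σ i j (ha z), ha y, sub_self])
  obtain ⟨p, hp⟩ := hlim
  refine ⟨p, fun x => ?_⟩
  have := hp x
  rw [RingHom.mem_ker, map_sub, sub_eq_zero] at this
  rw [this, ha x]

/-- **The universal matrix representation**: a compatible family of matrix representations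
over a jointly injective directed family of open quotients of a complete noetherian local ring
`R` is induced by a unique matrix representation over `R`. -/
theorem existsUnique_limitRep (hθ : ∀ x, Function.Surjective (θ x))
    (hbot : ⨅ x, RingHom.ker (θ x) = ⊥)
    (hopen : ∀ x, ∃ n, maximalIdeal R ^ n ≤ RingHom.ker (θ x))
    (hcompat : CompatFamily θ r) :
    ∃! ρ : Gal →* M2 R, ∀ x, mapMat (θ x) ρ = r x := by
  choose e he using fun (σ : Gal) (i j : Fin 2) => exists_entry_limit θ r hθ hopen hcompat σ i j
  have hmat : ∀ (M N : M2 R), (∀ x, (θ x).mapMatrix M = (θ x).mapMatrix N) → M = N := by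
    intro M N h
    ext i j
    apply eq_of_forall_proj_eq θ hbot
    intro x
    have := congrFun (congrFun (h x) i) j
    simpa using this
  have hmap : ∀ x σ, (θ x).mapMatrix (Matrix.of (e σ) : M2 R) = r x σ := by
    intro x σ
    ext i j
    simp [he σ i j x]
  refine ⟨{ toFun := fun σ => Matrix.of (e σ)
            map_one' := ?_
            map_mul' := ?_ }, ?_, ?_⟩
  · apply hmat
    intro x
    rw [hmap, map_one, map_one]
  · intro σ τ
    apply hmat
    intro x
    rw [map_mul, hmap, hmap, hmap, map_mul]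
  · intro x
    ext σ i j
    simp [mapMat_apply, he σ i j x]
  · intro ρ' hρ'
    ext σ i j
    apply eq_of_forall_proj_eq θ hbot
    intro x
    have h1 : θ x (ρ' σ i j) = r x σ i j := by
      have := hρ' x
      rw [← this]; rfl
    rw [h1]
    simp [he σ i j x]

/-- Continuity of the limit representation: if every member of the family is trivial on the
Galois group of a finite extension, the limit is adically continuous. -/
theorem isContMat_of_forall_proj (hbot : ⨅ x, RingHom.ker (θ x) = ⊥)
    (hdir : ∀ x y, ∃ z, RingHom.ker (θ z) ≤ RingHom.ker (θ x) ⊓ RingHom.ker (θ y))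
    (hopen : ∀ x, ∃ n, maximalIdeal R ^ n ≤ RingHom.ker (θ x))
    (hfin : ∀ x, ∃ L : IntermediateField ℚ (AlgebraicClosure ℚ), FiniteDimensional ℚ L ∧
      ∀ σ : Gal, (∀ y ∈ L, σ y = y) → r x σ = 1)
    (ρ : Gal →* M2 R) (hρ : ∀ x, mapMat (θ x) ρ = r x) : IsContMat ρ := by
  intro n
  obtain ⟨x, hx⟩ := exists_ker_le_pow θ hbot hdir hopen n
  obtain ⟨L, hL, hσ⟩ := hfin x
  refine ⟨L, hL, fun σ hσL i j => hx ?_⟩
  rw [RingHom.mem_ker]
  have h1 : θ x (ρ σ i j) = r x σ i j := by
    rw [← hρ x]; rfl
  rw [Matrix.sub_apply, map_sub, h1, hσ σ hσL]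
  by_cases hij : i = j
  · subst hij; simp
  · simp [Matrix.one_apply_ne hij]

end LimitRep

end Fermat.Agent.S53

end
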