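/-
S53 (universal deformation ring) -- the universal ring `P ⧸ ⨅ ker θ_x` of a directed family of
surjections `θ_x : P → A_x` and the universal matrix representation over it (abstract version).
Owner: helper27.  Everything lives in `namespace Fermat.Agent.S53`.
-/
import Mathlib
import Fermat.Agent.S53.Defs
import Fermat.Agent.S53.Chevalley
import Fermat.Agent.S53.TestAlg
import Fermat.Agent.S53.CompleteLift
import Fermat.Prelude.Thm_IsLocalRing_isAdicComplete_of_module_finite

set_option autoImplicit false

noncomputable section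

namespace Fermat.Agent.S53

open IsLocalRing

section UnivMat

variable {𝒪 P : Type} [CommRing 𝒪] [CommRing P] [Algebra 𝒪 P]
  {ι : Sort*} {A : ι → Type} [∀ x, CommRing (A x)] [∀ x, Algebra 𝒪 (A x)]
  (θ : ∀ x, P →ₐ[𝒪] A x)

/-- The intersection of the kernels of the family `θ`. -/
def kerInf : Ideal P := ⨅ x, RingHom.ker (θ x).toRingHom

lemma mem_kerInf {p : P} : p ∈ kerInf θ ↔ ∀ x, θ x p = 0 := by
  simp [kerInf, RingHom.mem_ker]

/-- The universal ring of the family: `P` modulo the intersection of the kernels. -/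
abbrev UnivRing : Type := P ⧸ kerInf θ

/-- The quotient map `P → UnivRing θ`. -/
def univMk : P →ₐ[𝒪] UnivRing θ := Ideal.Quotient.mkₐ 𝒪 (kerInf θ)

lemma univMk_surjective : Function.Surjective (univMk θ) := Ideal.Quotient.mk_surjective

lemma univMk_eq_zero_iff {p : P} : univMk θ p = 0 ↔ ∀ x, θ x p = 0 := by
  rw [← mem_kerInf]
  exact Ideal.Quotient.eq_zero_iff_mem

/-- The projection of the universal ring to the `x`-th algebra. -/
def univProj (x : ι) : UnivRing θ →ₐ[𝒪] A x :=
  Ideal.Quotient.liftₐ (kerInf θ) (θ x) fun _ ha => (mem_kerInf θ).mp ha x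

@[simp] lemma univProj_univMk (x : ι) (p : P) : univProj θ x (univMk θ p) = θ x p := rfl

lemma univProj_comp_univMk (x : ι) : (univProj θ x).comp (univMk θ) = θ x := rfl

/-- The projections are jointly injective. -/
theorem univProj_jointly_injective {a b : UnivRing θ}
    (h : ∀ x, univProj θ x a = univProj θ x b) : a = b := by
  obtain ⟨p, rfl⟩ := univMk_surjective θ a
  obtain ⟨q, rfl⟩ := univMk_surjective θ b
  rw [← sub_eq_zero, ← map_sub, univMk_eq_zero_iff]
  intro x
  have := h x
  simp only [univProj_univMk] at this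
  rw [map_sub, this, sub_self]

lemma univProj_surjective (hsurj : ∀ x, Function.Surjective (θ x)) (x : ι) :
    Function.Surjective (univProj θ x) := fun a => by
  obtain ⟨p, rfl⟩ := hsurj x a
  exact ⟨univMk θ p, rfl⟩

lemma ker_univProj (x : ι) :
    RingHom.ker (univProj θ x).toRingHom =
      (RingHom.ker (θ x).toRingHom).map (univMk θ).toRingHom := by
  ext a
  obtain ⟨p, rfl⟩ := univMk_surjective θ a
  constructor
  · intro h
    exact Ideal.mem_map_of_mem _ (show p ∈ RingHom.ker (θ x).toRingHom from h)
  · intro h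
    rw [Ideal.mem_map_iff_of_surjective (univMk θ).toRingHom (univMk_surjective θ)] at h
    obtain ⟨q, hq, hqp⟩ := h
    have h1 : univProj θ x (univMk θ q) = univProj θ x (univMk θ p) := congrArg _ hqp
    simp only [univProj_univMk] at h1
    show θ x p = 0
    rw [← h1]
    exact hq


/-! ### The universal matrix representation -/

/-- Uniqueness of the universal matrix representation. -/
theorem univMat_unique {ρ₁ ρ₂ : Gal →* M2 (UnivRing θ)}
    (h : ∀ x, mapMat (univProj θ x).toRingHom ρ₁ = mapMat (univProj θ x).toRingHom ρ₂) :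
    ρ₁ = ρ₂ := by
  ext σ i j
  apply univProj_jointly_injective θ
  intro x
  have := congrArg (fun ρ : Gal →* M2 (A x) => ρ σ i j) (h x)
  simpa using this


section Exists

variable [IsLocalRing P] [IsNoetherianRing P] [IsAdicComplete (maximalIdeal P) P] [Nonempty ι]
  (r : ∀ x, Gal →* M2 (A x))

/-- Compatibility of a family of matrix representations `r x` over the algebras `A x` along the
directed family `θ`: any two indices are dominated by a third one, compatibly with the `r`'s. -/
def DirectedCompat : Prop :=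
  ∀ x y, ∃ z, RingHom.ker (θ z).toRingHom ≤ RingHom.ker (θ x).toRingHom ⊓ RingHom.ker (θ y).toRingHom ∧
    ∀ (p : P) (σ : Gal) (i j : Fin 2), θ z p = r z σ i j → θ x p = r x σ i j ∧ θ y p = r y σ i j

include θ in
/-- Entrywise existence of the limit. -/
theorem exists_univ_entry (hsurj : ∀ x, Function.Surjective (θ x))
    (hopen : ∀ x, ∃ n, maximalIdeal P ^ n ≤ RingHom.ker (θ x).toRingHom)
    (hdir : DirectedCompat θ r) (σ : Gal) (i j : Fin 2) :
    ∃ p : P, ∀ x, θ x p = r x σ i j := by
  choose a ha using fun x => hsurj x (r x σ i j)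
  have hcompat : ∀ x y, ∃ z, RingHom.ker (θ z).toRingHom ≤
      RingHom.ker (θ x).toRingHom ⊓ RingHom.ker (θ y).toRingHom ∧
      a z - a x ∈ RingHom.ker (θ x).toRingHom ∧ a z - a y ∈ RingHom.ker (θ y).toRingHom := by
    intro x y
    obtain ⟨z, hz, hzc⟩ := hdir x y
    obtain ⟨h1, h2⟩ := hzc (a z) σ i j (ha z)
    refine ⟨z, hz, ?_, ?_⟩
    · show θ x (a z - a x) = 0
      rw [map_sub, h1, ha x, sub_self]
    · show θ y (a z - a y) = 0
      rw [map_sub, h2, ha y, sub_self]
  obtain ⟨p, hp⟩ := exists_limit (fun x => RingHom.ker (θ x).toRingHom) hopen a hcompat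
  refine ⟨p, fun x => ?_⟩
  have h : θ x (p - a x) = 0 := hp x
  rw [map_sub, sub_eq_zero] at h
  rw [h, ha x]

/-- **Existence of the universal matrix representation** over `UnivRing θ`. -/
theorem exists_univMat (hsurj : ∀ x, Function.Surjective (θ x))
    (hopen : ∀ x, ∃ n, maximalIdeal P ^ n ≤ RingHom.ker (θ x).toRingHom)
    (hdir : DirectedCompat θ r) :
    ∃ ρu : Gal →* M2 (UnivRing θ), ∀ x, mapMat (univProj θ x).toRingHom ρu = r x := by
  choose e he using fun σ i j => exists_univ_entry θ r hsurj hopen hdir σ i j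
  let f : Gal → M2 (UnivRing θ) := fun σ => Matrix.of fun i j => univMk θ (e σ i j)
  have hf : ∀ x σ i j, univProj θ x (f σ i j) = r x σ i j := fun x σ i j => he σ i j x
  have hf' : ∀ x σ, (univProj θ x).toRingHom.mapMatrix (f σ) = r x σ := by
    intro x σ
    ext i j
    exact hf x σ i j
  have hinj : ∀ M N : M2 (UnivRing θ),
      (∀ x, (univProj θ x).toRingHom.mapMatrix M = (univProj θ x).toRingHom.mapMatrix N) →
      M = N := by
    intro M N h
    ext i j
    apply univProj_jointly_injective θ
    intro x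
    have := congrFun (congrFun (h x) i) j
    exact this
  refine ⟨{ toFun := f, map_one' := ?_, map_mul' := ?_ }, ?_⟩
  · apply hinj
    intro x
    rw [hf', map_one, map_one]
  · intro σ τ
    apply hinj
    intro x
    rw [map_mul, hf', hf', hf', map_mul]
  · intro x
    ext σ i j
    exact hf x σ i j

end Exists


/-! ### Ring-theoretic properties of the universal ring -/

section Local

variable [IsLocalRing P] [Nonempty ι] [∀ x, Nontrivial (A x)]

include θ in
lemma kerInf_ne_top : kerInf θ ≠ ⊤ := by
  intro h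
  obtain ⟨x⟩ := ‹Nonempty ι›
  have h1 : (1 : P) ∈ kerInf θ := h ▸ Submodule.mem_top
  have h2 := (mem_kerInf θ).mp h1 x
  rw [map_one] at h2
  exact one_ne_zero h2

lemma univRing_nontrivial : Nontrivial (UnivRing θ) :=
  Ideal.Quotient.nontrivial_iff.mpr (kerInf_ne_top θ)

/-- The universal ring is local. -/
theorem univRing_isLocalRing : IsLocalRing (UnivRing θ) :=
  haveI := univRing_nontrivial θ
  IsLocalRing.of_surjective' (Ideal.Quotient.mk (kerInf θ)) Ideal.Quotient.mk_surjective

/-- The quotient map is a local homomorphism. -/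
theorem univMk_isLocalHom :
    letI := univRing_isLocalRing θ
    IsLocalHom (univMk θ).toRingHom :=
  haveI := univRing_nontrivial θ
  IsLocalHom.of_surjective _ (univMk_surjective θ)

/-- The maximal ideal of the universal ring is the image of the maximal ideal of `P`. -/
theorem maximalIdeal_univRing :
    letI := univRing_isLocalRing θ
    maximalIdeal (UnivRing θ) = (maximalIdeal P).map (univMk θ).toRingHom := by
  letI := univRing_isLocalRing θ
  haveI := univMk_isLocalHom θ
  ext a
  obtain ⟨p, rfl⟩ := univMk_surjective θ a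
  rw [Ideal.mem_map_iff_of_surjective (univMk θ).toRingHom (univMk_surjective θ)]
  constructor
  · intro h
    refine ⟨p, ?_, rfl⟩
    rw [mem_maximalIdeal, mem_nonunits_iff] at h ⊢
    exact fun hp => h (hp.map (univMk θ).toRingHom)
  · rintro ⟨q, hq, hqp⟩
    rw [← hqp]
    rw [mem_maximalIdeal, mem_nonunits_iff] at hq ⊢
    exact fun hu => hq (isUnit_of_map_unit (univMk θ).toRingHom q hu)

theorem maximalIdeal_univRing_pow (n : ℕ) :
    letI := univRing_isLocalRing θ
    maximalIdeal (UnivRing θ) ^ n = (maximalIdeal P ^ n).map (univMk θ).toRingHom := by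
  letI := univRing_isLocalRing θ
  rw [maximalIdeal_univRing θ, Ideal.map_pow]

/-- The universal ring is adically complete (w.r.t. its maximal ideal) when `P` is. -/
theorem univRing_isAdicComplete [IsNoetherianRing P] [IsAdicComplete (maximalIdeal P) P] :
    letI := univRing_isLocalRing θ
    IsAdicComplete (maximalIdeal (UnivRing θ)) (UnivRing θ) := by
  letI := univRing_isLocalRing θ
  haveI : IsLocalHom (algebraMap P (UnivRing θ)) := univMk_isLocalHom θ
  exact IsLocalRing.isAdicComplete_of_module_finite (𝒪 := P) (T := UnivRing θ)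

/-- The structure map `𝒪 → UnivRing θ` is local if `𝒪 → P` is. -/
theorem univRing_algebraMap_isLocalHom [IsLocalRing 𝒪] (h : IsLocalHom (algebraMap 𝒪 P)) :
    letI := univRing_isLocalRing θ
    IsLocalHom (algebraMap 𝒪 (UnivRing θ)) := by
  letI := univRing_isLocalRing θ
  haveI := univMk_isLocalHom θ
  refine ⟨fun c hc => ?_⟩
  have h1 : IsUnit ((univMk θ).toRingHom (algebraMap 𝒪 P c)) := by
    have : (univMk θ).toRingHom (algebraMap 𝒪 P c) = algebraMap 𝒪 (UnivRing θ) c :=
      (univMk θ).commutes c
    rw [this]; exact hc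
  exact h.map_nonunit c (isUnit_of_map_unit (univMk θ).toRingHom _ h1)

/-- Residue-surjectivity passes from `P` to the universal ring. -/
theorem univRing_residue_surjective
    (h : Function.Surjective (residue P ∘ algebraMap 𝒪 P)) :
    letI := univRing_isLocalRing θ
    Function.Surjective (residue (UnivRing θ) ∘ algebraMap 𝒪 (UnivRing θ)) := by
  letI := univRing_isLocalRing θ
  haveI := univMk_isLocalHom θ
  intro y
  obtain ⟨a, rfl⟩ := residue_surjective y
  obtain ⟨p, rfl⟩ := univMk_surjective θ a
  obtain ⟨c, hc⟩ := h (residue P p)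
  refine ⟨c, ?_⟩
  have hc' : residue P (algebraMap 𝒪 P c) = residue P p := hc
  have h1 : algebraMap 𝒪 P c - p ∈ maximalIdeal P := by
    rw [← residue_eq_zero_iff, map_sub, hc', sub_self]
  have h2 : (univMk θ) (algebraMap 𝒪 P c - p) ∈ maximalIdeal (UnivRing θ) := by
    rw [maximalIdeal_univRing θ]
    exact Ideal.mem_map_of_mem _ h1
  rw [map_sub, AlgHom.commutes, ← residue_eq_zero_iff, map_sub, sub_eq_zero] at h2
  exact h2

end Local


/-! ### A convenient sufficient criterion for `DirectedCompat` -/

/-- `DirectedCompat` holds as soon as any two indices are dominated by a third one through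
algebra maps compatible with the `θ`'s and the `r`'s. -/
theorem DirectedCompat.of_maps (r : ∀ x, Gal →* M2 (A x))
    (h : ∀ x y, ∃ (z : ι) (πx : A z →ₐ[𝒪] A x) (πy : A z →ₐ[𝒪] A y),
      πx.comp (θ z) = θ x ∧ πy.comp (θ z) = θ y ∧
      mapMat (πx : A z →+* A x) (r z) = r x ∧ mapMat (πy : A z →+* A y) (r z) = r y) :
    DirectedCompat θ r := by
  intro x y
  obtain ⟨z, πx, πy, hx, hy, hrx, hry⟩ := h x y
  have hx' : ∀ p, θ x p = πx (θ z p) := fun p => by rw [← hx]; rfl
  have hy' : ∀ p, θ y p = πy (θ z p) := fun p => by rw [← hy]; rfl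
  refine ⟨z, ?_, ?_⟩
  · intro p hp
    have hp' : θ z p = 0 := hp
    refine ⟨?_, ?_⟩
    · show θ x p = 0
      rw [hx', hp', map_zero]
    · show θ y p = 0
      rw [hy', hp', map_zero]
  · intro p σ i j hp
    refine ⟨?_, ?_⟩
    · rw [hx', hp, ← hrx]; rfl
    · rw [hy', hp, ← hry]; rfl


/-! ### Chevalley for the universal ring, continuity -/

section Chevalley

variable [IsLocalRing P] [IsNoetherianRing P] [IsAdicComplete (maximalIdeal P) P] [Nonempty ι]
  [∀ x, Nontrivial (A x)]

lemma map_kerInf_univMk : (kerInf θ).map (univMk θ).toRingHom = ⊥ := by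
  rw [Ideal.map_eq_bot_iff_le_ker]
  intro p hp
  exact (univMk_eq_zero_iff θ).mpr ((mem_kerInf θ).mp hp)

/-- **Chevalley for the universal ring**: the kernels of the projections are cofinal with the
powers of the maximal ideal. -/
theorem exists_ker_univProj_le
    (hdir : ∀ x y, ∃ z, RingHom.ker (θ z).toRingHom ≤
      RingHom.ker (θ x).toRingHom ⊓ RingHom.ker (θ y).toRingHom)
    (hopen : ∀ x, ∃ n, maximalIdeal P ^ n ≤ RingHom.ker (θ x).toRingHom) (n : ℕ) :
    letI := univRing_isLocalRing θ
    ∃ x, RingHom.ker (univProj θ x).toRingHom ≤ maximalIdeal (UnivRing θ) ^ n := by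
  letI := univRing_isLocalRing θ
  obtain ⟨x, hx⟩ := chevalley (fun x => RingHom.ker (θ x).toRingHom) hdir hopen n
  refine ⟨x, ?_⟩
  rw [ker_univProj, maximalIdeal_univRing_pow]
  calc (RingHom.ker (θ x).toRingHom).map (univMk θ).toRingHom
      ≤ (kerInf θ ⊔ maximalIdeal P ^ n).map (univMk θ).toRingHom := Ideal.map_mono hx
    _ = (maximalIdeal P ^ n).map (univMk θ).toRingHom := by
        rw [Ideal.map_sup, map_kerInf_univMk, bot_sup_eq]

end Chevalley


/-! ### Properties of the universal matrix representation -/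

section Props

variable [IsLocalRing P] [Nonempty ι] [∀ x, IsLocalRing (A x)]

/-- The projections are local homomorphisms. -/
theorem univProj_isLocalHom (hsurj : ∀ x, Function.Surjective (θ x)) (x : ι) :
    letI := univRing_isLocalRing θ
    IsLocalHom (univProj θ x).toRingHom :=
  letI := univRing_isLocalRing θ
  IsLocalHom.of_surjective _ (univProj_surjective θ hsurj x)

/-- The maximal ideal powers of `A x` are the images of those of the universal ring. -/
theorem map_univProj_maximalIdeal_pow (hsurj : ∀ x, Function.Surjective (θ x)) (x : ι) (n : ℕ) :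
    letI := univRing_isLocalRing θ
    (maximalIdeal (UnivRing θ) ^ n).map (univProj θ x).toRingHom = maximalIdeal (A x) ^ n := by
  letI := univRing_isLocalRing θ
  rw [Ideal.map_pow, IsLocalRing.map_maximalIdeal_of_surjective _ (univProj_surjective θ hsurj x)]

/-- The kernels `ker θ x` are open when the `A x` have nilpotent maximal ideals. -/
theorem ker_open_of_isNilpotent (hsurj : ∀ x, Function.Surjective (θ x))
    (hnil : ∀ x, IsNilpotent (maximalIdeal (A x))) (x : ι) :
    ∃ n, maximalIdeal P ^ n ≤ RingHom.ker (θ x).toRingHom := by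
  obtain ⟨n, hn⟩ := hnil x
  refine ⟨n, ?_⟩
  rw [← Ideal.map_eq_bot_iff_le_ker, Ideal.map_pow,
    IsLocalRing.map_maximalIdeal_of_surjective _ (hsurj x)]
  exact hn

variable [IsNoetherianRing P] [IsAdicComplete (maximalIdeal P) P]

/-- **Continuity** of the universal matrix representation. -/
theorem univMat_isContMat (hsurj : ∀ x, Function.Surjective (θ x))
    (hdir : ∀ x y, ∃ z, RingHom.ker (θ z).toRingHom ≤
      RingHom.ker (θ x).toRingHom ⊓ RingHom.ker (θ y).toRingHom)
    (hopen : ∀ x, ∃ n, maximalIdeal P ^ n ≤ RingHom.ker (θ x).toRingHom)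
    (r : ∀ x, Gal →* M2 (A x)) (hr : ∀ x, IsContMat (r x))
    (ρu : Gal →* M2 (UnivRing θ))
    (hρu : ∀ x, mapMat (univProj θ x).toRingHom ρu = r x) :
    letI := univRing_isLocalRing θ
    IsContMat ρu := by
  letI := univRing_isLocalRing θ
  intro n
  obtain ⟨x, hx⟩ := exists_ker_univProj_le θ hdir hopen n
  obtain ⟨L, hL, h⟩ := hr x n
  refine ⟨L, hL, fun σ hσ i j => ?_⟩
  have h1 : univProj θ x ((ρu σ - 1) i j) = (r x σ - 1) i j := by
    rw [← hρu x]
    simp only [Matrix.sub_apply, mapMat_apply, map_sub]
    congr 1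
    by_cases hij : i = j
    · subst hij; simp
    · simp [Matrix.one_apply_ne hij]
  have h2 : (r x σ - 1) i j ∈
      (maximalIdeal (UnivRing θ) ^ n).map (univProj θ x).toRingHom := by
    rw [map_univProj_maximalIdeal_pow θ hsurj x n]
    exact h σ hσ i j
  rw [Ideal.mem_map_iff_of_surjective (univProj θ x).toRingHom
    (univProj_surjective θ hsurj x)] at h2
  obtain ⟨b, hb, hbe⟩ := h2
  have h3 : (ρu σ - 1) i j - b ∈ RingHom.ker (univProj θ x).toRingHom := by
    show univProj θ x ((ρu σ - 1) i j - b) = 0
    rw [map_sub, h1, sub_eq_zero]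
    exact hbe.symm
  have := Ideal.add_mem _ (hx h3) hb
  rwa [sub_add_cancel] at this

end Props

end UnivMat

end Fermat.Agent.S53

end
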