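/-
S53 (universal deformation ring) -- the universal matrix representation over the abstract
universal ring `UnivRing θ = P ⧸ ⨅ ker θ_x` is a normalised lift of type `𝒟` with the universal
property over Artinian test algebras (abstract version; hedge route (B) for the `Ring*` blocks).
Owner: helper27.  Everything lives in `namespace Fermat.Agent.S53`.
-/
import Mathlib
import Fermat.Agent.S53.Defs
import Fermat.Agent.S53.Chevalley
import Fermat.Agent.S53.TestAlg
import Fermat.Agent.S53.CompleteLift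
import Fermat.Agent.S53.UnivMat

set_option autoImplicit false

noncomputable section

namespace Fermat.Agent.S53

open IsLocalRing

section UnivRep

variable {𝒪 : Type} [CommRing 𝒪] [IsLocalRing 𝒪] {ρbar : ResidualGaloisRep (ResidueField 𝒪)}
  (D : RigidData 𝒪 ρbar)
  {𝒟 : ∀ ⦃A : Type⦄ [CommRing A] [IsLocalRing A] [Algebra 𝒪 A], GaloisRepAdic A → Prop}
  {P : Type} [CommRing P] [Algebra 𝒪 P] [IsLocalRing P]
  {ι : Sort*} [Nonempty ι] {A : ι → Type} [∀ x, CommRing (A x)] [∀ x, IsLocalRing (A x)]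
  [∀ x, Algebra 𝒪 (A x)]
  (θ : ∀ x, P →ₐ[𝒪] A x) (r : ∀ x, Gal →* M2 (A x))

/-- The universal matrix lifts `c` as soon as one (hence every) `r x` does. -/
theorem univMat_liftsC (hr : ∀ x, LiftsC D (r x)) (ρu : Gal →* M2 (UnivRing θ))
    (hρu : ∀ x, mapMat (univProj θ x).toRingHom ρu = r x) :
    letI := univRing_isLocalRing θ
    LiftsC D ρu := by
  letI := univRing_isLocalRing θ
  intro σ i j
  obtain ⟨x⟩ := ‹Nonempty ι›
  have h := hr x σ i j
  rw [mem_maximalIdeal, mem_nonunits_iff] at h ⊢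
  intro hu
  apply h
  have h1 := hu.map (univProj θ x)
  have h2 : univProj θ x (ρu σ i j - algebraMap 𝒪 (UnivRing θ) (D.c σ i j)) =
      r x σ i j - algebraMap 𝒪 (A x) (D.c σ i j) := by
    rw [map_sub, AlgHom.commutes, ← hρu x]; rfl
  rwa [h2] at h1

/-- The universal matrix is normalised as soon as every `r x` is. -/
theorem univMat_normalized (hr : ∀ x, Normalized D (r x)) (ρu : Gal →* M2 (UnivRing θ))
    (hρu : ∀ x, mapMat (univProj θ x).toRingHom ρu = r x) :
    letI := univRing_isLocalRing θ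
    Normalized D ρu := by
  letI := univRing_isLocalRing θ
  have keyE : ∀ (x : ι) (i j : Fin 2), univProj θ x (eMat D ρu i j) = eMat D (r x) i j := by
    intro x i j
    rw [← hρu x]
    exact (CompleteLift.eMat_map D ρu (univProj θ x) i j).symm
  have keyF : ∀ (x : ι) (i j : Fin 2), univProj θ x (fMat D ρu i j) = fMat D (r x) i j := by
    intro x i j
    rw [← hρu x]
    exact (CompleteLift.fMat_map D ρu (univProj θ x) i j).symm
  refine ⟨?_, ?_, ?_⟩
  · apply univProj_jointly_injective θ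
    intro x
    rw [keyE, (hr x).1, map_zero]
  · apply univProj_jointly_injective θ
    intro x
    rw [keyF, (hr x).2.1, map_zero]
  · apply univProj_jointly_injective θ
    intro x
    rw [keyF, (hr x).2.2, map_one]

omit [IsLocalRing 𝒪] [IsLocalRing P] [Nonempty ι] [∀ x, IsLocalRing (A x)] in
/-- Factorisation through a projection. -/
theorem exists_factor_univProj (hsurj : ∀ x, Function.Surjective (θ x)) (x : ι) {B : Type}
    [CommRing B] [Algebra 𝒪 B] (φ : UnivRing θ →ₐ[𝒪] B)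
    (h : RingHom.ker (univProj θ x).toRingHom ≤ RingHom.ker φ.toRingHom) :
    ∃ ψ : A x →ₐ[𝒪] B, ψ.comp (univProj θ x) = φ :=
  ⟨AlgHom.liftOfSurjective (univProj θ x) (univProj_surjective θ hsurj x) φ h,
    AlgHom.liftOfSurjective_comp _ _ _ _⟩

/-- An algebra map from the universal ring to an Artinian test algebra kills a power of the
maximal ideal. -/
theorem exists_pow_le_ker_of_isArtinianTestAlgebra {B : Type} [CommRing B] [IsLocalRing B]
    [Algebra 𝒪 B] (hB : GaloisRep.IsArtinianTestAlgebra 𝒪 B) :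
    letI := univRing_isLocalRing θ
    ∃ n, ∀ φ : UnivRing θ →ₐ[𝒪] B, maximalIdeal (UnivRing θ) ^ n ≤ RingHom.ker φ.toRingHom := by
  letI := univRing_isLocalRing θ
  obtain ⟨n, hn⟩ := isNilpotent_maximalIdeal_of_isArtinianTestAlgebra hB
  refine ⟨n, fun φ => ?_⟩
  haveI hloc : IsLocalHom (φ : UnivRing θ →+* B) :=
    isLocalHom_algHom_of_target hB.isLocalHom hB.residue_surjective φ
  rw [← Ideal.map_eq_bot_iff_le_ker, Ideal.map_pow, ← le_bot_iff]
  calc (maximalIdeal (UnivRing θ)).map φ.toRingHom ^ n ≤ maximalIdeal B ^ n :=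
        Ideal.pow_right_mono (IsLocalRing.map_maximalIdeal_le (φ : UnivRing θ →+* B)) n
    _ = ⊥ := hn

/-- `𝒟 (ofMat s _)` only depends on `s`. -/
theorem isD_ofMat_congr {B : Type} [CommRing B] [IsLocalRing B] [Algebra 𝒪 B]
    {s s' : Gal →* M2 B} (h : s = s') (hs : IsContMat s) (hs' : IsContMat s')
    (hD : 𝒟 (ofMat s hs)) : 𝒟 (ofMat s' hs') := by
  subst h
  exact hD

variable [IsNoetherianRing P] [IsAdicComplete (maximalIdeal P) P]

/-- **The universal matrix is of type `𝒟`.** -/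
theorem univMat_isD (h𝒟 : GaloisRep.IsDeformationCondition 𝒪 𝒟)
    (hC2 : ∀ {A B : Type} [CommRing A] [IsLocalRing A] [CommRing B] [IsLocalRing B]
      (φ : A →+* B) (hφ : IsLocalHom φ) (r : Gal →* M2 A) (hr : IsContMat r),
      ((ofMat r hr).baseChangeAlong φ hφ).IsEquiv (ofMat (mapMat φ r) (hr.map φ hφ)))
    (hPloc : IsLocalHom (algebraMap 𝒪 P))
    (hPres : Function.Surjective (residue P ∘ algebraMap 𝒪 P))
    (htest : ∀ x, GaloisRep.IsArtinianTestAlgebra 𝒪 (A x))
    (hsurj : ∀ x, Function.Surjective (θ x))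
    (hdir : ∀ x y, ∃ z, RingHom.ker (θ z).toRingHom ≤
      RingHom.ker (θ x).toRingHom ⊓ RingHom.ker (θ y).toRingHom)
    (hr : ∀ x, IsContMat (r x)) (hD : ∀ x, 𝒟 (ofMat (r x) (hr x)))
    (ρu : Gal →* M2 (UnivRing θ))
    (hρu : ∀ x, mapMat (univProj θ x).toRingHom ρu = r x) :
    letI := univRing_isLocalRing θ
    ∀ hcont : IsContMat ρu, 𝒟 (ofMat ρu hcont) := by
  letI := univRing_isLocalRing θ
  haveI := univRing_isAdicComplete θ
  intro hcont
  have hopen := ker_open_of_isNilpotent θ hsurj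
    (fun x => isNilpotent_maximalIdeal_of_isArtinianTestAlgebra (htest x))
  rw [h𝒟.iff_forall_surjective (univRing_algebraMap_isLocalHom θ hPloc)
    (univRing_residue_surjective θ hPres)]
  intro B _ _ _ hB q hq _
  obtain ⟨n, hn⟩ := exists_pow_le_ker_of_isArtinianTestAlgebra θ hB
  obtain ⟨x, hx⟩ := exists_ker_univProj_le θ hdir hopen n
  obtain ⟨ψ, hψ⟩ := exists_factor_univProj θ hsurj x q (hx.trans (hn q))
  have hψloc : IsLocalHom (ψ : A x →+* B) :=
    isLocalHom_algHom_of_target hB.isLocalHom hB.residue_surjective ψ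
  have h1 : 𝒟 ((ofMat (r x) (hr x)).baseChangeAlong (ψ : A x →+* B) hψloc) :=
    h𝒟.baseChangeAlong (htest x) hB ψ hψloc (hD x)
  have h2 : 𝒟 (ofMat (mapMat (ψ : A x →+* B) (r x)) ((hr x).map _ hψloc)) :=
    h𝒟.of_isEquiv hB (hC2 _ hψloc (r x) (hr x)) h1
  have h3 : mapMat (ψ : A x →+* B) (r x) = mapMat (q : UnivRing θ →+* B) ρu := by
    rw [← hρu x, ← hψ]; rfl
  have h4 : 𝒟 (ofMat (mapMat (q : UnivRing θ →+* B) ρu) (hcont.map _ hq)) :=
    isD_ofMat_congr h3 _ _ h2
  exact h𝒟.of_isEquiv hB (CompleteLift.isEquiv_symm (hC2 _ hq ρu hcont)) h4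

/-- **The universal property over Artinian test algebras.** -/
theorem univMat_artinianUniversal
    (htest : ∀ x, GaloisRep.IsArtinianTestAlgebra 𝒪 (A x))
    (hsurj : ∀ x, Function.Surjective (θ x))
    (hdir : ∀ x y, ∃ z, RingHom.ker (θ z).toRingHom ≤
      RingHom.ker (θ x).toRingHom ⊓ RingHom.ker (θ y).toRingHom)
    (hgen : ∀ x, Function.Surjective (ev (𝒪 := 𝒪) (r x)))
    (hcover : ∀ (B : Type) [CommRing B] [IsLocalRing B] [Algebra 𝒪 B],
      GaloisRep.IsArtinianTestAlgebra 𝒪 B → ∀ (s : Gal →* M2 B) (hs : IsContMat s),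
      LiftsC D s → Normalized D s → 𝒟 (ofMat s hs) →
      ∃ (x : ι) (ψ : A x →ₐ[𝒪] B), mapMat (ψ : A x →+* B) (r x) = s)
    (ρu : Gal →* M2 (UnivRing θ))
    (hρu : ∀ x, mapMat (univProj θ x).toRingHom ρu = r x) :
    letI := univRing_isLocalRing θ
    CompleteLift.ArtinianUniversal D 𝒟 ρu := by
  letI := univRing_isLocalRing θ
  have hopen := ker_open_of_isNilpotent θ hsurj
    (fun x => isNilpotent_maximalIdeal_of_isArtinianTestAlgebra (htest x))
  intro B _ _ _ hB s hs hl hn hDs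
  obtain ⟨x, ψ, hψ⟩ := hcover B hB s hs hl hn hDs
  have hφ : mapMat ((ψ.comp (univProj θ x) : UnivRing θ →ₐ[𝒪] B) : UnivRing θ →+* B) ρu = s := by
    rw [← hψ, ← hρu x]; rfl
  refine ⟨ψ.comp (univProj θ x), hφ, ?_⟩
  intro φ' hφ'
  obtain ⟨n, hn⟩ := exists_pow_le_ker_of_isArtinianTestAlgebra θ hB
  obtain ⟨y, hy⟩ := exists_ker_univProj_le θ hdir hopen n
  obtain ⟨ψ₁, hψ₁⟩ := exists_factor_univProj θ hsurj y φ' (hy.trans (hn φ'))
  obtain ⟨ψ₂, hψ₂⟩ := exists_factor_univProj θ hsurj y (ψ.comp (univProj θ x))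
    (hy.trans (hn _))
  have h1 : mapMat (ψ₁ : A y →+* B) (r y) = s := by
    rw [← hφ', ← hρu y, ← hψ₁]; rfl
  have h2 : mapMat (ψ₂ : A y →+* B) (r y) = s := by
    rw [← hφ, ← hρu y, ← hψ₂]; rfl
  have h3 : ψ₁.comp (ev (𝒪 := 𝒪) (r y)) = ψ₂.comp (ev (𝒪 := 𝒪) (r y)) := by
    rw [ev_map, ev_map, h1, h2]
  have h4 : ψ₁ = ψ₂ := (AlgHom.cancel_right (hgen y)).mp h3
  rw [← hψ₁, ← hψ₂, h4]

/-- **Packaged existence theorem (abstract version of the `Ring` block).**

Given a complete Noetherian local `𝒪`-algebra `P` and a family of Artinian test algebras `A x`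
with normalised `𝒟`-lifts `r x` whose entries generate `A x`, covered compatibly by surjections
`θ x : P → A x` (`DirectedCompat`), such that every normalised `𝒟`-lift over an Artinian test
algebra is pushed forward from some `r x`: the ring `P ⧸ ⨅ ker θ x` carries a universal
normalised `𝒟`-lift for Artinian test algebras. -/
theorem exists_artinianUniversal (h𝒟 : GaloisRep.IsDeformationCondition 𝒪 𝒟)
    (hC2 : ∀ {A B : Type} [CommRing A] [IsLocalRing A] [CommRing B] [IsLocalRing B]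
      (φ : A →+* B) (hφ : IsLocalHom φ) (r : Gal →* M2 A) (hr : IsContMat r),
      ((ofMat r hr).baseChangeAlong φ hφ).IsEquiv (ofMat (mapMat φ r) (hr.map φ hφ)))
    (hPloc : IsLocalHom (algebraMap 𝒪 P))
    (hPres : Function.Surjective (residue P ∘ algebraMap 𝒪 P))
    (htest : ∀ x, GaloisRep.IsArtinianTestAlgebra 𝒪 (A x))
    (hnl : ∀ x, IsNLift D 𝒟 (r x))
    (hgen : ∀ x, Function.Surjective (ev (𝒪 := 𝒪) (r x)))
    (hsurj : ∀ x, Function.Surjective (θ x))
    (hdir : DirectedCompat θ r)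
    (hcover : ∀ (B : Type) [CommRing B] [IsLocalRing B] [Algebra 𝒪 B],
      GaloisRep.IsArtinianTestAlgebra 𝒪 B → ∀ s : Gal →* M2 B, IsNLift D 𝒟 s →
      ∃ (x : ι) (ψ : A x →ₐ[𝒪] B), mapMat (ψ : A x →+* B) (r x) = s) :
    ∃ (R : Type) (_ : CommRing R) (_ : IsLocalRing R) (_ : IsNoetherianRing R)
      (_ : IsAdicComplete (maximalIdeal R) R) (_ : Algebra 𝒪 R)
      (_ : IsLocalHom (algebraMap 𝒪 R)),
      Function.Surjective (residue R ∘ algebraMap 𝒪 R) ∧
      ∃ ρu : Gal →* M2 R, IsNLift D 𝒟 ρu ∧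
        ∀ (B : Type) [CommRing B] [IsLocalRing B] [Algebra 𝒪 B],
          GaloisRep.IsArtinianTestAlgebra 𝒪 B → ∀ s : Gal →* M2 B, IsNLift D 𝒟 s →
            ∃! φ : R →ₐ[𝒪] B, mapMat (φ : R →+* B) ρu = s := by
  letI := univRing_isLocalRing θ
  have hopen := ker_open_of_isNilpotent θ hsurj
    (fun x => isNilpotent_maximalIdeal_of_isArtinianTestAlgebra (htest x))
  have hdir' : ∀ x y, ∃ z, RingHom.ker (θ z).toRingHom ≤
      RingHom.ker (θ x).toRingHom ⊓ RingHom.ker (θ y).toRingHom :=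
    fun x y => (hdir x y).imp fun _ h => h.1
  obtain ⟨ρu, hρu⟩ := exists_univMat θ r hsurj hopen hdir
  have hcont : IsContMat ρu :=
    univMat_isContMat θ hsurj hdir' hopen r (fun x => (hnl x).cont) ρu hρu
  have hlift : LiftsC D ρu := univMat_liftsC D θ r (fun x => (hnl x).lifts) ρu hρu
  have hnorm : Normalized D ρu := univMat_normalized D θ r (fun x => (hnl x).norm) ρu hρu
  have hisD : 𝒟 (ofMat ρu hcont) :=
    univMat_isD θ r h𝒟 hC2 hPloc hPres htest hsurj hdir' (fun x => (hnl x).cont)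
      (fun x => (hnl x).isD) ρu hρu hcont
  have huniv : CompleteLift.ArtinianUniversal D 𝒟 ρu :=
    univMat_artinianUniversal D θ r htest hsurj hdir' hgen
      (fun B _ _ _ hB s hs hl hn hDs => hcover B hB s ⟨hs, hl, hn, hDs⟩) ρu hρu
  exact ⟨UnivRing θ, inferInstance, univRing_isLocalRing θ, inferInstance,
    univRing_isAdicComplete θ, inferInstance, univRing_algebraMap_isLocalHom θ hPloc,
    univRing_residue_surjective θ hPres, ρu, ⟨hcont, hlift, hnorm, hisD⟩,
    fun B _ _ _ hB s hs => huniv B hB s hs.cont hs.lifts hs.norm hs.isD⟩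

end UnivRep

end Fermat.Agent.S53

end
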