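/-
S53 block RingB (owner: helper27): hedge route (B) for the `Ring` block.  The universal ring for
Artinian test algebras, obtained from the abstract `exists_artinianUniversal` (`UnivRep.lean`)
applied to a cover `C : PtCover D 𝒟` of all points.  Same statement as `exists_artUniv`
(`Ring.lean`), but independent of the blocks RingChev / RingUniv / RingProps / RingIsD / RingArt
and of the theorems (not the definitions) of RingDef.
-/
import Fermat.Agent.S53.RingDef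
import Fermat.Agent.S53.PtJoin
import Fermat.Agent.S53.PointsSub
import Fermat.Agent.S53.Mat
import Fermat.Agent.S53.UnivRep
import Fermat.Agent.S53.CoverPts
import Fermat.Agent.S53.BasePoint

set_option autoImplicit false

namespace Fermat.Agent.S53

open IsLocalRing GaloisRep

/-- Route (B): from a cover of all points to the universal ring for Artinian test algebras. -/
theorem PtCover.exists_artUniv_B {𝒪 : Type} [CommRing 𝒪] [IsLocalRing 𝒪] [IsNoetherianRing 𝒪]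
    {ρbar : ResidualGaloisRep (ResidueField 𝒪)} {D : RigidData 𝒪 ρbar}
    {𝒟 : ∀ ⦃A : Type⦄ [CommRing A] [IsLocalRing A] [Algebra 𝒪 A], GaloisRepAdic A → Prop}
    (C : PtCover D 𝒟) [Nonempty (Pt D 𝒟)] (h𝒟 : IsDeformationCondition 𝒪 𝒟) :
    ∃ (R : Type) (_ : CommRing R) (_ : IsLocalRing R) (_ : IsNoetherianRing R)
      (_ : IsAdicComplete (maximalIdeal R) R) (_ : Algebra 𝒪 R)
      (_ : IsLocalHom (algebraMap 𝒪 R)),
      Function.Surjective (residue R ∘ algebraMap 𝒪 R) ∧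
      ∃ ρu : Gal →* M2 R, IsNLift D 𝒟 ρu ∧
        ∀ (B : Type) [CommRing B] [IsLocalRing B] [Algebra 𝒪 B], IsArtinianTestAlgebra 𝒪 B →
          ∀ r : Gal →* M2 B, IsNLift D 𝒟 r →
            ∃! φ : R →ₐ[𝒪] B, mapMat (φ : R →+* B) ρu = r := by
  refine exists_artinianUniversal D (A := fun x : Pt D 𝒟 => x.A) C.θ (fun x => x.r) h𝒟
    (fun φ hφ r hr => ofMat_baseChangeAlong_isEquiv φ hφ r hr) C.isLocalHom
    C.residue_surjective (fun x => x.test) (fun x => x.nlift) (fun x => x.gen) C.θ_surjective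
    ?_ ?_
  · apply DirectedCompat.of_maps
    intro x y
    obtain ⟨z, p₁, p₂, h1, h2⟩ := exists_join D h𝒟 x y
    exact ⟨z, p₁, p₂, C.θ_natural z x p₁ h1, C.θ_natural z y p₂ h2, h1, h2⟩
  · intro B _ _ _ hB s hs
    obtain ⟨x, j, -, h⟩ := exists_pt_of_isNLift D h𝒟 hB hs
    exact ⟨x, j, h⟩

/-- Route (B) version of `exists_artUniv` (same statement). -/
theorem exists_artUniv_B {𝒪 : Type} [CommRing 𝒪] [IsLocalRing 𝒪] [IsNoetherianRing 𝒪]
    [IsAdicComplete (maximalIdeal 𝒪) 𝒪] {ρbar : ResidualGaloisRep (ResidueField 𝒪)}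
    (D : RigidData 𝒪 ρbar)
    {𝒟 : ∀ ⦃A : Type⦄ [CommRing A] [IsLocalRing A] [Algebra 𝒪 A], GaloisRepAdic A → Prop}
    (h𝒟 : IsDeformationCondition 𝒪 𝒟) (hfin : TangentFinite 𝒪 ρbar 𝒟)
    (hbar : 𝒟 (GaloisRepAdic.ofResidualGaloisRep ρbar)) :
    ∃ (R : Type) (_ : CommRing R) (_ : IsLocalRing R) (_ : IsNoetherianRing R)
      (_ : IsAdicComplete (maximalIdeal R) R) (_ : Algebra 𝒪 R)
      (_ : IsLocalHom (algebraMap 𝒪 R)),
      Function.Surjective (residue R ∘ algebraMap 𝒪 R) ∧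
      ∃ ρu : Gal →* M2 R, IsNLift D 𝒟 ρu ∧
        ∀ (B : Type) [CommRing B] [IsLocalRing B] [Algebra 𝒪 B], IsArtinianTestAlgebra 𝒪 B →
          ∀ r : Gal →* M2 B, IsNLift D 𝒟 r →
            ∃! φ : R →ₐ[𝒪] B, mapMat (φ : R →+* B) ρu = r := by
  obtain ⟨r₀, hr₀, hl₀, hn₀, hd₀⟩ := exists_basePoint h𝒟 hbar D
  obtain ⟨x₀, -⟩ := exists_pt_of_isNLift D h𝒟 isArtinianTestAlgebra_residueField
    (r := r₀) ⟨hr₀, hl₀, hn₀, hd₀⟩
  haveI : Nonempty (Pt D 𝒟) := ⟨x₀⟩
  obtain ⟨C⟩ := exists_ptCover D h𝒟 hfin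
  exact C.exists_artUniv_B h𝒟

end Fermat.Agent.S53
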