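/-
S53 (universal deformation ring) -- block `TanFinite`.
Owner: helper93.  Everything lives in `namespace Fermat.Agent.S53`.

Hypothesis-free form of `finite_tanLift_of` (block `TanDual`): the blocks `MatRes` (C4) and
`Glue` (2) discharge its two extra hypotheses.  Also a few conveniences for the type `TanLift`.
-/
import Mathlib
import Fermat.Agent.S53.TanDual
import Fermat.Agent.S53.MatRes
import Fermat.Agent.S53.Glue

set_option autoImplicit false

noncomputable section

namespace Fermat.Agent.S53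

open IsLocalRing

section TanFinite

variable {𝒪 : Type} [CommRing 𝒪] [IsLocalRing 𝒪] {ρbar : ResidualGaloisRep (ResidueField 𝒪)}
  (D : RigidData 𝒪 ρbar)
  {𝒟 : ∀ ⦃A : Type⦄ [CommRing A] [IsLocalRing A] [Algebra 𝒪 A], GaloisRepAdic A → Prop}

/-- `GaloisRep.TangentFinite` implies that there are only finitely many normalised lifts of type
`𝒟` over the dual numbers `k[ε]`. -/
theorem finite_tanLift (hfin : GaloisRep.TangentFinite 𝒪 ρbar 𝒟) : Finite (TanLift D 𝒟) := by
  letI := dualNumberAlgebra 𝒪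
  haveI := dualNumber_isLocalHom 𝒪
  exact finite_tanLift_of D hfin
    (fun r hr hl => residual_isEquiv_of_liftsC D r hr hl)
    (fun r r' hr hr' hl hn hl' hn' h =>
      Glue.eq_of_normalized_of_isEquiv D r r' hr hr' hl hn hl' hn' h)

variable {D}

/-- A normalised lift of type `𝒟` over `k[ε]`, as an element of `TanLift D 𝒟`. -/
def TanLift.ofIsNLift
    (r : Gal →* M2 (DualNumber (ResidueField 𝒪)))
    (h : letI := dualNumberAlgebra 𝒪
      IsNLift D 𝒟 r) : TanLift D 𝒟 :=
  letI := dualNumberAlgebra 𝒪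
  ⟨r, h.cont, h.lifts, h.norm, h.isD⟩

@[simp] lemma TanLift.ofIsNLift_val
    (r : Gal →* M2 (DualNumber (ResidueField 𝒪)))
    (h : letI := dualNumberAlgebra 𝒪
      IsNLift D 𝒟 r) : (TanLift.ofIsNLift r h).1 = r := rfl

/-- The underlying matrix representation of an element of `TanLift D 𝒟` is a normalised lift of
type `𝒟`. -/
lemma TanLift.isNLift (t : TanLift D 𝒟) :
    letI := dualNumberAlgebra 𝒪
    IsNLift D 𝒟 t.1 :=
  letI := dualNumberAlgebra 𝒪
  ⟨t.2.choose, t.2.choose_spec.1, t.2.choose_spec.2.1, t.2.choose_spec.2.2⟩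

/-- A finite set of matrix coordinates separating the (finitely many) elements of
`TanLift D 𝒟`. -/
theorem exists_finset_separating (hfin : GaloisRep.TangentFinite 𝒪 ρbar 𝒟) :
    ∃ S : Finset (Gal × Fin 2 × Fin 2), ∀ t t' : TanLift D 𝒟,
      (∀ s ∈ S, t.1 s.1 s.2.1 s.2.2 = t'.1 s.1 s.2.1 s.2.2) → t = t' := by
  classical
  haveI : Finite (TanLift D 𝒟) := finite_tanLift D hfin
  haveI : Fintype (TanLift D 𝒟) := Fintype.ofFinite _
  -- for each pair of distinct elements choose a separating coordinate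
  have hsep : ∀ p : TanLift D 𝒟 × TanLift D 𝒟, ∃ s : Gal × Fin 2 × Fin 2,
      p.1 ≠ p.2 → p.1.1 s.1 s.2.1 s.2.2 ≠ p.2.1 s.1 s.2.1 s.2.2 := by
    intro p
    by_cases hp : p.1 = p.2
    · exact ⟨(1, 0, 0), fun h => absurd hp h⟩
    · have hne : p.1.1 ≠ p.2.1 := fun h => hp (Subtype.ext h)
      have : ∃ σ i j, p.1.1 σ i j ≠ p.2.1 σ i j := by
        by_contra hcon
        push Not at hcon
        exact hne (MonoidHom.ext fun σ => Matrix.ext fun i j => hcon σ i j)
      obtain ⟨σ, i, j, h⟩ := this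
      exact ⟨(σ, i, j), fun _ => h⟩
  choose f hf using hsep
  refine ⟨Finset.univ.image f, fun t t' h => ?_⟩
  by_contra hne
  exact hf (t, t') hne (h (f (t, t')) (Finset.mem_image_of_mem f (Finset.mem_univ _)))

end TanFinite

end Fermat.Agent.S53

end
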